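import Mathlib
import Fermat.Prelude.Def_GaloisRep_Adic

set_option autoImplicit false
set_option linter.unusedSectionVars false
set_option linter.unusedVariables false

namespace Fermat.Agent.S30.H97

open Polynomial

noncomputable section

section Alg

variable {G : Type*} [Group G] {E : Type*} [Field E] [CharZero E]

/-- The hypotheses on a two-dimensional "trace function with determinant" together with an
involution `c` of determinant `-1`. -/
structure PC (t : G → E) (ε : G →* E) (c : G) : Prop where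
  t_one : t 1 = 2
  pc : ∀ g h : G, t g * t h = t (g * h) + ε h * t (g * h⁻¹)
  c_sq : c * c = 1
  eps_c : ε c = -1

/-- The function `g ↦ t (u * g)`. -/
def tau (t : G → E) (u : G) : G → E := fun g => t (u * g)

variable (E) in
/-- Right translation on functions. -/
def Rt (h : G) : (G → E) →ₗ[E] (G → E) := LinearMap.funLeft E E (fun g : G => g * h)

@[simp] theorem Rt_apply (h : G) (φ : G → E) (x : G) : Rt E h φ x = φ (x * h) := rfl

/-- The span of the functions `tau t u`. -/
def Fsp (t : G → E) : Submodule E (G → E) := Submodule.span E (Set.range (tau t))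

/-- `tau t u` as an element of `Fsp t`. -/
def tauF (t : G → E) (u : G) : Fsp t := ⟨tau t u, Submodule.subset_span ⟨u, rfl⟩⟩

@[simp] theorem tauF_apply (t : G → E) (u x : G) : (tauF t u : G → E) x = t (u * x) := rfl

theorem end_ext {t : G → E} {b b' : Module.End E (Fsp t)}
    (h : ∀ u, b (tauF t u) = b' (tauF t u)) : b = b' := by
  have hs : Submodule.span E (((↑) : Fsp t → (G → E)) ⁻¹' Set.range (tau t)) = ⊤ :=
    Submodule.span_span_coe_preimage
  refine LinearMap.ext_on hs ?_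
  rintro x ⟨u, hu⟩
  have : x = tauF t u := Subtype.ext hu.symm
  rw [this]
  exact h u

/-- The trace functional: evaluate at `tau t 1`, then at `1`. -/
def Tr (t : G → E) : Module.End E (Fsp t) →ₗ[E] E where
  toFun b := (b (tauF t 1) : G → E) 1
  map_add' _ _ := rfl
  map_smul' _ _ := rfl

theorem Tr_apply (t : G → E) (b : Module.End E (Fsp t)) :
    Tr t b = (b (tauF t 1) : G → E) 1 := rfl

namespace PC

variable {t : G → E} {ε : G →* E} {c : G} (H : PC t ε c)
include H

theorem t_inv (h : G) : ε h * t h⁻¹ = t h := by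
  have := H.pc 1 h
  rw [H.t_one, one_mul, one_mul] at this
  linear_combination -this

theorem t_comm (g h : G) : t (g * h) = t (h * g) := by
  have h1 := H.pc g h
  have h2 := H.pc h g
  have h3 := H.t_inv (g * h⁻¹)
  have h4 : ε h * ε h⁻¹ = 1 := by rw [← map_mul, mul_inv_cancel, map_one]
  rw [mul_inv_rev, inv_inv, map_mul] at h3
  linear_combination -h1 + h2 + ε h * h3 - (ε g * t (h * g⁻¹)) * h4

theorem t_c : t c = 0 := by
  have h1 := H.pc c c
  rw [H.c_sq, mul_inv_cancel, H.t_one, H.eps_c] at h1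
  have : t c * t c = 0 := by linear_combination h1
  exact mul_self_eq_zero.mp this

theorem t_sq (h y : G) : t (h * h * y) = t h * t (h * y) - ε h * t y := by
  have h1 := H.pc h (h * y)
  have h2 : t (h * (h * y)⁻¹) = t y⁻¹ := by
    rw [mul_inv_rev, H.t_comm]; congr 1; group
  have h3 := H.t_inv y
  have e1 : h * (h * y) = h * h * y := by group
  rw [h2, map_mul, e1] at h1
  linear_combination -h1 - ε h * h3

theorem eps_ne (h : G) : ε h ≠ 0 := by
  intro h0
  have : ε h * ε h⁻¹ = 1 := by rw [← map_mul, mul_inv_cancel, map_one]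
  rw [h0, zero_mul] at this
  exact zero_ne_one this

theorem Rt_tau (h u : G) : Rt E h (tau t u) = tau t (h * u) := by
  funext x
  show t (u * (x * h)) = t (h * u * x)
  rw [← mul_assoc, H.t_comm (u * x) h, mul_assoc]

theorem Rt_mem (h : G) {φ : G → E} (hφ : φ ∈ Fsp t) : Rt E h φ ∈ Fsp t := by
  induction hφ using Submodule.span_induction with
  | mem x hx => obtain ⟨u, rfl⟩ := hx; rw [H.Rt_tau]; exact Submodule.subset_span ⟨_, rfl⟩
  | zero => simp
  | add x y _ _ hx hy => rw [map_add]; exact add_mem hx hy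
  | smul a x _ hx => rw [map_smul]; exact Submodule.smul_mem _ _ hx

/-- The representation of `G` on `Fsp t` by right translation. -/
def rho : G →* Module.End E (Fsp t) where
  toFun h := (Rt E h).restrict (fun φ hφ => H.Rt_mem h hφ)
  map_one' := LinearMap.ext fun φ => Subtype.ext (funext fun x => by
    show (φ : G → E) (x * 1) = (φ : G → E) x
    rw [mul_one])
  map_mul' g h := LinearMap.ext fun φ => Subtype.ext (funext fun x => by
    show (φ : G → E) (x * (g * h)) = (φ : G → E) (x * g * h)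
    rw [mul_assoc])

theorem rho_apply (h : G) (φ : Fsp t) (x : G) : (H.rho h φ : G → E) x = (φ : G → E) (x * h) := rfl

theorem rho_tauF (h u : G) : H.rho h (tauF t u) = tauF t (h * u) :=
  Subtype.ext (H.Rt_tau h u)

theorem Tr_rho (h : G) : Tr t (H.rho h) = t h := by
  show t (1 * (1 * h)) = t h
  rw [one_mul, one_mul]

/-- The span of the image of `rho`: a model of the Cayley-Hamilton quotient of the group algebra. -/
def B : Submodule E (Module.End E (Fsp t)) := Submodule.span E (Set.range H.rho)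

theorem eval_eq {b : Module.End E (Fsp t)} (hb : b ∈ H.B) (u x : G) :
    (b (tauF t u) : G → E) x = Tr t (b * H.rho (u * x)) := by
  induction hb using Submodule.span_induction with
  | mem y hy =>
    obtain ⟨h, rfl⟩ := hy
    rw [← map_mul, H.Tr_rho, H.rho_tauF, tauF_apply, mul_assoc]
  | zero => rw [zero_mul, map_zero]; rfl
  | add y z _ _ hy hz =>
    rw [add_mul, map_add, ← hy, ← hz]; rfl
  | smul a y _ hy =>
    rw [smul_mul_assoc, map_smul, ← hy]; rfl

theorem eq_zero_of_Tr {b : Module.End E (Fsp t)} (hb : b ∈ H.B)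
    (h0 : ∀ y : G, Tr t (b * H.rho y) = 0) : b = 0 := by
  apply end_ext
  intro u
  apply Subtype.ext
  funext x
  rw [H.eval_eq hb, h0]; rfl

theorem eq_zero_of_apply {b : Module.End E (Fsp t)} (hb : b ∈ H.B)
    (h0 : b (tauF t 1) = 0) : b = 0 := by
  apply H.eq_zero_of_Tr hb
  intro y
  have := H.eval_eq hb 1 y
  rw [one_mul] at this
  rw [← this, h0]; rfl

theorem CH (h : G) :
    H.rho h * H.rho h - t h • H.rho h + ε h • (1 : Module.End E (Fsp t)) = 0 := by
  apply end_ext
  intro u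
  apply Subtype.ext
  funext x
  have key := H.t_sq h (u * x)
  have e1 : h * (h * u) * x = h * h * (u * x) := by group
  have e2 : h * u * x = h * (u * x) := by group
  have e3 : (H.rho h * H.rho h - t h • H.rho h + ε h • (1 : Module.End E (Fsp t))) (tauF t u)
      = tauF t (h * (h * u)) - t h • tauF t (h * u) + ε h • tauF t u := by
    rw [LinearMap.add_apply, LinearMap.sub_apply, LinearMap.smul_apply, LinearMap.smul_apply,
      Module.End.mul_apply, Module.End.one_apply, H.rho_tauF, H.rho_tauF]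
  rw [e3]
  show t (h * (h * u) * x) - t h * t (h * u * x) + ε h * t (u * x) = 0
  rw [e1, e2, key]; ring

end PC

end Alg

section Abstract

variable {G : Type*} [Group G] {E : Type*} [Field E] [CharZero E]
variable {V : Type*} [AddCommGroup V] [Module E V]

/-- An abstract model of the Cayley-Hamilton algebra of a trace function: a representation `ρ`
on `V` with a trace functional on `End V`, satisfying the Cayley-Hamilton relation and
nondegeneracy of the trace form on the span of `ρ`. -/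
structure IsModel (t : G → E) (ε : G →* E) (ρ : G →* Module.End E V)
    (Tr : Module.End E V →ₗ[E] E) : Prop where
  Tr_rho : ∀ h, Tr (ρ h) = t h
  CH : ∀ h, ρ h * ρ h - t h • ρ h + ε h • (1 : Module.End E V) = 0
  nondeg : ∀ b ∈ Submodule.span E (Set.range ρ), (∀ y, Tr (b * ρ y) = 0) → b = 0

namespace IsModel

variable {t : G → E} {ε : G →* E} {c : G} {ρ : G →* Module.End E V}
  {Tr : Module.End E V →ₗ[E] E}

/-- the span of the image of `ρ` -/
def B (ρ : G →* Module.End E V) : Submodule E (Module.End E V) :=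
  Submodule.span E (Set.range ρ)

theorem rho_mem (h : G) : ρ h ∈ B ρ := Submodule.subset_span ⟨h, rfl⟩

theorem one_mem : (1 : Module.End E V) ∈ B ρ := by
  have := rho_mem (ρ := ρ) 1
  rwa [map_one] at this

theorem mul_mem {b b' : Module.End E V} (hb : b ∈ B ρ) (hb' : b' ∈ B ρ) : b * b' ∈ B ρ := by
  induction hb, hb' using Submodule.span_induction₂ with
  | mem_mem x y hx hy =>
    obtain ⟨g, rfl⟩ := hx; obtain ⟨h, rfl⟩ := hy
    rw [← map_mul]; exact rho_mem _
  | zero_left y hy => rw [zero_mul]; exact zero_mem _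
  | zero_right x hx => rw [mul_zero]; exact zero_mem _
  | add_left x y z hx hy hz h1 h2 => rw [add_mul]; exact add_mem h1 h2
  | add_right x y z hx hy hz h1 h2 => rw [mul_add]; exact add_mem h1 h2
  | smul_left r x y hx hy h => rw [smul_mul_assoc]; exact Submodule.smul_mem _ _ h
  | smul_right r x y hx hy h => rw [mul_smul_comm]; exact Submodule.smul_mem _ _ h

theorem rho_mul_inv (h : G) : ρ h * ρ h⁻¹ = 1 := by
  rw [← map_mul, mul_inv_cancel, map_one]

/-- The idempotent `(1 + ρ c) / 2`. -/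
def e (ρ : G →* Module.End E V) (c : G) : Module.End E V := (2 : E)⁻¹ • (1 + ρ c)

/-- The idempotent `(1 - ρ c) / 2`. -/
def f (ρ : G →* Module.End E V) (c : G) : Module.End E V := (2 : E)⁻¹ • (1 - ρ c)

theorem e_add_f : e ρ c + f ρ c = 1 := by
  simp only [e, f]; module

theorem e_mem : e ρ c ∈ B ρ :=
  Submodule.smul_mem _ _ (add_mem one_mem (rho_mem c))

theorem f_mem : f ρ c ∈ B ρ :=
  Submodule.smul_mem _ _ (sub_mem one_mem (rho_mem c))

variable (H : PC t ε c) (K : IsModel t ε ρ Tr)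
include H K

theorem Tr_comm {b b' : Module.End E V} (hb : b ∈ B ρ) (hb' : b' ∈ B ρ) :
    Tr (b * b') = Tr (b' * b) := by
  induction hb, hb' using Submodule.span_induction₂ with
  | mem_mem x y hx hy =>
    obtain ⟨g, rfl⟩ := hx; obtain ⟨h, rfl⟩ := hy
    rw [← map_mul, ← map_mul, K.Tr_rho, K.Tr_rho, H.t_comm]
  | zero_left y hy => rw [zero_mul, mul_zero]
  | zero_right x hx => rw [zero_mul, mul_zero]
  | add_left x y z hx hy hz h1 h2 => rw [add_mul, mul_add, map_add, map_add, h1, h2]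
  | add_right x y z hx hy hz h1 h2 => rw [mul_add, add_mul, map_add, map_add, h1, h2]
  | smul_left r x y hx hy h => rw [smul_mul_assoc, mul_smul_comm, map_smul, map_smul, h]
  | smul_right r x y hx hy h => rw [mul_smul_comm, smul_mul_assoc, map_smul, map_smul, h]

theorem CH_inv (h : G) :
    ε h • ρ h⁻¹ = t h • (1 : Module.End E V) - ρ h := by
  have h1 := congrArg (fun b => b * ρ h⁻¹) (K.CH h)
  simp only [add_mul, sub_mul, smul_mul_assoc, mul_assoc, rho_mul_inv, mul_one, one_mul,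
    zero_mul] at h1
  linear_combination (norm := module) h1

theorem polar_rho (g h : G) :
    ρ g * ρ h + ρ h * ρ g - t g • ρ h - t h • ρ g
      + (t g * t h - t (g * h)) • (1 : Module.End E V) = 0 := by
  have hg := CH_inv H K g
  have hh := CH_inv H K h
  have hgh := CH_inv H K (g * h)
  have e1 : (ε h • ρ h⁻¹) * (ε g • ρ g⁻¹) = ε (g * h) • ρ (g * h)⁻¹ := by
    rw [smul_mul_smul_comm, ← map_mul ρ, ← mul_inv_rev, map_mul ε, mul_comm (ε h)]
  rw [hg, hh, hgh, map_mul] at e1
  simp only [sub_mul, mul_sub, smul_mul_assoc, mul_smul_comm, one_mul, mul_one] at e1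
  linear_combination (norm := module) e1

theorem polar {b b' : Module.End E V} (hb : b ∈ B ρ) (hb' : b' ∈ B ρ) :
    b * b' + b' * b - Tr b • b' - Tr b' • b
      + (Tr b * Tr b' - Tr (b * b')) • (1 : Module.End E V) = 0 := by
  induction hb, hb' using Submodule.span_induction₂ with
  | mem_mem x y hx hy =>
    obtain ⟨g, rfl⟩ := hx; obtain ⟨h, rfl⟩ := hy
    rw [← map_mul ρ g h, K.Tr_rho, K.Tr_rho, K.Tr_rho, map_mul]
    exact polar_rho H K g h
  | zero_left y hy => simp
  | zero_right x hx => simp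
  | add_left x y z hx hy hz h1 h2 =>
    simp only [add_mul, mul_add, map_add]
    linear_combination (norm := module) h1 + h2
  | add_right x y z hx hy hz h1 h2 =>
    simp only [add_mul, mul_add, map_add]
    linear_combination (norm := module) h1 + h2
  | smul_left r x y hx hy h =>
    simp only [smul_mul_assoc, mul_smul_comm, map_smul, smul_eq_mul]
    linear_combination (norm := module) r • h
  | smul_right r x y hx hy h =>
    simp only [smul_mul_assoc, mul_smul_comm, map_smul, smul_eq_mul]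
    linear_combination (norm := module) r • h

theorem rho_c_sq : ρ c * ρ c = 1 := by
  rw [← map_mul, H.c_sq, map_one]

theorem e_mul_e : e ρ c * e ρ c = e ρ c := by
  simp only [e, smul_mul_assoc, mul_smul_comm, add_mul, mul_add, one_mul, mul_one, rho_c_sq H K]
  module

theorem f_mul_f : f ρ c * f ρ c = f ρ c := by
  simp only [f, smul_mul_assoc, mul_smul_comm, sub_mul, mul_sub, one_mul, mul_one, rho_c_sq H K]
  module

theorem e_mul_f : e ρ c * f ρ c = 0 := by
  simp only [e, f, smul_mul_assoc, mul_smul_comm, add_mul, mul_sub, one_mul, mul_one,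
    rho_c_sq H K]
  module

theorem f_mul_e : f ρ c * e ρ c = 0 := by
  simp only [e, f, smul_mul_assoc, mul_smul_comm, sub_mul, mul_add, one_mul, mul_one,
    rho_c_sq H K]
  module

theorem Tr_one : Tr (1 : Module.End E V) = 2 := by
  rw [← map_one ρ, K.Tr_rho, H.t_one]

theorem Tr_e : Tr (e ρ c) = 1 := by
  simp only [e, map_smul, map_add, Tr_one H K, K.Tr_rho, H.t_c, smul_eq_mul]
  norm_num

theorem Tr_f : Tr (f ρ c) = 1 := by
  simp only [f, map_smul, map_sub, Tr_one H K, K.Tr_rho, H.t_c, smul_eq_mul]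
  norm_num

theorem a_add_d (h : G) : Tr (e ρ c * ρ h) + Tr (f ρ c * ρ h) = t h := by
  rw [← map_add, ← add_mul, e_add_f, one_mul, K.Tr_rho]

theorem eBe {b : Module.End E V} (hb : b ∈ B ρ) :
    e ρ c * b * e ρ c = Tr (e ρ c * b) • e ρ c := by
  have hx : e ρ c * b * e ρ c ∈ B ρ := mul_mem (mul_mem e_mem hb) e_mem
  have h1 := polar H K hx (e_mem (ρ := ρ) (c := c))
  have h2 : e ρ c * b * e ρ c * e ρ c = e ρ c * b * e ρ c := by rw [mul_assoc, e_mul_e H K]
  have h3 : e ρ c * (e ρ c * b * e ρ c) = e ρ c * b * e ρ c := by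
    rw [← mul_assoc, ← mul_assoc, e_mul_e H K]
  have h4 : Tr (e ρ c * b * e ρ c) = Tr (e ρ c * b) := by
    rw [Tr_comm H K (mul_mem e_mem hb) e_mem, ← mul_assoc, e_mul_e H K]
  rw [h2, h3, Tr_e H K, h4] at h1
  linear_combination (norm := module) h1

theorem fBf {b : Module.End E V} (hb : b ∈ B ρ) :
    f ρ c * b * f ρ c = Tr (f ρ c * b) • f ρ c := by
  have hx : f ρ c * b * f ρ c ∈ B ρ := mul_mem (mul_mem f_mem hb) f_mem
  have h1 := polar H K hx (f_mem (ρ := ρ) (c := c))
  have h2 : f ρ c * b * f ρ c * f ρ c = f ρ c * b * f ρ c := by rw [mul_assoc, f_mul_f H K]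
  have h3 : f ρ c * (f ρ c * b * f ρ c) = f ρ c * b * f ρ c := by
    rw [← mul_assoc, ← mul_assoc, f_mul_f H K]
  have h4 : Tr (f ρ c * b * f ρ c) = Tr (f ρ c * b) := by
    rw [Tr_comm H K (mul_mem f_mem hb) f_mem, ← mul_assoc, f_mul_f H K]
  rw [h2, h3, Tr_f H K, h4] at h1
  linear_combination (norm := module) h1

/-- Rank one property of the off-diagonal block `f B e`. -/
theorem rank_one {y y' x : Module.End E V} (hy : y ∈ B ρ) (hy' : y' ∈ B ρ) (hx : x ∈ B ρ)
    (hy1 : f ρ c * y = y) (hy2 : y * e ρ c = y) (hy'1 : f ρ c * y' = y')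
    (hy'2 : y' * e ρ c = y')
    (hx1 : e ρ c * x = x) (hx2 : x * f ρ c = x) :
    Tr (y * x) • y' = Tr (x * y') • y := by
  have h1 : y * x = Tr (y * x) • f ρ c := by
    have := fBf H K (mul_mem hy hx)
    rw [← mul_assoc, hy1, mul_assoc, hx2] at this
    exact this
  have h2 : x * y' = Tr (x * y') • e ρ c := by
    have := eBe H K (mul_mem hx hy')
    rw [← mul_assoc, hx1, mul_assoc, hy'2] at this
    exact this
  have h3 : y * x * y' = Tr (y * x) • y' := by
    have : y * x * y' = (Tr (y * x) • f ρ c) * y' := congrArg (· * y') h1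
    rw [this, smul_mul_assoc, hy'1]
  have h4 : y * (x * y') = Tr (x * y') • y := by
    have : y * (x * y') = y * (Tr (x * y') • e ρ c) := congrArg (y * ·) h2
    rw [this, mul_smul_comm, hy2]
  rw [← h3, ← h4, mul_assoc]

theorem exists_dual {y : Module.End E V} (hy : y ∈ B ρ) (hy1 : f ρ c * y = y)
    (hy2 : y * e ρ c = y) (hy0 : y ≠ 0) : ∃ g : G, Tr ((e ρ c * ρ g * f ρ c) * y) ≠ 0 := by
  by_contra hcon0
  have hcon : ∀ g : G, Tr ((e ρ c * ρ g * f ρ c) * y) = 0 :=
    fun g => by_contra fun hne => hcon0 ⟨g, hne⟩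
  apply hy0
  apply K.nondeg y hy
  intro g
  rw [← hcon g]
  have hx : e ρ c * ρ g * f ρ c ∈ B ρ := mul_mem (mul_mem e_mem (rho_mem g)) f_mem
  rw [Tr_comm H K hx hy]
  have e1 : y * (e ρ c * ρ g * f ρ c) = (y * ρ g) * f ρ c := by
    rw [← mul_assoc, ← mul_assoc, hy2]
  rw [e1, Tr_comm H K (mul_mem hy (rho_mem g)) f_mem, ← mul_assoc, hy1]

/-- The plane: a two-dimensional `ρ`-stable subspace with an adapted basis. -/
theorem exists_plane (w₁ : V) (hw : ∀ b ∈ B ρ, b w₁ = 0 → b = 0) :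
    ∃ v₀ u₂ : V, (∀ r s : E, r • v₀ + s • u₂ = 0 → r = 0 ∧ s = 0) ∧
      (∀ h, ∃ β γ : E, ρ h v₀ = Tr (e ρ c * ρ h) • v₀ + β • u₂ ∧
        ρ h u₂ = γ • v₀ + Tr (f ρ c * ρ h) • u₂) ∧
      v₀ = e ρ c w₁ ∧ (u₂ = f ρ c w₁ ∨ ∃ h₀, u₂ = (f ρ c * ρ h₀ * e ρ c) w₁) := by
  have hee := e_mul_e H K
  have hff := f_mul_f H K
  have hef := e_mul_f H K
  have hfe := f_mul_e H K
  have hsum := e_add_f (ρ := ρ) (c := c)
  have he0 : e ρ c ≠ 0 := fun h0 => by
    have := Tr_e H K; rw [h0, map_zero] at this; exact zero_ne_one this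
  have hf0 : f ρ c ≠ 0 := fun h0 => by
    have := Tr_f H K; rw [h0, map_zero] at this; exact zero_ne_one this
  have hv0 : e ρ c w₁ ≠ 0 := fun h0 => he0 (hw _ e_mem h0)
  -- decomposition of any vector
  have hdec : ∀ v : V, v = e ρ c v + f ρ c v := fun v => by
    rw [← LinearMap.add_apply, hsum, Module.End.one_apply]
  -- independence criterion
  have hind : ∀ u₂ : V, u₂ ≠ 0 → e ρ c u₂ = 0 →
      ∀ r s : E, r • e ρ c w₁ + s • u₂ = 0 → r = 0 ∧ s = 0 := by
    intro u₂ hu hu' r s hrs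
    have h1 := congrArg (e ρ c) hrs
    rw [map_add, map_smul, map_smul, hu', smul_zero, add_zero, map_zero,
      ← Module.End.mul_apply, hee] at h1
    have hr : r = 0 := (smul_eq_zero.mp h1).resolve_right hv0
    rw [hr, zero_smul, zero_add] at hrs
    exact ⟨hr, (smul_eq_zero.mp hrs).resolve_right hu⟩
  by_cases hA : ∃ h₀, (f ρ c * ρ h₀ * e ρ c) w₁ ≠ 0
  · obtain ⟨h₀, hh₀⟩ := hA
    set y₀ := f ρ c * ρ h₀ * e ρ c with hy₀
    have hy₀B : y₀ ∈ B ρ := mul_mem (mul_mem f_mem (rho_mem h₀)) e_mem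
    have hy₀0 : y₀ ≠ 0 := fun h0 => hh₀ (by rw [h0, LinearMap.zero_apply])
    have hy1 : f ρ c * y₀ = y₀ := by rw [hy₀, ← mul_assoc, ← mul_assoc, hff]
    have hy2 : y₀ * e ρ c = y₀ := by rw [hy₀, mul_assoc, hee]
    obtain ⟨g₀, hg₀⟩ := exists_dual H K hy₀B hy1 hy2 hy₀0
    set x₀ := e ρ c * ρ g₀ * f ρ c with hx₀
    have hx₀B : x₀ ∈ B ρ := mul_mem (mul_mem e_mem (rho_mem g₀)) f_mem
    have hx1 : e ρ c * x₀ = x₀ := by rw [hx₀, ← mul_assoc, ← mul_assoc, hee]
    have hx2 : x₀ * f ρ c = x₀ := by rw [hx₀, mul_assoc, hff]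
    have hν : Tr (y₀ * x₀) ≠ 0 := by rwa [Tr_comm H K hy₀B hx₀B]
    refine ⟨e ρ c w₁, y₀ w₁, ?_, ?_, rfl, Or.inr ⟨h₀, rfl⟩⟩
    · apply hind _ hh₀
      rw [← Module.End.mul_apply, hy₀, ← mul_assoc, ← mul_assoc, hef, zero_mul, zero_mul,
        LinearMap.zero_apply]
    · intro h
      have hy'B : f ρ c * ρ h * e ρ c ∈ B ρ := mul_mem (mul_mem f_mem (rho_mem h)) e_mem
      have hy'1 : f ρ c * (f ρ c * ρ h * e ρ c) = f ρ c * ρ h * e ρ c := by
        rw [← mul_assoc, ← mul_assoc, hff]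
      have hy'2 : f ρ c * ρ h * e ρ c * e ρ c = f ρ c * ρ h * e ρ c := by
        rw [mul_assoc, hee]
      have hr := rank_one H K hy₀B hy'B hx₀B hy1 hy2 hy'1 hy'2 hx1 hx2
      have hβ : ∃ β : E, f ρ c * ρ h * e ρ c = β • y₀ :=
        ⟨(Tr (y₀ * x₀))⁻¹ * Tr (x₀ * (f ρ c * ρ h * e ρ c)), by
          rw [mul_smul, ← hr, smul_smul, inv_mul_cancel₀ hν, one_smul]⟩
      obtain ⟨β, h1⟩ := hβ
      refine ⟨β, Tr (e ρ c * (ρ h * y₀)), ?_, ?_⟩
      · have h2 := eBe H K (rho_mem (ρ := ρ) h)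
        calc ρ h (e ρ c w₁) = e ρ c (ρ h (e ρ c w₁)) + f ρ c (ρ h (e ρ c w₁)) := hdec _
          _ = (e ρ c * ρ h * e ρ c) w₁ + (f ρ c * ρ h * e ρ c) w₁ := rfl
          _ = _ := by rw [h2, h1]; rfl
      · have h2 : e ρ c * ρ h * y₀ = Tr (e ρ c * (ρ h * y₀)) • e ρ c := by
          have := eBe H K (mul_mem (rho_mem (ρ := ρ) h) hy₀B)
          rw [mul_assoc, mul_assoc, hy2, ← mul_assoc] at this
          exact this
        have h3 : f ρ c * ρ h * y₀ = Tr (f ρ c * ρ h) • y₀ := by
          have := fBf H K (rho_mem (ρ := ρ) h)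
          calc f ρ c * ρ h * y₀ = f ρ c * ρ h * (f ρ c * y₀) := by rw [hy1]
            _ = (f ρ c * ρ h * f ρ c) * y₀ := by rw [mul_assoc, mul_assoc, mul_assoc]
            _ = _ := by rw [this, smul_mul_assoc, hy1]
        calc ρ h (y₀ w₁) = e ρ c (ρ h (y₀ w₁)) + f ρ c (ρ h (y₀ w₁)) := hdec _
          _ = (e ρ c * ρ h * y₀) w₁ + (f ρ c * ρ h * y₀) w₁ := rfl
          _ = _ := by rw [h2, h3]; rfl
  · have hA : ∀ h, (f ρ c * ρ h * e ρ c) w₁ = 0 :=
      fun h => by_contra fun hne => hA ⟨h, hne⟩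
    have hfe0 : ∀ h, f ρ c * ρ h * e ρ c = 0 := fun h =>
      hw _ (mul_mem (mul_mem f_mem (rho_mem h)) e_mem) (hA h)
    have hef0 : ∀ h, e ρ c * ρ h * f ρ c = 0 := by
      intro h
      apply K.nondeg _ (mul_mem (mul_mem e_mem (rho_mem h)) f_mem)
      intro y
      have hB1 : ρ h * f ρ c * ρ y ∈ B ρ := mul_mem (mul_mem (rho_mem h) f_mem) (rho_mem y)
      have e1 : e ρ c * ρ h * f ρ c * ρ y = e ρ c * (ρ h * f ρ c * ρ y) := by
        simp only [mul_assoc]
      rw [e1, Tr_comm H K e_mem hB1]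
      have e2 : ρ h * f ρ c * ρ y * e ρ c = ρ h * (f ρ c * ρ y * e ρ c) := by
        simp only [mul_assoc]
      rw [e2, hfe0, mul_zero, map_zero]
    have hu0 : f ρ c w₁ ≠ 0 := fun h0 => hf0 (hw _ f_mem h0)
    refine ⟨e ρ c w₁, f ρ c w₁, ?_, ?_, rfl, Or.inl rfl⟩
    · apply hind _ hu0
      rw [← Module.End.mul_apply, hef, LinearMap.zero_apply]
    · intro h
      refine ⟨0, 0, ?_, ?_⟩
      · have h2 := eBe H K (rho_mem (ρ := ρ) h)
        calc ρ h (e ρ c w₁) = e ρ c (ρ h (e ρ c w₁)) + f ρ c (ρ h (e ρ c w₁)) := hdec _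
          _ = (e ρ c * ρ h * e ρ c) w₁ + (f ρ c * ρ h * e ρ c) w₁ := rfl
          _ = _ := by rw [h2, hfe0, LinearMap.zero_apply, zero_smul]; rfl
      · have h2 := fBf H K (rho_mem (ρ := ρ) h)
        calc ρ h (f ρ c w₁) = e ρ c (ρ h (f ρ c w₁)) + f ρ c (ρ h (f ρ c w₁)) := hdec _
          _ = (e ρ c * ρ h * f ρ c) w₁ + (f ρ c * ρ h * f ρ c) w₁ := rfl
          _ = _ := by rw [h2, hef0, LinearMap.zero_apply, zero_smul]; rfl

end IsModel

end Abstract

section Plane

variable {G : Type*} [Group G] {E : Type*} [Field E] [CharZero E]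

/-- The data of an adapted plane inside `Fsp t`, as plain functions. -/
structure PlaneData (t : G → E) (φ₁ φ₂ : G → E) : Prop where
  mem₁ : φ₁ ∈ Fsp t
  mem₂ : φ₂ ∈ Fsp t
  indep : ∀ r s : E, r • φ₁ + s • φ₂ = 0 → r = 0 ∧ s = 0
  stable : ∀ h : G, ∃ a β γ d : E, Rt E h φ₁ = a • φ₁ + β • φ₂ ∧
    Rt E h φ₂ = γ • φ₁ + d • φ₂ ∧ a + d = t h
  int₁ : (4 : E) • φ₁ ∈ AddSubgroup.closure (Set.range (tau t))
  int₂ : (4 : E) • φ₂ ∈ AddSubgroup.closure (Set.range (tau t))

namespace PC

variable {t : G → E} {ε : G →* E} {c : G} (H : PC t ε c)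
include H

theorem isModel : IsModel t ε H.rho (Tr t) :=
  ⟨H.Tr_rho, H.CH, fun _ hb h0 => H.eq_zero_of_Tr hb h0⟩

theorem coe_rho (h : G) (v : Fsp t) : ((H.rho h v : Fsp t) : G → E) = Rt E h (v : G → E) := rfl

theorem four_e : ((4 : E) • (IsModel.e H.rho c (tauF t 1)) : Fsp t)
    = tauF t 1 + tauF t 1 + (tauF t c + tauF t c) := by
  have h1 : H.rho c (tauF t 1) = tauF t c := by rw [H.rho_tauF, mul_one]
  simp only [IsModel.e, LinearMap.smul_apply, LinearMap.add_apply, Module.End.one_apply, h1]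
  module

theorem four_f : ((4 : E) • (IsModel.f H.rho c (tauF t 1)) : Fsp t)
    = tauF t 1 + tauF t 1 - (tauF t c + tauF t c) := by
  have h1 : H.rho c (tauF t 1) = tauF t c := by rw [H.rho_tauF, mul_one]
  simp only [IsModel.f, LinearMap.smul_apply, LinearMap.sub_apply, Module.End.one_apply, h1]
  module

theorem four_fhe (h₀ : G) :
    ((4 : E) • ((IsModel.f H.rho c * H.rho h₀ * IsModel.e H.rho c) (tauF t 1)) : Fsp t)
    = tauF t h₀ + tauF t (h₀ * c) - (tauF t (c * h₀) + tauF t (c * (h₀ * c))) := by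
  have h1 : H.rho c (tauF t 1) = tauF t c := by rw [H.rho_tauF, mul_one]
  have h2 : H.rho h₀ (tauF t 1) = tauF t h₀ := by rw [H.rho_tauF, mul_one]
  simp only [IsModel.e, IsModel.f, Module.End.mul_apply, LinearMap.smul_apply, LinearMap.add_apply,
    LinearMap.sub_apply, Module.End.one_apply, h1, h2, map_add, map_smul, H.rho_tauF]
  module

theorem exists_planeData : ∃ φ₁ φ₂ : G → E, PlaneData t φ₁ φ₂ := by
  obtain ⟨v₀, u₂, hind, hst, hv₀, hu₂⟩ :=
    IsModel.exists_plane H H.isModel (tauF t 1) (fun b hb h0 => H.eq_zero_of_apply hb h0)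
  have hcl : ∀ u : G, (tauF t u : G → E) ∈ AddSubgroup.closure (Set.range (tau t)) :=
    fun u => AddSubgroup.subset_closure ⟨u, rfl⟩
  refine ⟨v₀, u₂, v₀.2, u₂.2, ?_, ?_, ?_, ?_⟩
  · intro r s hrs
    apply hind r s
    apply Subtype.ext
    exact hrs
  · intro h
    obtain ⟨β, γ, h1, h2⟩ := hst h
    refine ⟨_, β, γ, _, ?_, ?_, IsModel.a_add_d H H.isModel h⟩
    · have := congrArg (Subtype.val) h1
      exact this
    · have := congrArg (Subtype.val) h2
      exact this
  · have h4 : ((4 : E) • (v₀ : G → E)) = (((4 : E) • v₀ : Fsp t) : G → E) := rfl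
    rw [h4, hv₀, H.four_e]
    exact add_mem (add_mem (hcl 1) (hcl 1)) (add_mem (hcl c) (hcl c))
  · have h4 : ((4 : E) • (u₂ : G → E)) = (((4 : E) • u₂ : Fsp t) : G → E) := rfl
    rw [h4]
    rcases hu₂ with hu₂ | ⟨h₀, hu₂⟩
    · rw [hu₂, H.four_f]
      exact sub_mem (add_mem (hcl 1) (hcl 1)) (add_mem (hcl c) (hcl c))
    · rw [hu₂, H.four_fhe]
      exact sub_mem (add_mem (hcl _) (hcl _)) (add_mem (hcl _) (hcl _))

/-- If `t (g * τ) = t g` for all `g`, then right translation by `τ` is trivial on `Fsp t`. -/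
theorem Rt_eq_self_of_inv (τ : G) (hτ : ∀ g, t (g * τ) = t g) {φ : G → E} (hφ : φ ∈ Fsp t) :
    Rt E τ φ = φ := by
  induction hφ using Submodule.span_induction with
  | mem x hx =>
    obtain ⟨u, rfl⟩ := hx
    funext x
    show t (u * (x * τ)) = t (u * x)
    rw [← mul_assoc, hτ]
  | zero => rw [map_zero]
  | add x y _ _ hx hy => rw [map_add, hx, hy]
  | smul a x _ hx => rw [map_smul, hx]

/-- The Cayley-Hamilton relation on functions. -/
theorem CH_fun (h : G) {φ : G → E} (hφ : φ ∈ Fsp t) :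
    Rt E h (Rt E h φ) - t h • Rt E h φ + ε h • φ = 0 := by
  have h1 := congrArg (fun b : Module.End E (Fsp t) => ((b ⟨φ, hφ⟩ : Fsp t) : G → E)) (H.CH h)
  exact h1

end PC

end Plane

end

end Fermat.Agent.S30.H97
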