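import Mathlib
import Fermat.Prelude.Def_GaloisRep_Adic
import Fermat.Agent.S30.PseudoRep_helper97

set_option autoImplicit false
set_option linter.unusedSectionVars false
set_option linter.unusedVariables false

namespace Fermat.Agent.S30.H97

open Polynomial

noncomputable section

section Charpoly

variable {O : Type*} [CommRing O] [IsDomain O]

theorem two_by_two_CH (A : Matrix (Fin 2) (Fin 2) O) :
    A * A - A.trace • A + A.det • (1 : Matrix (Fin 2) (Fin 2) O) = 0 := by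
  ext i j
  fin_cases i <;> fin_cases j <;>
    simp [Matrix.mul_apply, Fin.sum_univ_two, Matrix.trace_fin_two, Matrix.det_fin_two] <;> ring

/-- An endomorphism of a free module of rank two satisfying a monic quadratic relation
`f² - T f + D = 0`, and such that `T = 2 μ` whenever `f` is the scalar `μ`, has characteristic
polynomial `X² - T X + D`. -/
theorem charpoly_of_CH {V : Type*} [AddCommGroup V] [Module O V] [Module.Free O V]
    [Module.Finite O V] (hr : Module.finrank O V = 2) (f : Module.End O V) (T D : O)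
    (hCH : f * f - T • f + D • (1 : Module.End O V) = 0)
    (hsc : ∀ μ : O, f = μ • (1 : Module.End O V) → T = 2 * μ) :
    LinearMap.charpoly f = X ^ 2 - C T * X + C D := by
  classical
  let b := Module.finBasisOfFinrankEq O V hr
  set A := LinearMap.toMatrix b b f with hA
  have hch : A.charpoly = LinearMap.charpoly f := LinearMap.charpoly_toMatrix f b
  have hA2 : A * A - T • A + D • (1 : Matrix (Fin 2) (Fin 2) O) = 0 := by
    have := congrArg (LinearMap.toMatrix b b) hCH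
    rw [map_add, map_sub, map_smul, map_smul, LinearMap.toMatrix_mul, LinearMap.toMatrix_one,
      map_zero] at this
    exact this
  have h2 := two_by_two_CH A
  have hE : (A.trace - T) • A = (A.det - D) • (1 : Matrix (Fin 2) (Fin 2) O) := by
    have h3 : (A.trace - T) • A - (A.det - D) • (1 : Matrix (Fin 2) (Fin 2) O)
        = (A * A - T • A + D • (1 : Matrix (Fin 2) (Fin 2) O))
          - (A * A - A.trace • A + A.det • (1 : Matrix (Fin 2) (Fin 2) O)) := by
      simp only [sub_smul]; abel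
    rw [hA2, h2, sub_zero, sub_eq_zero] at h3
    exact h3
  have e00 : (A.trace - T) * A 0 0 = A.det - D := by
    have := congrFun (congrFun hE 0) 0
    simpa using this
  have e11 : (A.trace - T) * A 1 1 = A.det - D := by
    have := congrFun (congrFun hE 1) 1
    simpa using this
  have e01 : (A.trace - T) * A 0 1 = 0 := by
    have := congrFun (congrFun hE 0) 1
    simpa using this
  have e10 : (A.trace - T) * A 1 0 = 0 := by
    have := congrFun (congrFun hE 1) 0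
    simpa using this
  by_cases htr : A.trace = T
  · have hdet : A.det = D := by
      rw [htr, sub_self, zero_mul] at e00
      exact (sub_eq_zero.mp e00.symm)
    rw [← hch, Matrix.charpoly_fin_two, htr, hdet]
  · exfalso
    have hne : A.trace - T ≠ 0 := sub_ne_zero.mpr htr
    have h01 : A 0 1 = 0 := (mul_eq_zero.mp e01).resolve_left hne
    have h10 : A 1 0 = 0 := (mul_eq_zero.mp e10).resolve_left hne
    have h00 : A 0 0 = A 1 1 := mul_left_cancel₀ hne (e00.trans e11.symm)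
    have hAμ : A = (A 0 0) • (1 : Matrix (Fin 2) (Fin 2) O) := by
      ext i j
      fin_cases i <;> fin_cases j <;> simp [h01, h10, ← h00]
    have hf : f = (A 0 0) • (1 : Module.End O V) := by
      apply (LinearMap.toMatrix b b).injective
      rw [map_smul, LinearMap.toMatrix_one]
      exact hAμ
    have h5 := hsc _ hf
    apply htr
    rw [Matrix.trace_fin_two, ← h00, h5]
    ring

/-- A module over a PID embedded in `O²` and containing two independent vectors is free of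
rank two. -/
theorem free_finite_rank_two [IsPrincipalIdealRing O] {V : Type*} [AddCommGroup V] [Module O V]
    (ev : V →ₗ[O] (Fin 2 → O)) (hev : Function.Injective ev) (v₁ v₂ : V)
    (hli : ∀ a b : O, a • v₁ + b • v₂ = 0 → a = 0 ∧ b = 0) :
    Module.Free O V ∧ Module.Finite O V ∧ Module.finrank O V = 2 := by
  have : Module.Finite O V := Module.Finite.of_injective ev hev
  have : Module.IsTorsionFree O V :=
    hev.moduleIsTorsionFree ev (fun r m => map_smul ev r m)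
  have : Module.Free O V := Module.free_of_finite_type_torsion_free'
  refine ⟨inferInstance, inferInstance, le_antisymm ?_ ?_⟩
  · have := LinearMap.finrank_le_finrank_of_injective hev
    simpa using this
  · have hind : LinearIndependent O ![v₁, v₂] := LinearIndependent.pair_iff.mpr hli
    have := hind.fintype_card_le_finrank
    simpa using this

end Charpoly

section Lattice

variable {G : Type*} [Group G] {O : Type*} [CommRing O] [IsDomain O]

/-- The additive group generated by the translates `x ↦ t (u * x)`. -/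
def TO (t : G → O) : AddSubgroup (G → O) :=
  AddSubgroup.closure (Set.range fun (u : G) (x : G) => t (u * x))

theorem TO_cont {t : G → O} {ψ : G → O} (hψ : ψ ∈ TO t) (I : Ideal O) (σ : G)
    (h : ∀ g, t (g * σ) - t g ∈ I) (x : G) : ψ (x * σ) - ψ x ∈ I := by
  induction hψ using AddSubgroup.closure_induction with
  | mem y hy =>
    obtain ⟨u, rfl⟩ := hy
    have := h (u * x)
    rw [mul_assoc] at this
    exact this
  | zero => simp
  | add y z _ _ hy hz =>
    have e : (y + z) (x * σ) - (y + z) x = (y (x * σ) - y x) + (z (x * σ) - z x) := by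
      simp only [Pi.add_apply]; ring
    rw [e]; exact add_mem hy hz
  | neg y _ hy =>
    have e : (-y) (x * σ) - (-y) x = -(y (x * σ) - y x) := by
      simp only [Pi.neg_apply]; ring
    rw [e]; exact neg_mem hy

theorem TO_CH {t : G → O} {δ : G →* Oˣ}
    (hPC : ∀ g h, t g * t h = t (g * h) + (δ h : O) * t (g * h⁻¹))
    {ψ : G → O} (hψ : ψ ∈ TO t) (h x : G) :
    ψ (x * h * h) - t h * ψ (x * h) + (δ h : O) * ψ x = 0 := by
  induction hψ using AddSubgroup.closure_induction with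
  | mem y hy =>
    obtain ⟨u, rfl⟩ := hy
    have h1 := hPC (u * (x * h)) h
    have e1 : u * (x * h) * h⁻¹ = u * x := by group
    have e2 : u * (x * h) * h = u * (x * h * h) := by group
    rw [e1, e2] at h1
    show t (u * (x * h * h)) - t h * t (u * (x * h)) + (δ h : O) * t (u * x) = 0
    linear_combination -h1
  | zero => simp
  | add y z _ _ hy hz => simp only [Pi.add_apply]; linear_combination hy + hz
  | neg y _ hy => simp only [Pi.neg_apply]; linear_combination -hy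

variable (K : Type*) [Field K] [Algebra O K] [IsFractionRing O K]

/-- The lattice of `O`-valued functions lying in the `K`-plane spanned by `ψ₁`, `ψ₂`. -/
def Lat (ψ₁ ψ₂ : G → O) : Submodule O (G → O) where
  carrier := {ψ | ∃ r s : K, ∀ x,
    algebraMap O K (ψ x) = r * algebraMap O K (ψ₁ x) + s * algebraMap O K (ψ₂ x)}
  add_mem' := by
    rintro ψ ψ' ⟨r, s, h⟩ ⟨r', s', h'⟩
    exact ⟨r + r', s + s', fun x => by rw [Pi.add_apply, map_add, h x, h' x]; ring⟩
  zero_mem' := ⟨0, 0, fun x => by simp⟩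
  smul_mem' := by
    rintro a ψ ⟨r, s, h⟩
    exact ⟨algebraMap O K a * r, algebraMap O K a * s, fun x => by
      rw [Pi.smul_apply, smul_eq_mul, map_mul, h x]; ring⟩

theorem mem_Lat {ψ₁ ψ₂ ψ : G → O} : ψ ∈ Lat K ψ₁ ψ₂ ↔ ∃ r s : K, ∀ x,
    algebraMap O K (ψ x) = r * algebraMap O K (ψ₁ x) + s * algebraMap O K (ψ₂ x) := Iff.rfl

/-- The input of the lattice construction. -/
structure LatData (t : G → O) (ψ₁ ψ₂ : G → O) (g₁ g₂ : G) : Prop where
  det_ne : ψ₁ g₁ * ψ₂ g₂ - ψ₁ g₂ * ψ₂ g₁ ≠ 0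
  stable : ∀ h : G, ∃ a β γ d : K,
    (∀ x, algebraMap O K (ψ₁ (x * h))
      = a * algebraMap O K (ψ₁ x) + β * algebraMap O K (ψ₂ x)) ∧
    (∀ x, algebraMap O K (ψ₂ (x * h))
      = γ * algebraMap O K (ψ₁ x) + d * algebraMap O K (ψ₂ x)) ∧
    a + d = algebraMap O K (t h)
  mem₁ : ψ₁ ∈ TO t
  mem₂ : ψ₂ ∈ TO t

/-- Evaluation at the two base points. -/
def evL (ψ₁ ψ₂ : G → O) (g₁ g₂ : G) : Lat K ψ₁ ψ₂ →ₗ[O] (Fin 2 → O) where
  toFun ψ := ![(ψ : G → O) g₁, (ψ : G → O) g₂]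
  map_add' ψ ψ' := by
    ext i; fin_cases i <;> rfl
  map_smul' a ψ := by
    ext i; fin_cases i <;> rfl

namespace LatData

variable {K} {t : G → O} {ψ₁ ψ₂ : G → O} {g₁ g₂ : G}

theorem mem_one : ψ₁ ∈ Lat K ψ₁ ψ₂ := ⟨1, 0, fun x => by ring⟩

theorem mem_two : ψ₂ ∈ Lat K ψ₁ ψ₂ := ⟨0, 1, fun x => by ring⟩

variable (L : LatData K t ψ₁ ψ₂ g₁ g₂)
include L

theorem cramer {ψ : G → O} (hψ : ψ ∈ Lat K ψ₁ ψ₂) (x : G) :
    (ψ₁ g₁ * ψ₂ g₂ - ψ₁ g₂ * ψ₂ g₁) * ψ x
      = (ψ g₁ * ψ₂ g₂ - ψ g₂ * ψ₂ g₁) * ψ₁ x + (ψ₁ g₁ * ψ g₂ - ψ₁ g₂ * ψ g₁) * ψ₂ x := by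
  obtain ⟨r, s, h⟩ := hψ
  apply IsFractionRing.injective O K
  simp only [map_mul, map_add, map_sub, h x, h g₁, h g₂]
  ring

theorem indepK (r s : K)
    (h : ∀ x, r * algebraMap O K (ψ₁ x) + s * algebraMap O K (ψ₂ x) = 0) : r = 0 ∧ s = 0 := by
  have hD : algebraMap O K (ψ₁ g₁) * algebraMap O K (ψ₂ g₂)
      - algebraMap O K (ψ₁ g₂) * algebraMap O K (ψ₂ g₁) ≠ 0 := by
    rw [← map_mul, ← map_mul, ← map_sub]
    exact fun h0 => L.det_ne (IsFractionRing.injective O K (by rw [h0, map_zero]))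
  have h1 := h g₁
  have h2 := h g₂
  constructor
  · apply (mul_eq_zero.mp _).resolve_right hD
    linear_combination algebraMap O K (ψ₂ g₂) * h1 - algebraMap O K (ψ₂ g₁) * h2
  · apply (mul_eq_zero.mp _).resolve_right hD
    linear_combination algebraMap O K (ψ₁ g₁) * h2 - algebraMap O K (ψ₁ g₂) * h1

theorem Rt_mem (h : G) {ψ : G → O} (hψ : ψ ∈ Lat K ψ₁ ψ₂) :
    (fun x => ψ (x * h)) ∈ Lat K ψ₁ ψ₂ := by
  obtain ⟨r, s, hrs⟩ := hψ
  obtain ⟨a, β, γ, d, h1, h2, -⟩ := L.stable h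
  exact ⟨r * a + s * γ, r * β + s * d, fun x => by rw [hrs, h1, h2]; ring⟩

/-- Saturation of the lattice. -/
theorem mem_of_smul_mem {a : O} (ha : a ≠ 0) {ψ : G → O} (hψ : a • ψ ∈ Lat K ψ₁ ψ₂) :
    ψ ∈ Lat K ψ₁ ψ₂ := by
  obtain ⟨r, s, hrs⟩ := hψ
  have ha' : algebraMap O K a ≠ 0 := fun h0 =>
    ha (IsFractionRing.injective O K (by rw [h0, map_zero]))
  refine ⟨(algebraMap O K a)⁻¹ * r, (algebraMap O K a)⁻¹ * s, fun x => ?_⟩
  have := hrs x
  rw [Pi.smul_apply, smul_eq_mul, map_mul] at this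
  field_simp
  linear_combination this

/-- The representation on the lattice by right translation. -/
def rhoL : G →* Module.End O (Lat K ψ₁ ψ₂) where
  toFun h :=
    { toFun := fun ψ => ⟨fun x => (ψ : G → O) (x * h), L.Rt_mem h ψ.2⟩
      map_add' := fun _ _ => rfl
      map_smul' := fun _ _ => rfl }
  map_one' := LinearMap.ext fun ψ => Subtype.ext (funext fun x => by
    show (ψ : G → O) (x * 1) = (ψ : G → O) x
    rw [mul_one])
  map_mul' g h := LinearMap.ext fun ψ => Subtype.ext (funext fun x => by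
    show (ψ : G → O) (x * (g * h)) = (ψ : G → O) (x * g * h)
    rw [mul_assoc])

theorem rhoL_apply (h : G) (ψ : Lat K ψ₁ ψ₂) (x : G) :
    ((L.rhoL h ψ : Lat K ψ₁ ψ₂) : G → O) x = (ψ : G → O) (x * h) := rfl

theorem evL_injective : Function.Injective (evL K ψ₁ ψ₂ g₁ g₂) := by
  rw [← LinearMap.ker_eq_bot, LinearMap.ker_eq_bot']
  intro ψ hψ
  have h1 : (ψ : G → O) g₁ = 0 := congrFun hψ 0
  have h2 : (ψ : G → O) g₂ = 0 := congrFun hψ 1
  apply Subtype.ext
  funext x
  have := L.cramer ψ.2 x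
  rw [h1, h2] at this
  have h3 : (ψ₁ g₁ * ψ₂ g₂ - ψ₁ g₂ * ψ₂ g₁) * (ψ : G → O) x = 0 := by
    rw [this]; ring
  exact (mul_eq_zero.mp h3).resolve_left L.det_ne

theorem rhoL_inertia (τ : G) (hτ : ∀ g, t (g * τ) = t g) : L.rhoL τ = 1 := by
  refine LinearMap.ext fun ψ => Subtype.ext (funext fun x => ?_)
  show (ψ : G → O) (x * τ) = (ψ : G → O) x
  have hτ' : ∀ g, t (g * τ) - t g ∈ (⊥ : Ideal O) := fun g => by
    rw [hτ g, sub_self]; exact zero_mem _
  have h1 : ψ₁ (x * τ) = ψ₁ x := sub_eq_zero.mp (TO_cont L.mem₁ ⊥ τ hτ' x)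
  have h2 : ψ₂ (x * τ) = ψ₂ x := sub_eq_zero.mp (TO_cont L.mem₂ ⊥ τ hτ' x)
  have c1 := L.cramer ψ.2 (x * τ)
  have c2 := L.cramer ψ.2 x
  rw [h1, h2, ← c2] at c1
  exact mul_left_cancel₀ L.det_ne c1

theorem rhoL_CH {δ : G →* Oˣ}
    (hPC : ∀ g h, t g * t h = t (g * h) + (δ h : O) * t (g * h⁻¹)) (h : G) :
    L.rhoL h * L.rhoL h - t h • L.rhoL h + (δ h : O) • (1 : Module.End O (Lat K ψ₁ ψ₂)) = 0 := by
  refine LinearMap.ext fun ψ => Subtype.ext (funext fun x => ?_)
  show (ψ : G → O) (x * h * h) - t h * (ψ : G → O) (x * h) + (δ h : O) * (ψ : G → O) x = 0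
  have c1 := L.cramer ψ.2 (x * h * h)
  have c2 := L.cramer ψ.2 (x * h)
  have c3 := L.cramer ψ.2 x
  have e1 := TO_CH hPC L.mem₁ h x
  have e2 := TO_CH hPC L.mem₂ h x
  apply (mul_eq_zero.mp _).resolve_left L.det_ne
  linear_combination c1 - t h * c2 + (δ h : O) * c3
    + ((ψ : G → O) g₁ * ψ₂ g₂ - (ψ : G → O) g₂ * ψ₂ g₁) * e1
    + (ψ₁ g₁ * (ψ : G → O) g₂ - ψ₁ g₂ * (ψ : G → O) g₁) * e2

theorem rhoL_scalar (h : G) (μ : O)
    (hμ : L.rhoL h = μ • (1 : Module.End O (Lat K ψ₁ ψ₂))) : t h = 2 * μ := by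
  obtain ⟨a, β, γ, d, h1, h2, h3⟩ := L.stable h
  have k1 : ∀ x, ψ₁ (x * h) = μ * ψ₁ x := fun x =>
    congrFun (congrArg Subtype.val (LinearMap.congr_fun hμ ⟨ψ₁, mem_one⟩)) x
  have k2 : ∀ x, ψ₂ (x * h) = μ * ψ₂ x := fun x =>
    congrFun (congrArg Subtype.val (LinearMap.congr_fun hμ ⟨ψ₂, mem_two⟩)) x
  have i1 := L.indepK (a - algebraMap O K μ) β (fun x => by
    have := h1 x
    rw [k1 x, map_mul] at this
    linear_combination -this)
  have i2 := L.indepK γ (d - algebraMap O K μ) (fun x => by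
    have := h2 x
    rw [k2 x, map_mul] at this
    linear_combination -this)
  apply IsFractionRing.injective O K
  rw [← h3, map_mul, map_ofNat]
  linear_combination i1.1 + i2.2

theorem free_finite_rank [IsPrincipalIdealRing O] :
    Module.Free O (Lat K ψ₁ ψ₂) ∧ Module.Finite O (Lat K ψ₁ ψ₂) ∧
      Module.finrank O (Lat K ψ₁ ψ₂) = 2 := by
  refine free_finite_rank_two (evL K ψ₁ ψ₂ g₁ g₂) L.evL_injective ⟨ψ₁, mem_one⟩ ⟨ψ₂, mem_two⟩ ?_
  intro a b hab
  have h0 := congrArg Subtype.val hab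
  have h1 : a * ψ₁ g₁ + b * ψ₂ g₁ = 0 := congrFun h0 g₁
  have h2 : a * ψ₁ g₂ + b * ψ₂ g₂ = 0 := congrFun h0 g₂
  constructor
  · apply (mul_eq_zero.mp _).resolve_right L.det_ne
    linear_combination ψ₂ g₂ * h1 - ψ₂ g₁ * h2
  · apply (mul_eq_zero.mp _).resolve_right L.det_ne
    linear_combination ψ₁ g₁ * h2 - ψ₁ g₂ * h1

theorem rhoL_cont [IsDiscreteValuationRing O] : ∃ k : ℕ, ∀ (n : ℕ) (σ : G),
    (∀ g, t (g * σ) - t g ∈ IsLocalRing.maximalIdeal O ^ (n + k)) →
    ∀ v : Lat K ψ₁ ψ₂, L.rhoL σ v - v ∈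
      (IsLocalRing.maximalIdeal O ^ n) • (⊤ : Submodule O (Lat K ψ₁ ψ₂)) := by
  obtain ⟨π, hπ⟩ := IsDiscreteValuationRing.exists_irreducible O
  obtain ⟨k, u, hD⟩ := IsDiscreteValuationRing.eq_unit_mul_pow_irreducible L.det_ne hπ
  refine ⟨k, fun n σ hσ v => ?_⟩
  have hm : ∀ m : ℕ, IsLocalRing.maximalIdeal O ^ m = Ideal.span {π ^ m} := fun m => by
    rw [hπ.maximalIdeal_eq, Ideal.span_singleton_pow]
  have h1 := TO_cont L.mem₁ _ σ hσ
  have h2 := TO_cont L.mem₂ _ σ hσ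
  have key : ∀ x, ∃ z, (v : G → O) (x * σ) - (v : G → O) x = π ^ n * z := by
    intro x
    have c1 := L.cramer v.2 (x * σ)
    have c2 := L.cramer v.2 x
    have h3 : (ψ₁ g₁ * ψ₂ g₂ - ψ₁ g₂ * ψ₂ g₁) * ((v : G → O) (x * σ) - (v : G → O) x)
        ∈ IsLocalRing.maximalIdeal O ^ (n + k) := by
      have e : (ψ₁ g₁ * ψ₂ g₂ - ψ₁ g₂ * ψ₂ g₁) * ((v : G → O) (x * σ) - (v : G → O) x)
          = ((v : G → O) g₁ * ψ₂ g₂ - (v : G → O) g₂ * ψ₂ g₁) * (ψ₁ (x * σ) - ψ₁ x)
            + (ψ₁ g₁ * (v : G → O) g₂ - ψ₁ g₂ * (v : G → O) g₁) * (ψ₂ (x * σ) - ψ₂ x) := by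
        linear_combination c1 - c2
      rw [e]
      exact add_mem (Ideal.mul_mem_left _ _ (h1 x)) (Ideal.mul_mem_left _ _ (h2 x))
    rw [hm, Ideal.mem_span_singleton] at h3
    obtain ⟨z, hz⟩ := h3
    refine ⟨↑u⁻¹ * z, ?_⟩
    have hπk : π ^ k ≠ 0 := pow_ne_zero _ hπ.ne_zero
    apply mul_left_cancel₀ hπk
    apply mul_left_cancel₀ u.ne_zero
    rw [hD] at hz
    have huu : (u : O) * ↑u⁻¹ = 1 := Units.mul_inv u
    linear_combination hz - π ^ (n + k) * z * huu
  choose z hz using key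
  have hzeq : π ^ n • z = ((L.rhoL σ v - v : Lat K ψ₁ ψ₂) : G → O) := by
    funext x
    exact (hz x).symm
  have hzmem : z ∈ Lat K ψ₁ ψ₂ := by
    apply L.mem_of_smul_mem (pow_ne_zero n hπ.ne_zero)
    rw [hzeq]
    exact (L.rhoL σ v - v).2
  have hv : L.rhoL σ v - v = π ^ n • (⟨z, hzmem⟩ : Lat K ψ₁ ψ₂) := Subtype.ext hzeq.symm
  rw [hv]
  exact Submodule.smul_mem_smul (by rw [hm]; exact Ideal.mem_span_singleton_self _)
    Submodule.mem_top

end LatData

/-- Lifting integral combinations of translates of the trace function. -/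
theorem exists_lift {t : G → O} {φ : G → K}
    (hφ : φ ∈ AddSubgroup.closure (Set.range (tau (fun g => algebraMap O K (t g))))) :
    ∃ ψ ∈ TO t, ∀ x, algebraMap O K (ψ x) = φ x := by
  induction hφ using AddSubgroup.closure_induction with
  | mem y hy =>
    obtain ⟨u, rfl⟩ := hy
    exact ⟨fun x => t (u * x), AddSubgroup.subset_closure ⟨u, rfl⟩, fun x => rfl⟩
  | zero => exact ⟨0, zero_mem _, fun x => by simp⟩
  | add y z _ _ hy hz =>
    obtain ⟨ψ, hψ, h1⟩ := hy
    obtain ⟨ψ', hψ', h2⟩ := hz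
    exact ⟨ψ + ψ', add_mem hψ hψ', fun x => by rw [Pi.add_apply, map_add, h1, h2, Pi.add_apply]⟩
  | neg y _ hy =>
    obtain ⟨ψ, hψ, h1⟩ := hy
    exact ⟨-ψ, neg_mem hψ, fun x => by rw [Pi.neg_apply, map_neg, h1, Pi.neg_apply]⟩

/-- From a pseudo-character with an involution of determinant `-1` to the lattice data. -/
theorem exists_latData [CharZero O] (t : G → O) (δ : G →* Oˣ) (ht1 : t 1 = 2)
    (hPC : ∀ g h, t g * t h = t (g * h) + (δ h : O) * t (g * h⁻¹))
    (c : G) (hc : c * c = 1) (hδc : δ c = -1) :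
    ∃ (ψ₁ ψ₂ : G → O) (g₁ g₂ : G), LatData K t ψ₁ ψ₂ g₁ g₂ := by
  have hinj := IsFractionRing.injective O K
  have : CharZero K := charZero_of_injective_algebraMap hinj
  let εK : G →* K := ((algebraMap O K : O →* K)).comp ((Units.coeHom O).comp δ)
  have H : PC (fun g => algebraMap O K (t g)) εK c :=
    { t_one := by rw [ht1, map_ofNat]
      pc := fun g h => by
        show algebraMap O K (t g) * algebraMap O K (t h)
          = algebraMap O K (t (g * h)) + algebraMap O K (δ h : O) * algebraMap O K (t (g * h⁻¹))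
        rw [← map_mul, ← map_mul, ← map_add, hPC]
      c_sq := hc
      eps_c := by
        show algebraMap O K ((δ c : Oˣ) : O) = -1
        rw [hδc, Units.val_neg, Units.val_one, map_neg, map_one] }
  obtain ⟨φ₁, φ₂, PD⟩ := H.exists_planeData
  obtain ⟨ψ₁, hψ₁, e₁⟩ := exists_lift K PD.int₁
  obtain ⟨ψ₂, hψ₂, e₂⟩ := exists_lift K PD.int₂
  have e₁' : ∀ x, algebraMap O K (ψ₁ x) = 4 * φ₁ x := fun x => by rw [e₁]; rfl
  have e₂' : ∀ x, algebraMap O K (ψ₂ x) = 4 * φ₂ x := fun x => by rw [e₂]; rfl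
  have h4 : (4 : K) ≠ 0 := by norm_num
  have hdet : ∃ g₁ g₂ : G, ψ₁ g₁ * ψ₂ g₂ - ψ₁ g₂ * ψ₂ g₁ ≠ 0 := by
    by_contra hnot
    have hall : ∀ g₁ g₂ : G, ψ₁ g₁ * ψ₂ g₂ - ψ₁ g₂ * ψ₂ g₁ = 0 := fun g₁ g₂ =>
      by_contra fun hne => hnot ⟨g₁, g₂, hne⟩
    have hφ₁ : ∃ g₁, φ₁ g₁ ≠ 0 := by
      by_contra hnot0
      have h0 : ∀ x, φ₁ x = 0 := fun x => by_contra fun hne => hnot0 ⟨x, hne⟩
      have := (PD.indep 1 0 (by funext x; simp [h0 x])).1
      exact one_ne_zero this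
    obtain ⟨g₁, hg₁⟩ := hφ₁
    have := (PD.indep (-φ₂ g₁) (φ₁ g₁) (by
      funext x
      have h5 := congrArg (algebraMap O K) (hall g₁ x)
      rw [map_sub, map_mul, map_mul, e₁', e₂', e₁', e₂', map_zero] at h5
      show -φ₂ g₁ * φ₁ x + φ₁ g₁ * φ₂ x = 0
      have h16 : (16 : K) ≠ 0 := by norm_num
      apply mul_left_cancel₀ h16
      linear_combination h5)).2
    exact hg₁ this
  obtain ⟨g₁, g₂, hg⟩ := hdet
  refine ⟨ψ₁, ψ₂, g₁, g₂, hg, ?_, hψ₁, hψ₂⟩
  intro h
  obtain ⟨a, β, γ, d, s1, s2, s3⟩ := PD.stable h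
  refine ⟨a, β, γ, d, fun x => ?_, fun x => ?_, s3⟩
  · have := congrFun s1 x
    have e : φ₁ (x * h) = a * φ₁ x + β * φ₂ x := this
    rw [e₁', e₁', e₂', e]; ring
  · have := congrFun s2 x
    have e : φ₂ (x * h) = γ * φ₁ x + d * φ₂ x := this
    rw [e₂', e₁', e₂', e]; ring

end Lattice

section Final

/-- **From a two-dimensional pseudo-character with an odd involution to a representation.**
A function `t` on the absolute Galois group with values in a DVR `O` of characteristic zero,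
satisfying the trace identity for a determinant `δ`, "odd" for an involution `c`, and continuous
for the adic topology, is the trace of a `GaloisRepAdic O` (over `O` itself), with
characteristic polynomials `X² - t g X + δ g`; moreover the representation is trivial on each
`τ` under which `t` is right-invariant. -/
theorem exists_galoisRepAdic_of_trace (O : Type) [CommRing O] [IsDomain O]
    [IsDiscreteValuationRing O] [CharZero O]
    (t : (AlgebraicClosure ℚ ≃ₐ[ℚ] AlgebraicClosure ℚ) → O)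
    (δ : (AlgebraicClosure ℚ ≃ₐ[ℚ] AlgebraicClosure ℚ) →* Oˣ) (ht1 : t 1 = 2)
    (hPC : ∀ g h, t g * t h = t (g * h) + (δ h : O) * t (g * h⁻¹))
    (c : AlgebraicClosure ℚ ≃ₐ[ℚ] AlgebraicClosure ℚ) (hc : c * c = 1) (hδc : δ c = -1)
    (hcont : ∀ n : ℕ, ∃ L : IntermediateField ℚ (AlgebraicClosure ℚ), FiniteDimensional ℚ L ∧
      ∀ σ : AlgebraicClosure ℚ ≃ₐ[ℚ] AlgebraicClosure ℚ, (∀ x ∈ L, σ x = x) →
        ∀ g, t (g * σ) - t g ∈ IsLocalRing.maximalIdeal O ^ n) :
    ∃ ρ : GaloisRepAdic O,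
      (∀ g, LinearMap.charpoly (ρ.ρ g) = X ^ 2 - C (t g) * X + C ((δ g : Oˣ) : O)) ∧
      ∀ τ, (∀ g, t (g * τ) = t g) → ρ.ρ τ = 1 := by
  obtain ⟨ψ₁, ψ₂, g₁, g₂, L⟩ := exists_latData (FractionRing O) t δ ht1 hPC c hc hδc
  obtain ⟨hfree, hfin, hrank⟩ := L.free_finite_rank
  obtain ⟨k, hk⟩ := L.rhoL_cont
  refine ⟨{ V := Lat (FractionRing O) ψ₁ ψ₂
            instFree := hfree
            instFinite := hfin
            finrank_eq := hrank
            ρ := L.rhoL
            isAdicContinuous := ?_ }, ?_, ?_⟩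
  · intro n
    obtain ⟨F, hF, h⟩ := hcont (n + k)
    exact ⟨F, hF, fun σ hσ v => hk n σ (h σ hσ) v⟩
  · intro g
    exact charpoly_of_CH hrank (L.rhoL g) (t g) (δ g) (L.rhoL_CH hPC g)
      (fun μ hμ => L.rhoL_scalar g μ hμ)
  · intro τ hτ
    exact L.rhoL_inertia τ hτ

end Final

end

end Fermat.Agent.S30.H97
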