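import Fermat.Agent.S30.Stmts_helper76
import Fermat.Agent.S30.PseudoLat_helper97

/-!
# (S30-ALG): the interface statement `H76.AlgStmt` (helper97)

`H76.AlgStmt` is `H97.exists_galoisRepAdic_of_trace` with one unused extra hypothesis
(centrality of `t`, which follows from the trace identity).
-/

set_option autoImplicit false

namespace Fermat.Agent.S30.H97

/-- **(S30-ALG)** in the literal shape of `Stmts_helper76`. -/
theorem algStmt : Fermat.Agent.S30.H76.AlgStmt :=
  fun O _ _ _ _ t δ ht1 _ hPC c hc hδc hcont =>
    exists_galoisRepAdic_of_trace O t δ ht1 hPC c hc hδc hcont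

end Fermat.Agent.S30.H97
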