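import Mathlib
import Fermat.Prelude.Def_CuspForm_HeckeAlgebra
import Fermat.Agent.S21.Injective_helper25
import Fermat.Agent.S21.Parabolic_helper23
import Fermat.Agent.S22.CocycleAlg_helper16
import Fermat.Agent.S29.PeriodHecke_helper6
import Fermat.Agent.S29.LatChar_helper89

/-!
# S30 / S31, node (HA)/(EIG-O) (helper89): the Hecke algebra acts faithfully on the homology
lattice, and every character of it occurs there

`Λ' :=` the image of `ev : Γ₀(N) → Dual_ℂ S₂(Γ₀(N))`, `γ ↦ (f ↦ periodMap N f γ)`, is a finite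
free `ℤ`-module.  Every element of the Hecke algebra `heckeAlgebra N 2 S` (`S` containing the
primes of `N`, so that it is generated by the `T_ℓ`, `ℓ ∤ N`) acts on the dual by transposition
and preserves `Λ'`; this action is faithful.  In coordinates with respect to a `ℤ`-basis of `Λ'`:

* `exists_heckeLattice` **(HA)**: jointly surjective parabolic characters `ψ i : Γ₀(N) → ℤ` and an
  injective ring homomorphism `M : heckeAlgebra N 2 S →+* Matrix (Fin d) (Fin d) ℤ` such that the
  Hecke transfer (`H06.IsHeckeTr`) of `ψ j` is `∑ i, M (T_ℓ) j i • ψ i`;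
* `exists_eigen_O` **(EIG-O)**: for every ring homomorphism `χ` from the Hecke algebra to a
  valuation domain `O` (a discrete valuation ring, a field) a vector `θ ∈ O^d` with one
  coordinate equal to `1` and `∑ j, M t j i * θ j = χ t * θ i` for all `t`.
-/

set_option autoImplicit false

namespace Fermat.Agent.S30.H89

open CongruenceSubgroup ModularCurve ModularCurve.Period
open Fermat.Agent.S21 Fermat.Agent.S22 Fermat.Agent.S29
open scoped MatrixGroups

noncomputable section

variable (N : ℕ) [NeZero N]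

/-- The period functional of `γ`: `f ↦ periodMap N f γ`. -/
def perEv : Additive (Gamma0 N) →+ Module.Dual ℂ (CuspForm (Gamma0 N) 2) where
  toFun γ :=
    { toFun := fun f => periodMap N f γ
      map_add' := fun f g => by
        rw [← H25.pml_apply, ← H25.pml_apply, ← H25.pml_apply, map_add]; rfl
      map_smul' := fun c f => by
        rw [← H25.pml_apply, ← H25.pml_apply, map_smul]; rfl }
  map_zero' := by
    ext f
    simp
  map_add' γ δ := by
    ext f
    simp

@[simp] theorem perEv_apply (γ : Additive (Gamma0 N)) (f : CuspForm (Gamma0 N) 2) :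
    perEv N γ f = periodMap N f γ := rfl

/-- The homology lattice: the image of `perEv`. -/
def homLat : Submodule ℤ (Module.Dual ℂ (CuspForm (Gamma0 N) 2)) :=
  AddSubgroup.toIntSubmodule (perEv N).range

theorem mem_homLat {y : Module.Dual ℂ (CuspForm (Gamma0 N) 2)} :
    y ∈ homLat N ↔ ∃ γ, perEv N γ = y := Iff.rfl

theorem homLat_fg : (homLat N).FG := by
  classical
  obtain ⟨r, γ, hγ⟩ := H16.Gamma0_generators N
  refine ⟨Finset.univ.image fun i : Fin r => perEv N (Additive.ofMul (γ i)), ?_⟩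
  apply le_antisymm
  · rw [Submodule.span_le]
    intro y hy
    simp only [Finset.coe_image, Finset.coe_univ, Set.image_univ, Set.mem_range] at hy
    obtain ⟨i, rfl⟩ := hy
    exact ⟨_, rfl⟩
  · rintro y ⟨δ, rfl⟩
    have hδ : Additive.toMul δ ∈ Subgroup.closure (Set.range γ) := by rw [hγ]; trivial
    have key : ∀ ε : Gamma0 N, ε ∈ Subgroup.closure (Set.range γ) →
        perEv N (Additive.ofMul ε) ∈ Submodule.span ℤ
          ((Finset.univ.image fun i : Fin r => perEv N (Additive.ofMul (γ i)) :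
            Finset (Module.Dual ℂ (CuspForm (Gamma0 N) 2))) :
              Set (Module.Dual ℂ (CuspForm (Gamma0 N) 2))) := by
      intro ε hε
      induction hε using Subgroup.closure_induction with
      | mem x hx =>
        obtain ⟨i, rfl⟩ := hx
        apply Submodule.subset_span
        simp
      | one => simp
      | mul x y _ _ hx hy =>
        rw [ofMul_mul, map_add]
        exact Submodule.add_mem _ hx hy
      | inv x _ hx =>
        rw [ofMul_inv, map_neg]
        exact Submodule.neg_mem _ hx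
    exact key _ hδ

/-! ### The transposed action on the dual preserves the lattice -/

/-- The endomorphisms of `S₂` whose transpose preserves the homology lattice. -/
def stabAlg : Subalgebra ℤ (Module.End ℂ (CuspForm (Gamma0 N) 2)) where
  carrier := {t | ∀ y ∈ homLat N, y ∘ₗ t ∈ homLat N}
  mul_mem' := by
    intro s t hs ht y hy
    have : y ∘ₗ (s * t) = (y ∘ₗ s) ∘ₗ t := rfl
    rw [this]
    exact ht _ (hs y hy)
  one_mem' := by
    intro y hy
    exact hy
  add_mem' := by
    intro s t hs ht y hy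
    rw [LinearMap.comp_add]
    exact Submodule.add_mem _ (hs y hy) (ht y hy)
  zero_mem' := by
    intro y _
    rw [LinearMap.comp_zero]
    exact Submodule.zero_mem _
  algebraMap_mem' := by
    intro n y hy
    have : y ∘ₗ (algebraMap ℤ (Module.End ℂ (CuspForm (Gamma0 N) 2)) n) = n • y := by
      ext f
      simp
    rw [this]
    exact Submodule.smul_mem _ n hy

theorem mem_stabAlg {t : Module.End ℂ (CuspForm (Gamma0 N) 2)} :
    t ∈ stabAlg N ↔ ∀ y ∈ homLat N, y ∘ₗ t ∈ homLat N := Iff.rfl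

/-- The transposed Hecke operator on period functionals, for a coset decomposition. -/
theorem perEv_comp_heckeTLin {ℓ : ℕ} (hℓ : ℓ.Prime) (hℓN : ¬ ℓ ∣ N) (γ : Gamma0 N)
    (σ : Equiv.Perm (Option (Fin ℓ))) (g' : Option (Fin ℓ) → Gamma0 N)
    (hd : H06.IsDecomp N ℓ γ σ g') :
    perEv N (Additive.ofMul γ) ∘ₗ CuspForm.heckeTLin 2 hℓ hℓN
      = ∑ x, perEv N (Additive.ofMul (g' x)) := by
  ext f
  have h := H06.isHeckeTr_periodMap hℓ hℓN f γ σ g' hd
  rw [LinearMap.comp_apply, perEv_apply, LinearMap.sum_apply]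
  exact h

theorem heckeTLin_mem_stabAlg {ℓ : ℕ} (hℓ : ℓ.Prime) (hℓN : ¬ ℓ ∣ N) :
    CuspForm.heckeTLin 2 hℓ hℓN ∈ stabAlg N := by
  rintro y ⟨γ, rfl⟩
  obtain ⟨σ, g', hd⟩ := H06.exists_isDecomp hℓ hℓN (Additive.toMul γ)
  have h := perEv_comp_heckeTLin N hℓ hℓN (Additive.toMul γ) σ g' hd
  rw [ofMul_toMul] at h
  rw [h]
  exact Submodule.sum_mem _ fun x _ => ⟨_, rfl⟩

theorem heckeAlgebra_le_stabAlg (S : Set ℕ) (hNS : ∀ q : ℕ, q.Prime → q ∣ N → q ∈ S) :
    CuspForm.heckeAlgebra N 2 S ≤ stabAlg N := by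
  refine Algebra.adjoin_le ?_
  rintro T (⟨ℓ, hℓ, hℓN, -, rfl⟩ | ⟨q, hqN, hq, hqS, rfl⟩)
  · exact heckeTLin_mem_stabAlg N hℓ hℓN
  · exact absurd (hNS q hq hqN) hqS

/-- The transposed action of a lattice-preserving endomorphism on the lattice. -/
def latEnd (t : Module.End ℂ (CuspForm (Gamma0 N) 2)) (ht : t ∈ stabAlg N) :
    homLat N →ₗ[ℤ] homLat N where
  toFun y := ⟨(y : Module.Dual ℂ (CuspForm (Gamma0 N) 2)) ∘ₗ t, ht _ y.2⟩
  map_add' y z := by
    apply Subtype.ext
    show ((y + z : homLat N) : Module.Dual ℂ (CuspForm (Gamma0 N) 2)) ∘ₗ t = _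
    rw [Submodule.coe_add, LinearMap.add_comp]
    rfl
  map_smul' n y := by
    apply Subtype.ext
    show ((n • y : homLat N) : Module.Dual ℂ (CuspForm (Gamma0 N) 2)) ∘ₗ t = _
    rw [Submodule.coe_smul]
    ext f
    simp

theorem latEnd_coe (t : Module.End ℂ (CuspForm (Gamma0 N) 2)) (ht : t ∈ stabAlg N)
    (y : homLat N) :
    ((latEnd N t ht y : homLat N) : Module.Dual ℂ (CuspForm (Gamma0 N) 2))
      = (y : Module.Dual ℂ (CuspForm (Gamma0 N) 2)) ∘ₗ t := rfl

theorem latEnd_mul (s t : Module.End ℂ (CuspForm (Gamma0 N) 2)) (hs : s ∈ stabAlg N)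
    (ht : t ∈ stabAlg N) :
    latEnd N (s * t) ((stabAlg N).mul_mem hs ht) = (latEnd N t ht).comp (latEnd N s hs) :=
  LinearMap.ext fun _ => rfl

theorem latEnd_add (s t : Module.End ℂ (CuspForm (Gamma0 N) 2)) (hs : s ∈ stabAlg N)
    (ht : t ∈ stabAlg N) :
    latEnd N (s + t) ((stabAlg N).add_mem hs ht) = latEnd N s hs + latEnd N t ht := by
  refine LinearMap.ext fun y => Subtype.ext ?_
  show (y : Module.Dual ℂ (CuspForm (Gamma0 N) 2)) ∘ₗ (s + t) = _
  rw [LinearMap.comp_add]
  rfl

theorem latEnd_one : latEnd N 1 (stabAlg N).one_mem = LinearMap.id :=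
  LinearMap.ext fun _ => rfl

theorem latEnd_zero : latEnd N 0 (stabAlg N).zero_mem = 0 := by
  refine LinearMap.ext fun y => Subtype.ext ?_
  show (y : Module.Dual ℂ (CuspForm (Gamma0 N) 2)) ∘ₗ 0 = _
  rw [LinearMap.comp_zero]
  rfl

/-- The period map is injective. -/
theorem periodMap_injective : Function.Injective (periodMap N) := by
  intro f g hfg
  have h0 : periodMap N (f - g) = 0 := by
    have := (H25.pml N).map_sub f g
    rw [H25.pml_apply, H25.pml_apply, H25.pml_apply, hfg, sub_self] at this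
    exact this
  have hz : periodMap N (0 : CuspForm (Gamma0 N) 2) = 0 := (H25.pml N).map_zero
  have h1 : periodHomPair N (f - g, 0) = 0 := by
    refine AddMonoidHom.ext fun γ => ?_
    have := H25.periodHomPair_apply N (f - g) 0 (Additive.toMul γ)
    rw [h0, hz] at this
    simpa using this
  have h2 : (f - g, (0 : CuspForm (Gamma0 N) 2)) = 0 :=
    H25.periodHomPair_injective N (h1.trans (map_zero _).symm)
  exact sub_eq_zero.mp (congrArg Prod.fst h2)

/-- Faithfulness: an endomorphism whose transpose kills the lattice is zero. -/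
theorem eq_zero_of_latEnd_eq_zero (t : Module.End ℂ (CuspForm (Gamma0 N) 2))
    (ht : t ∈ stabAlg N) (h : latEnd N t ht = 0) : t = 0 := by
  refine LinearMap.ext fun f => ?_
  apply periodMap_injective N
  have hz : periodMap N (0 : CuspForm (Gamma0 N) 2) = 0 := (H25.pml N).map_zero
  rw [LinearMap.zero_apply, hz]
  refine AddMonoidHom.ext fun γ => ?_
  have h1 := congrArg (fun e : homLat N →ₗ[ℤ] homLat N =>
    ((e ⟨perEv N γ, ⟨γ, rfl⟩⟩ : homLat N) : Module.Dual ℂ (CuspForm (Gamma0 N) 2)) f) h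
  simpa [latEnd_coe] using h1

/-! ### (HA): the Hecke algebra on the homology lattice, in coordinates -/

theorem latEnd_congr {s t : Module.End ℂ (CuspForm (Gamma0 N) 2)} (hst : s = t)
    (hs : s ∈ stabAlg N) (ht : t ∈ stabAlg N) : latEnd N s hs = latEnd N t ht := by
  subst hst
  rfl

section Coord

variable {ι : Type} [Fintype ι] [DecidableEq ι] (b : Module.Basis ι ℤ (homLat N))
  (S : Set ℕ) (hle : CuspForm.heckeAlgebra N 2 S ≤ stabAlg N)

/-- The matrix of the transposed action of a Hecke operator on the homology lattice. -/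
def latMatFun (t : CuspForm.heckeAlgebra N 2 S) : Matrix ι ι ℤ :=
  LinearMap.toMatrix b b (latEnd N t.1 (hle t.2))

theorem latMatFun_one : latMatFun N b S hle 1 = 1 := by
  have h1 : ((1 : CuspForm.heckeAlgebra N 2 S) : Module.End ℂ (CuspForm (Gamma0 N) 2)) = 1 :=
    rfl
  have h2 : latEnd N (1 : CuspForm.heckeAlgebra N 2 S).1
      (hle (1 : CuspForm.heckeAlgebra N 2 S).2) = LinearMap.id :=
    (latEnd_congr N h1 _ (stabAlg N).one_mem).trans (latEnd_one N)
  unfold latMatFun
  rw [h2, LinearMap.toMatrix_id]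

theorem latMatFun_zero : latMatFun N b S hle 0 = 0 := by
  have h1 : ((0 : CuspForm.heckeAlgebra N 2 S) : Module.End ℂ (CuspForm (Gamma0 N) 2)) = 0 :=
    rfl
  have h2 : latEnd N (0 : CuspForm.heckeAlgebra N 2 S).1
      (hle (0 : CuspForm.heckeAlgebra N 2 S).2) = 0 :=
    (latEnd_congr N h1 _ (stabAlg N).zero_mem).trans (latEnd_zero N)
  unfold latMatFun
  rw [h2, map_zero]

theorem latMatFun_add (s t : CuspForm.heckeAlgebra N 2 S) :
    latMatFun N b S hle (s + t) = latMatFun N b S hle s + latMatFun N b S hle t := by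
  have h1 : ((s + t : CuspForm.heckeAlgebra N 2 S) : Module.End ℂ (CuspForm (Gamma0 N) 2))
      = s.1 + t.1 := rfl
  have h2 : latEnd N (s + t : CuspForm.heckeAlgebra N 2 S).1
      (hle (s + t : CuspForm.heckeAlgebra N 2 S).2)
      = latEnd N s.1 (hle s.2) + latEnd N t.1 (hle t.2) :=
    (latEnd_congr N h1 _ ((stabAlg N).add_mem (hle s.2) (hle t.2))).trans
      (latEnd_add N s.1 t.1 (hle s.2) (hle t.2))
  unfold latMatFun
  rw [h2, map_add]

theorem latMatFun_mul (s t : CuspForm.heckeAlgebra N 2 S) :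
    latMatFun N b S hle (s * t) = latMatFun N b S hle s * latMatFun N b S hle t := by
  have h0 : s * t = t * s := mul_comm s t
  have h1 : ((s * t : CuspForm.heckeAlgebra N 2 S) : Module.End ℂ (CuspForm (Gamma0 N) 2))
      = t.1 * s.1 := by
    rw [h0]
    rfl
  have h2 : latEnd N (s * t : CuspForm.heckeAlgebra N 2 S).1
      (hle (s * t : CuspForm.heckeAlgebra N 2 S).2)
      = (latEnd N s.1 (hle s.2)).comp (latEnd N t.1 (hle t.2)) :=
    (latEnd_congr N h1 _ ((stabAlg N).mul_mem (hle t.2) (hle s.2))).trans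
      (latEnd_mul N t.1 s.1 (hle t.2) (hle s.2))
  unfold latMatFun
  rw [h2, LinearMap.toMatrix_comp b b b]

/-- The matrix representation of the Hecke algebra on the homology lattice. -/
def latMat : CuspForm.heckeAlgebra N 2 S →+* Matrix ι ι ℤ where
  toFun := latMatFun N b S hle
  map_one' := latMatFun_one N b S hle
  map_mul' := latMatFun_mul N b S hle
  map_zero' := latMatFun_zero N b S hle
  map_add' := latMatFun_add N b S hle

theorem latMat_apply (t : CuspForm.heckeAlgebra N 2 S) :
    latMat N b S hle t = LinearMap.toMatrix b b (latEnd N t.1 (hle t.2)) := rfl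

theorem latMat_injective : Function.Injective (latMat N b S hle) := by
  rw [injective_iff_map_eq_zero]
  intro t ht
  rw [latMat_apply] at ht
  have h1 : latEnd N t.1 (hle t.2) = 0 :=
    (LinearMap.toMatrix b b).injective (ht.trans (map_zero _).symm)
  exact Subtype.ext (eq_zero_of_latEnd_eq_zero N t.1 (hle t.2) h1)

/-- The period functional of `γ` as an element of the homology lattice. -/
def evLat : Additive (Gamma0 N) →+ homLat N :=
  AddMonoidHom.codRestrict (perEv N) (homLat N) (fun γ => ⟨γ, rfl⟩)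

theorem evLat_coe (γ : Additive (Gamma0 N)) :
    ((evLat N γ : homLat N) : Module.Dual ℂ (CuspForm (Gamma0 N) 2)) = perEv N γ := rfl

theorem evLat_surjective : Function.Surjective (evLat N) := by
  rintro ⟨y, γ, rfl⟩
  exact ⟨γ, rfl⟩

/-- The coordinates of the period functionals in the basis `b`. -/
def latCoord (i : ι) : Additive (Gamma0 N) →+ ℤ :=
  ((b.coord i : homLat N →ₗ[ℤ] ℤ).toAddMonoidHom).comp (evLat N)

omit [Fintype ι] [DecidableEq ι] in
theorem latCoord_apply (i : ι) (γ : Additive (Gamma0 N)) :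
    latCoord N b i γ = b.repr (evLat N γ) i := rfl

omit [Fintype ι] [DecidableEq ι] in
theorem latCoord_mem_parabolicHoms (i : ι) :
    latCoord N b i ∈ parabolicHoms ℤ (Gamma0 N) ℤ := by
  intro γ hγ
  have h0 : perEv N (Additive.ofMul γ) = 0 := by
    ext f
    exact H23.periodMap_mem_parabolicHoms N f γ hγ
  have h1 : evLat N (Additive.ofMul γ) = 0 := Subtype.ext h0
  rw [latCoord_apply, h1, map_zero]
  rfl

omit [DecidableEq ι] in
theorem latCoord_surjective (c : ι → ℤ) : ∃ γ, ∀ i, latCoord N b i γ = c i := by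
  obtain ⟨γ, hγ⟩ := evLat_surjective N (∑ i, c i • b i)
  refine ⟨γ, fun i => ?_⟩
  rw [latCoord_apply, hγ, b.repr_sum_self]

theorem latCoord_isHeckeTr {ℓ : ℕ} (hℓ : ℓ.Prime) (hℓN : ¬ ℓ ∣ N) (hℓS : ℓ ∉ S) (j : ι) :
    H06.IsHeckeTr N ℓ (latCoord N b j)
      (∑ i, latMat N b S hle (CuspForm.heckeAlgebra.T hℓ hℓN hℓS) j i • latCoord N b i) := by
  intro γ σ g' hd
  have hT : ((CuspForm.heckeAlgebra.T hℓ hℓN hℓS : CuspForm.heckeAlgebra N 2 S) :
      Module.End ℂ (CuspForm (Gamma0 N) 2)) = CuspForm.heckeTLin 2 hℓ hℓN := rfl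
  have hmem : CuspForm.heckeTLin 2 hℓ hℓN ∈ stabAlg N := heckeTLin_mem_stabAlg N hℓ hℓN
  have hLc : latEnd N (CuspForm.heckeAlgebra.T hℓ hℓN hℓS : CuspForm.heckeAlgebra N 2 S).1
      (hle (CuspForm.heckeAlgebra.T hℓ hℓN hℓS : CuspForm.heckeAlgebra N 2 S).2)
      = latEnd N (CuspForm.heckeTLin 2 hℓ hℓN) hmem := latEnd_congr N hT _ _
  have h1 : ∑ x, evLat N (Additive.ofMul (g' x))
      = latEnd N (CuspForm.heckeTLin 2 hℓ hℓN) hmem (evLat N (Additive.ofMul γ)) := by
    apply Subtype.ext
    rw [AddSubmonoidClass.coe_finsetSum, latEnd_coe, evLat_coe]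
    simp only [evLat_coe]
    exact (perEv_comp_heckeTLin N hℓ hℓN γ σ g' hd).symm
  have h2 : evLat N (Additive.ofMul γ) = ∑ i, latCoord N b i (Additive.ofMul γ) • b i :=
    (b.sum_repr (evLat N (Additive.ofMul γ))).symm
  have h3 : ∑ x, latCoord N b j (Additive.ofMul (g' x))
      = b.repr (latEnd N (CuspForm.heckeTLin 2 hℓ hℓN) hmem (evLat N (Additive.ofMul γ))) j := by
    rw [← h1, map_sum, Finsupp.coe_finsetSum, Finset.sum_apply]
    rfl
  have h4 : ∀ i, latMat N b S hle (CuspForm.heckeAlgebra.T hℓ hℓN hℓS) j i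
      = b.repr (latEnd N (CuspForm.heckeTLin 2 hℓ hℓN) hmem (b i)) j := by
    intro i
    rw [latMat_apply, hLc, LinearMap.toMatrix_apply]
  rw [h3, AddMonoidHom.finsetSum_apply]
  conv_rhs => rw [h2]
  rw [map_sum, map_sum, Finsupp.coe_finsetSum, Finset.sum_apply]
  refine Finset.sum_congr rfl fun i _ => ?_
  rw [map_smul, map_smul, Finsupp.smul_apply, AddMonoidHom.smul_apply, h4, smul_eq_mul,
    smul_eq_mul, mul_comm]

end Coord

/-- **(HA).**  Jointly surjective parabolic characters `ψ i` of `Γ₀(N)` (the coordinates of the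
period functionals in a `ℤ`-basis of the homology lattice) and a faithful matrix representation
`M` of the Hecke algebra such that the Hecke transfer of `ψ j` is `∑ i, M (T_ℓ) j i • ψ i`. -/
theorem exists_heckeLattice (S : Set ℕ) (hNS : ∀ q : ℕ, q.Prime → q ∣ N → q ∈ S) :
    ∃ (d : ℕ) (ψ : Fin d → Additive (Gamma0 N) →+ ℤ)
      (M : CuspForm.heckeAlgebra N 2 S →+* Matrix (Fin d) (Fin d) ℤ),
      (∀ i, ψ i ∈ parabolicHoms ℤ (Gamma0 N) ℤ) ∧
      (∀ c : Fin d → ℤ, ∃ γ, ∀ i, ψ i γ = c i) ∧
      Function.Injective M ∧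
      ∀ (ℓ : ℕ) (hℓ : ℓ.Prime) (hℓN : ¬ ℓ ∣ N) (hℓS : ℓ ∉ S) (j : Fin d),
        H06.IsHeckeTr N ℓ (ψ j) (∑ i, M (CuspForm.heckeAlgebra.T hℓ hℓN hℓS) j i • ψ i) := by
  have hfg : (homLat N).FG := homLat_fg N
  have : Module.Finite ℤ (homLat N) := Module.Finite.iff_fg.mpr hfg
  have : Module.Free ℤ (homLat N) := inferInstance
  have hle := heckeAlgebra_le_stabAlg N S hNS
  exact ⟨Module.finrank ℤ (homLat N), latCoord N (Module.finBasis ℤ (homLat N)),
    latMat N (Module.finBasis ℤ (homLat N)) S hle,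
    latCoord_mem_parabolicHoms N _, latCoord_surjective N _, latMat_injective N _ S hle,
    fun ℓ hℓ hℓN hℓS j => latCoord_isHeckeTr N _ S hle hℓ hℓN hℓS j⟩

/-! ### (EIG-O): every character of the Hecke algebra occurs, primitively -/

/-- In a valuation ring, a finite nonempty family has a member dividing all the others. -/
theorem exists_dvd_all {O : Type*} [CommRing O] [IsDomain O] [ValuationRing O] {ι : Type*}
    (s : Finset ι)
    (hs : s.Nonempty) (a : ι → O) : ∃ j0 ∈ s, ∀ j ∈ s, a j0 ∣ a j := by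
  classical
  induction hs using Finset.Nonempty.cons_induction with
  | singleton i =>
    exact ⟨i, Finset.mem_singleton_self i, fun j hj => by rw [Finset.mem_singleton.mp hj]⟩
  | cons i s hi hs ih =>
    obtain ⟨j0, hj0, h⟩ := ih
    rcases ValuationRing.dvd_total (a i) (a j0) with h1 | h1
    · refine ⟨i, Finset.mem_cons_self i s, fun j hj => ?_⟩
      rcases Finset.mem_cons.mp hj with rfl | hj
      · exact dvd_rfl
      · exact h1.trans (h j hj)
    · refine ⟨j0, Finset.mem_cons.mpr (Or.inr hj0), fun j hj => ?_⟩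
      rcases Finset.mem_cons.mp hj with rfl | hj
      · exact h1
      · exact h j hj

/-- **(EIG-O).**  For every ring homomorphism `χ` from the Hecke algebra to a valuation domain `O`
(a discrete valuation ring, a field, ...) the lattice data of `exists_heckeLattice` carry a
primitive `χ`-eigenvector: `θ ∈ O^d` with one coordinate equal to `1` and
`∑ j, M t j i * θ j = χ t * θ i` for every `t` in the Hecke algebra. -/
theorem exists_eigen_O (S : Set ℕ) (hNS : ∀ q : ℕ, q.Prime → q ∣ N → q ∈ S)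
    {O : Type*} [CommRing O] [IsDomain O] [ValuationRing O]
    (χ : CuspForm.heckeAlgebra N 2 S →+* O) :
    ∃ (d : ℕ) (ψ : Fin d → Additive (Gamma0 N) →+ ℤ)
      (M : CuspForm.heckeAlgebra N 2 S →+* Matrix (Fin d) (Fin d) ℤ) (θ : Fin d → O),
      (∀ i, ψ i ∈ parabolicHoms ℤ (Gamma0 N) ℤ) ∧
      (∀ c : Fin d → ℤ, ∃ γ, ∀ i, ψ i γ = c i) ∧
      Function.Injective M ∧
      (∀ (ℓ : ℕ) (hℓ : ℓ.Prime) (hℓN : ¬ ℓ ∣ N) (hℓS : ℓ ∉ S) (j : Fin d),
        H06.IsHeckeTr N ℓ (ψ j) (∑ i, M (CuspForm.heckeAlgebra.T hℓ hℓN hℓS) j i • ψ i)) ∧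
      (∃ i, θ i = 1) ∧
      ∀ (t : CuspForm.heckeAlgebra N 2 S) (i : Fin d),
        ∑ j, ((M t j i : ℤ) : O) * θ j = χ t * θ i := by
  classical
  obtain ⟨d, ψ, M, hpar, hsurj, hinj, htr⟩ := exists_heckeLattice N S hNS
  -- an eigenvector over the fraction field
  obtain ⟨w, hw, hrel⟩ := Fermat.Agent.S29.H89.exists_left_eigenvector_of_faithful M hinj
    ((algebraMap O (FractionRing O)).comp χ)
  have hrel' : ∀ (t : CuspForm.heckeAlgebra N 2 S) (i : Fin d),
      ∑ j, w j * ((M t j i : ℤ) : FractionRing O) = algebraMap O (FractionRing O) (χ t) * w i := by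
    intro t i
    have := congrFun (hrel t) i
    simpa [Matrix.vecMul, dotProduct] using this
  -- clear denominators
  obtain ⟨s, hs⟩ := IsLocalization.exist_integer_multiples_of_finset (nonZeroDivisors O)
    (Finset.univ.image w)
  have hint : ∀ j, ∃ z : O, algebraMap O (FractionRing O) z
      = algebraMap O (FractionRing O) (s : O) * w j := by
    intro j
    obtain ⟨z, hz⟩ := hs (w j) (Finset.mem_image_of_mem w (Finset.mem_univ j))
    exact ⟨z, by rw [hz, Algebra.smul_def]⟩
  choose a ha using hint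
  have hs0 : algebraMap O (FractionRing O) (s : O) ≠ 0 := by
    rw [Ne, map_eq_zero_iff _ (IsFractionRing.injective O (FractionRing O))]
    exact nonZeroDivisors.coe_ne_zero s
  have hinjO := IsFractionRing.injective O (FractionRing O)
  have harel : ∀ (t : CuspForm.heckeAlgebra N 2 S) (i : Fin d),
      ∑ j, a j * ((M t j i : ℤ) : O) = χ t * a i := by
    intro t i
    apply hinjO
    rw [map_sum, map_mul, ha i]
    have h1 : ∀ j, algebraMap O (FractionRing O) (a j * ((M t j i : ℤ) : O))
        = algebraMap O (FractionRing O) (s : O) * (w j * ((M t j i : ℤ) : FractionRing O)) := by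
      intro j
      rw [map_mul, ha j, map_intCast, mul_assoc]
    rw [Finset.sum_congr rfl fun j _ => h1 j, ← Finset.mul_sum, hrel' t i]
    ring
  -- a coordinate dividing all the others
  obtain ⟨i1, hi1⟩ : ∃ i, w i ≠ 0 := by
    by_contra hcon
    exact hw (funext fun i => not_not.mp fun hi => hcon ⟨i, hi⟩)
  obtain ⟨j0, -, hj0⟩ := exists_dvd_all (Finset.univ : Finset (Fin d)) ⟨i1, Finset.mem_univ i1⟩ a
  have ha1 : a i1 ≠ 0 := by
    intro h0
    have := ha i1
    rw [h0, map_zero] at this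
    exact (mul_ne_zero hs0 hi1) this.symm
  have haj0 : a j0 ≠ 0 := by
    intro h0
    obtain ⟨c, hc⟩ := hj0 i1 (Finset.mem_univ i1)
    rw [h0, zero_mul] at hc
    exact ha1 hc
  have hdiv : ∀ j, ∃ c : O, a j = a j0 * c := fun j => hj0 j (Finset.mem_univ j)
  choose θ hθ using hdiv
  refine ⟨d, ψ, M, θ, hpar, hsurj, hinj, htr, ⟨j0, ?_⟩, fun t i => ?_⟩
  · have := hθ j0
    exact (mul_left_cancel₀ haj0 (by rw [mul_one]; exact this)).symm
  · apply mul_left_cancel₀ haj0
    have h2 := harel t i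
    rw [hθ i] at h2
    rw [Finset.mul_sum, ← mul_assoc, mul_comm (a j0) (χ t), mul_assoc, ← h2]
    refine Finset.sum_congr rfl fun j _ => ?_
    rw [hθ j]
    ring

end

end Fermat.Agent.S30.H89
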