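import Mathlib
import Fermat.Agent.S29.Cyc_helper51

/-!
# S30 leaf (CYC-O): the `p`-adic cyclotomic character and a complex conjugation (helper87)

Mathlib + the landed general-modulus cyclotomic file `S29/Cyc_helper51` only.

* `cycP p : Gal(ℚ̄/ℚ) →* ℤ_[p]ˣ`, the `p`-adic cyclotomic character, with
  `cycP_sub_natCast_mem` (`σ ζ = ζ ^ a` on `μ_{p^M}` ⇒ `cycP σ ≡ a mod p^M`), `cycP_spec`,
  `cycP_frob` (`= ℓ` at Frobenius lifts at `ℓ ≠ p`), `cycP_inertia`, `cycP_cc` (`= -1`);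
* `cc : Gal(ℚ̄/ℚ)`, a complex conjugation: `cc * cc = 1`, `cc ζ = ζ⁻¹` on roots of unity;
* `padicToRing` : the ring homomorphism `ℤ_[p] →+* O` for an `I`-adically complete ring `O`
  with `p ∈ I`;
* `cycO ι : Gal(ℚ̄/ℚ) →* Oˣ` for a ring homomorphism `ι : ℤ_[p] →+* O`, with the same list of
  properties (`cycO_sub_natCast_mem`, `cycO_spec`, `cycO_frob`, `cycO_inertia`, `cycO_cc`);
* `exists_cycAdic`, `exists_complexConj_cycAdic` : the packaged existence statements;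
* `cycFieldP p M = ℚ(μ_{p^M})`, finite and Galois over `ℚ`, and the finite level statements
  `cycP_sub_one_mem`, `cycO_sub_one_mem`.
-/

set_option autoImplicit false

namespace Fermat.Agent.S30.H87

open Fermat.Agent.S29

noncomputable section

local notation "Qb" => AlgebraicClosure ℚ

/-! ### A complex conjugation in `Gal(ℚ̄/ℚ)` -/

section Conj

/-- Complex conjugation as a `ℚ`-algebra automorphism of `ℂ`. -/
def conjQ : ℂ ≃ₐ[ℚ] ℂ := Complex.conjAe.restrictScalars ℚ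

theorem conjQ_apply (z : ℂ) : conjQ z = (starRingEnd ℂ) z := rfl

/-- The algebraic numbers inside `ℂ`. -/
abbrev QbC : IntermediateField ℚ ℂ := algebraicClosure ℚ ℂ

instance isAlgClosure_QbC : IsAlgClosure ℚ QbC := algebraicClosure.isAlgClosure ℚ ℂ

instance normal_QbC : Normal ℚ QbC := IsAlgClosure.normal ℚ QbC

/-- Complex conjugation on the algebraic numbers. -/
def conjC : QbC ≃ₐ[ℚ] QbC := conjQ.restrictNormal QbC

theorem coe_conjC (z : QbC) : ((conjC z : QbC) : ℂ) = (starRingEnd ℂ) (z : ℂ) :=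
  AlgEquiv.restrictNormal_commutes conjQ QbC z

/-- An identification of `ℚ̄` with the algebraic numbers in `ℂ`. -/
def eQb : Qb ≃ₐ[ℚ] QbC :=
  haveI : IsAlgClosure ℚ Qb := AlgebraicClosure.instIsAlgClosure ℚ
  IsAlgClosure.equiv ℚ Qb QbC

/-- A complex conjugation in `Gal(ℚ̄/ℚ)`. -/
def cc : Qb ≃ₐ[ℚ] Qb := (eQb.trans conjC).trans eQb.symm

theorem cc_apply (x : Qb) : cc x = eQb.symm (conjC (eQb x)) := rfl

/-- Complex conjugation is an involution. -/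
theorem cc_mul_cc : cc * cc = 1 := by
  ext x
  rw [AlgEquiv.mul_apply, AlgEquiv.one_apply, cc_apply, cc_apply, AlgEquiv.apply_symm_apply]
  have h : conjC (conjC (eQb x)) = eQb x := by
    apply Subtype.ext
    rw [coe_conjC, coe_conjC, Complex.conj_conj]
  rw [h, AlgEquiv.symm_apply_apply]

/-- Complex conjugation inverts every root of unity. -/
theorem cc_root_of_unity (m : ℕ) (hm : m ≠ 0) (ζ : Qb) (hζ : ζ ^ m = 1) : cc ζ = ζ⁻¹ := by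
  rw [cc_apply]
  apply eQb.injective
  rw [AlgEquiv.apply_symm_apply, map_inv₀]
  apply Subtype.ext
  rw [coe_conjC]
  have h1 : ((eQb ζ : QbC) : ℂ) ^ m = 1 := by
    have := congrArg (fun z : QbC => (z : ℂ)) (congrArg eQb hζ)
    simpa using this
  have h2 : ‖((eQb ζ : QbC) : ℂ)‖ = 1 := Complex.norm_eq_one_of_pow_eq_one h1 hm
  rw [← Complex.inv_eq_conj h2]
  rfl

/-- Complex conjugation raises every `m`-th root of unity to the power `m - 1`. -/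
theorem cc_root_of_unity_pow (m : ℕ) (hm : m ≠ 0) (ζ : Qb) (hζ : ζ ^ m = 1) :
    cc ζ = ζ ^ (m - 1) := by
  rw [cc_root_of_unity m hm ζ hζ]
  have hζ0 : ζ ≠ 0 := by
    rintro rfl
    rw [zero_pow hm] at hζ
    exact zero_ne_one hζ
  apply mul_left_cancel₀ hζ0
  rw [mul_inv_cancel₀ hζ0, ← pow_succ', Nat.sub_add_cancel (Nat.pos_of_ne_zero hm), hζ]

end Conj

/-! ### The `p`-adic cyclotomic character -/

section Padic

variable (p : ℕ) [Fact p.Prime]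

instance neZero_p_pow (i : ℕ) : NeZero (p ^ i) :=
  ⟨pow_ne_zero i (Fact.out : p.Prime).ne_zero⟩

instance hasEnough (i : ℕ) : HasEnoughRootsOfUnity Qb (p ^ i) := by
  haveI : NeZero ((p ^ i : ℕ) : Qb) := ⟨Nat.cast_ne_zero.mpr (NeZero.ne _)⟩
  infer_instance

/-- The `p`-adic cyclotomic character of `Gal(ℚ̄/ℚ)`. -/
def cycP : (Qb ≃ₐ[ℚ] Qb) →* ℤ_[p]ˣ :=
  MonoidHom.mk' (fun σ => cyclotomicCharacter Qb p (σ : Qb ≃+* Qb))
    (fun a b => by rw [← map_mul]; congr 1)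

theorem cycP_apply (σ : Qb ≃ₐ[ℚ] Qb) :
    cycP p σ = cyclotomicCharacter Qb p (σ : Qb ≃+* Qb) := rfl

/-- The reduction of `cycP` modulo `p ^ n` is the mod-`p ^ n` cyclotomic character. -/
theorem toZModPow_cycP (σ : Qb ≃ₐ[ℚ] Qb) (n : ℕ) :
    PadicInt.toZModPow n ((cycP p σ : ℤ_[p]ˣ) : ℤ_[p]) =
      ((H51.cyc (p ^ n) σ : (ZMod (p ^ n))ˣ) : ZMod (p ^ n)) := by
  rw [cycP_apply, cyclotomicCharacter.toZModPow]
  rfl

/-- If `σ` raises the `p ^ M`-th roots of unity to the `a`-th power, then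
`cycP σ ≡ a` modulo `p ^ M`. -/
theorem cycP_sub_natCast_mem (σ : Qb ≃ₐ[ℚ] Qb) (M a : ℕ)
    (h : ∀ ζ : Qb, ζ ^ (p ^ M) = 1 → σ ζ = ζ ^ a) :
    ((cycP p σ : ℤ_[p]ˣ) : ℤ_[p]) - (a : ℤ_[p]) ∈ Ideal.span {(p : ℤ_[p]) ^ M} := by
  rw [← PadicInt.ker_toZModPow, RingHom.mem_ker, map_sub, map_natCast, toZModPow_cycP, sub_eq_zero]
  obtain ⟨ζ, hζ⟩ := H51.exists_primitiveRoot_Qb (p ^ M)
  exact H51.cyc_eq_of_primitiveRoot (p ^ M) hζ σ a (h ζ hζ.pow_eq_one)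

/-- The defining property of `cycP`. -/
theorem cycP_spec (σ : Qb ≃ₐ[ℚ] Qb) (M : ℕ) :
    ∃ n : ℕ, (∀ ζ : Qb, ζ ^ (p ^ M) = 1 → σ ζ = ζ ^ n) ∧
      ((cycP p σ : ℤ_[p]ˣ) : ℤ_[p]) - (n : ℤ_[p]) ∈ Ideal.span {(p : ℤ_[p]) ^ M} := by
  have h : ∀ ζ : Qb, ζ ^ (p ^ M) = 1 →
      σ ζ = ζ ^ ((H51.cyc (p ^ M) σ : (ZMod (p ^ M))ˣ) : ZMod (p ^ M)).val :=
    fun ζ hζ => H51.cyc_spec (p ^ M) σ ζ hζ
  exact ⟨_, h, cycP_sub_natCast_mem p σ M _ h⟩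

/-- Uniqueness: if `σ` raises all `p`-power roots of unity to the `a`-th power then
`cycP σ = a`. -/
theorem cycP_eq_natCast (σ : Qb ≃ₐ[ℚ] Qb) (a : ℕ)
    (h : ∀ (M : ℕ) (ζ : Qb), ζ ^ (p ^ M) = 1 → σ ζ = ζ ^ a) :
    ((cycP p σ : ℤ_[p]ˣ) : ℤ_[p]) = (a : ℤ_[p]) := by
  refine PadicInt.ext_of_toZModPow.mp fun M => ?_
  have h1 := cycP_sub_natCast_mem p σ M a (h M)
  rw [← PadicInt.ker_toZModPow, RingHom.mem_ker, map_sub, sub_eq_zero] at h1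
  exact h1

/-- The `p`-adic cyclotomic character of a Frobenius lift at `ℓ ≠ p` is `ℓ`. -/
theorem cycP_frob (A : ValuationSubring Qb) {ℓ : ℕ} (hℓ : ℓ.Prime) (hℓp : ℓ ≠ p)
    (hA : A.LiesOverPrime ℓ) (σ : Qb ≃ₐ[ℚ] Qb) (hσ : A.IsFrobeniusAt σ ℓ) :
    ((cycP p σ : ℤ_[p]ˣ) : ℤ_[p]) = (ℓ : ℤ_[p]) := by
  refine PadicInt.ext_of_toZModPow.mp fun M => ?_
  have hcop : ℓ.Coprime (p ^ M) :=
    Nat.Coprime.pow_right M ((Nat.coprime_primes hℓ (Fact.out : p.Prime)).mpr hℓp)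
  rw [toZModPow_cycP, map_natCast]
  exact H51.cyc_frobenius (p ^ M) hcop A hA σ hσ

/-- The `p`-adic cyclotomic character is trivial on inertia at `ℓ ≠ p`. -/
theorem cycP_inertia (A : ValuationSubring Qb) {ℓ : ℕ} (hℓ : ℓ.Prime) (hℓp : ℓ ≠ p)
    (hA : A.LiesOverPrime ℓ) (τ : Qb ≃ₐ[ℚ] Qb) (hτ : τ ∈ A.inertiaSubgroupIn ℚ) :
    cycP p τ = 1 := by
  refine Units.ext (PadicInt.ext_of_toZModPow.mp fun M => ?_)
  have hcop : ℓ.Coprime (p ^ M) :=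
    Nat.Coprime.pow_right M ((Nat.coprime_primes hℓ (Fact.out : p.Prime)).mpr hℓp)
  rw [toZModPow_cycP, H51.cyc_inertia (p ^ M) hcop A hA τ hτ]
  simp

/-- The `p`-adic cyclotomic character of complex conjugation is `-1`. -/
theorem cycP_cc : cycP p cc = -1 := by
  refine Units.ext (PadicInt.ext_of_toZModPow.mp fun M => ?_)
  have h1 := cycP_sub_natCast_mem p cc M (p ^ M - 1)
    (fun ζ hζ => cc_root_of_unity_pow (p ^ M) (NeZero.ne _) ζ hζ)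
  rw [← PadicInt.ker_toZModPow, RingHom.mem_ker, map_sub, sub_eq_zero] at h1
  rw [h1, map_natCast, Units.val_neg, Units.val_one, map_neg, map_one,
    Nat.cast_sub (Nat.one_le_iff_ne_zero.mpr (NeZero.ne _)), Nat.cast_one, ZMod.natCast_self,
    zero_sub]

/-- Finite level of the `p`-adic cyclotomic character modulo `p ^ M`. -/
theorem cycP_sub_one_mem (σ : Qb ≃ₐ[ℚ] Qb) (M : ℕ)
    (h : ∀ ζ : Qb, ζ ^ (p ^ M) = 1 → σ ζ = ζ) :
    ((cycP p σ : ℤ_[p]ˣ) : ℤ_[p]) - 1 ∈ Ideal.span {(p : ℤ_[p]) ^ M} := by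
  have h1 := cycP_sub_natCast_mem p σ M 1 (fun ζ hζ => by rw [pow_one]; exact h ζ hζ)
  simpa using h1

end Padic

/-! ### The cyclotomic fields `ℚ(μ_{p^M})` -/

section Field

/-- The cyclotomic field `ℚ(μ_m)` inside `ℚ̄`. -/
def cycField (m : ℕ) : IntermediateField ℚ Qb :=
  IntermediateField.adjoin ℚ ((Polynomial.X ^ m - 1 : Polynomial ℚ).rootSet Qb)

theorem mem_cycField {m : ℕ} (hm : m ≠ 0) (ζ : Qb) (hζ : ζ ^ m = 1) : ζ ∈ cycField m := by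
  refine IntermediateField.subset_adjoin ℚ _ ?_
  rw [Polynomial.mem_rootSet]
  refine ⟨Polynomial.X_pow_sub_C_ne_zero (Nat.pos_of_ne_zero hm) 1, ?_⟩
  simp [hζ]

instance finiteDimensional_cycField (m : ℕ) : FiniteDimensional ℚ (cycField m) := by
  haveI : IsAlgClosure ℚ Qb := AlgebraicClosure.instIsAlgClosure ℚ
  haveI : Algebra.IsAlgebraic ℚ Qb := IsAlgClosure.isAlgebraic
  haveI : Finite ((Polynomial.X ^ m - 1 : Polynomial ℚ).rootSet Qb) :=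
    (Polynomial.rootSet_finite _ _).to_subtype
  exact IntermediateField.finiteDimensional_adjoin
    (fun x _ => (Algebra.IsAlgebraic.isAlgebraic (R := ℚ) x).isIntegral)

instance isGalois_cycField (m : ℕ) [NeZero m] : IsGalois ℚ (cycField m) := by
  have hsplit : ((Polynomial.X ^ m - 1 : Polynomial ℚ).map (algebraMap ℚ Qb)).Splits :=
    IsAlgClosed.splits _
  haveI : (Polynomial.X ^ m - 1 : Polynomial ℚ).IsSplittingField ℚ (cycField m) :=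
    IntermediateField.adjoin_rootSet_isSplittingField hsplit
  have hsep : (Polynomial.X ^ m - 1 : Polynomial ℚ).Separable :=
    (Polynomial.X_pow_sub_one_separable_iff).mpr (Nat.cast_ne_zero.mpr (NeZero.ne m))
  exact IsGalois.of_separable_splitting_field (p := (Polynomial.X ^ m - 1 : Polynomial ℚ)) hsep

end Field

/-! ### Values in a ring receiving `ℤ_[p]` -/

section Ring

variable {p : ℕ} [Fact p.Prime] {O : Type*} [CommRing O] (ι : ℤ_[p] →+* O)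

/-- The cyclotomic character with values in a ring `O` receiving `ℤ_[p]`. -/
def cycO : (Qb ≃ₐ[ℚ] Qb) →* Oˣ := (Units.map ι.toMonoidHom).comp (cycP p)

theorem cycO_apply (σ : Qb ≃ₐ[ℚ] Qb) :
    ((cycO ι σ : Oˣ) : O) = ι ((cycP p σ : ℤ_[p]ˣ) : ℤ_[p]) := rfl

theorem map_mem_span_pow {x : ℤ_[p]} {M : ℕ} (hx : x ∈ Ideal.span {(p : ℤ_[p]) ^ M}) :
    ι x ∈ Ideal.span {(p : O) ^ M} := by
  rw [Ideal.mem_span_singleton] at hx ⊢
  obtain ⟨y, rfl⟩ := hx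
  exact ⟨ι y, by rw [map_mul, map_pow, map_natCast]⟩

/-- If `σ` raises the `p ^ M`-th roots of unity to the `a`-th power, then
`cycO σ ≡ a` modulo `p ^ M`. -/
theorem cycO_sub_natCast_mem (σ : Qb ≃ₐ[ℚ] Qb) (M a : ℕ)
    (h : ∀ ζ : Qb, ζ ^ (p ^ M) = 1 → σ ζ = ζ ^ a) :
    ((cycO ι σ : Oˣ) : O) - (a : O) ∈ Ideal.span {(p : O) ^ M} := by
  have h1 := map_mem_span_pow ι (cycP_sub_natCast_mem p σ M a h)
  rwa [map_sub, map_natCast] at h1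

/-- The defining property of `cycO`. -/
theorem cycO_spec (σ : Qb ≃ₐ[ℚ] Qb) (M : ℕ) :
    ∃ n : ℕ, (∀ ζ : Qb, ζ ^ (p ^ M) = 1 → σ ζ = ζ ^ n) ∧
      ((cycO ι σ : Oˣ) : O) - (n : O) ∈ Ideal.span {(p : O) ^ M} := by
  obtain ⟨n, hn, -⟩ := cycP_spec p σ M
  exact ⟨n, hn, cycO_sub_natCast_mem ι σ M n hn⟩

/-- `cycO` of a Frobenius lift at `ℓ ≠ p` is `ℓ`. -/
theorem cycO_frob (A : ValuationSubring Qb) {ℓ : ℕ} (hℓ : ℓ.Prime) (hℓp : ℓ ≠ p)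
    (hA : A.LiesOverPrime ℓ) (σ : Qb ≃ₐ[ℚ] Qb) (hσ : A.IsFrobeniusAt σ ℓ) :
    ((cycO ι σ : Oˣ) : O) = (ℓ : O) := by
  rw [cycO_apply, cycP_frob p A hℓ hℓp hA σ hσ, map_natCast]

/-- `cycO` is trivial on inertia at `ℓ ≠ p`. -/
theorem cycO_inertia (A : ValuationSubring Qb) {ℓ : ℕ} (hℓ : ℓ.Prime) (hℓp : ℓ ≠ p)
    (hA : A.LiesOverPrime ℓ) (τ : Qb ≃ₐ[ℚ] Qb) (hτ : τ ∈ A.inertiaSubgroupIn ℚ) :
    cycO ι τ = 1 := by
  rw [cycO, MonoidHom.comp_apply, cycP_inertia p A hℓ hℓp hA τ hτ, map_one]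

/-- `cycO` of complex conjugation is `-1` (in `O`). -/
theorem coe_cycO_cc : ((cycO ι cc : Oˣ) : O) = -1 := by
  rw [cycO_apply, cycP_cc, Units.val_neg, Units.val_one, map_neg, map_one]

/-- `cycO` of complex conjugation is `-1` (as a unit). -/
theorem cycO_cc : cycO ι cc = -1 :=
  Units.ext (by rw [coe_cycO_cc, Units.val_neg, Units.val_one])

/-- Finite level of `cycO` modulo `p ^ M`: it is `≡ 1` on the automorphisms fixing
`ℚ(μ_{p^M})`. -/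
theorem cycO_sub_one_mem (σ : Qb ≃ₐ[ℚ] Qb) (M : ℕ)
    (h : ∀ x ∈ cycField (p ^ M), σ x = x) :
    ((cycO ι σ : Oˣ) : O) - 1 ∈ Ideal.span {(p : O) ^ M} := by
  have h1 := cycO_sub_natCast_mem ι σ M 1
    (fun ζ hζ => by rw [pow_one]; exact h ζ (mem_cycField (NeZero.ne _) ζ hζ))
  simpa using h1

end Ring

/-! ### The ring homomorphism `ℤ_[p] →+* O` for an adically complete `O` -/

section ToRing

variable (p : ℕ) [Fact p.Prime] {O : Type*} [CommRing O] (I : Ideal O)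

/-- `ZMod (p ^ n) →+* O ⧸ I ^ n` when `p ∈ I`. -/
def zmodToQuot (hp : (p : O) ∈ I) (n : ℕ) : ZMod (p ^ n) →+* O ⧸ I ^ n :=
  (Ideal.Quotient.lift (Ideal.span {((p ^ n : ℕ) : ℤ)})
    ((Ideal.Quotient.mk (I ^ n)).comp (Int.castRingHom O)) (by
      intro a ha
      rw [Ideal.mem_span_singleton] at ha
      obtain ⟨b, rfl⟩ := ha
      rw [RingHom.comp_apply, Ideal.Quotient.eq_zero_iff_mem]
      have : (Int.castRingHom O) (((p ^ n : ℕ) : ℤ) * b) = (p : O) ^ n * (b : O) := by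
        simp
      rw [this]
      exact Ideal.mul_mem_right _ _ (Ideal.pow_mem_pow hp n))).comp
    ((Int.quotientSpanNatEquivZMod (p ^ n)).symm : ZMod (p ^ n) →+* ℤ ⧸ Ideal.span {((p ^ n : ℕ) : ℤ)})

variable [IsAdicComplete I O]

/-- The canonical ring homomorphism `ℤ_[p] →+* O` for an `I`-adically complete ring `O`
with `p ∈ I`. -/
def padicToRing (hp : (p : O) ∈ I) : ℤ_[p] →+* O :=
  IsAdicComplete.liftRingHom I (fun n => (zmodToQuot p I hp n).comp (PadicInt.toZModPow n))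
    (by
      intro m n hle
      rw [← RingHom.comp_assoc,
        Subsingleton.elim ((Ideal.Quotient.factorPow I hle).comp (zmodToQuot p I hp n))
          ((zmodToQuot p I hp m).comp (ZMod.castHom (pow_dvd_pow p hle) (ZMod (p ^ m)))),
        RingHom.comp_assoc, PadicInt.zmod_cast_comp_toZModPow m n hle])

/-- For an adically complete ring `O` with `p` in the ideal of definition there is a character
`δ : Gal(ℚ̄/ℚ) →* Oˣ` with all the properties of the `p`-adic cyclotomic character. -/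
theorem exists_cycAdic (hp : (p : O) ∈ I) :
    ∃ δ : (Qb ≃ₐ[ℚ] Qb) →* Oˣ,
      (∀ (σ : Qb ≃ₐ[ℚ] Qb) (M a : ℕ), (∀ ζ : Qb, ζ ^ (p ^ M) = 1 → σ ζ = ζ ^ a) →
        ((δ σ : Oˣ) : O) - (a : O) ∈ Ideal.span {(p : O) ^ M}) ∧
      (∀ (σ : Qb ≃ₐ[ℚ] Qb) (M : ℕ), ∃ n : ℕ, (∀ ζ : Qb, ζ ^ (p ^ M) = 1 → σ ζ = ζ ^ n) ∧
        ((δ σ : Oˣ) : O) - (n : O) ∈ Ideal.span {(p : O) ^ M}) ∧
      (∀ (A : ValuationSubring Qb) (ℓ : ℕ), ℓ.Prime → ℓ ≠ p → A.LiesOverPrime ℓ →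
        (∀ σ : Qb ≃ₐ[ℚ] Qb, A.IsFrobeniusAt σ ℓ → ((δ σ : Oˣ) : O) = (ℓ : O)) ∧
        ∀ τ ∈ A.inertiaSubgroupIn ℚ, δ τ = 1) ∧
      δ cc = -1 ∧
      ∀ (σ : Qb ≃ₐ[ℚ] Qb) (M : ℕ), (∀ x ∈ cycField (p ^ M), σ x = x) →
        ((δ σ : Oˣ) : O) - 1 ∈ Ideal.span {(p : O) ^ M} :=
  ⟨cycO (padicToRing p I hp),
    fun σ M a h => cycO_sub_natCast_mem _ σ M a h,
    fun σ M => cycO_spec _ σ M,
    fun A _ hℓ hℓp hA =>
      ⟨fun σ hσ => cycO_frob _ A hℓ hℓp hA σ hσ, fun τ hτ => cycO_inertia _ A hℓ hℓp hA τ hτ⟩,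
    cycO_cc _,
    fun σ M h => cycO_sub_one_mem _ σ M h⟩

/-- Packaged form: a complex conjugation `c` together with a `p`-adic cyclotomic character
`δ` into `Oˣ` with `δ c = -1`. -/
theorem exists_complexConj_cycAdic (hp : (p : O) ∈ I) :
    ∃ (c : Qb ≃ₐ[ℚ] Qb) (δ : (Qb ≃ₐ[ℚ] Qb) →* Oˣ), c * c = 1 ∧ δ c = -1 ∧
      (∀ (m : ℕ) (ζ : Qb), m ≠ 0 → ζ ^ m = 1 → c ζ = ζ⁻¹) ∧
      (∀ (σ : Qb ≃ₐ[ℚ] Qb) (M a : ℕ), (∀ ζ : Qb, ζ ^ (p ^ M) = 1 → σ ζ = ζ ^ a) →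
        ((δ σ : Oˣ) : O) - (a : O) ∈ Ideal.span {(p : O) ^ M}) ∧
      (∀ (A : ValuationSubring Qb) (ℓ : ℕ), ℓ.Prime → ℓ ≠ p → A.LiesOverPrime ℓ →
        (∀ σ : Qb ≃ₐ[ℚ] Qb, A.IsFrobeniusAt σ ℓ → ((δ σ : Oˣ) : O) = (ℓ : O)) ∧
        ∀ τ ∈ A.inertiaSubgroupIn ℚ, δ τ = 1) ∧
      ∀ (σ : Qb ≃ₐ[ℚ] Qb) (M : ℕ), (∀ x ∈ cycField (p ^ M), σ x = x) →
        ((δ σ : Oˣ) : O) - 1 ∈ Ideal.span {(p : O) ^ M} :=
  ⟨cc, cycO (padicToRing p I hp), cc_mul_cc, cycO_cc _,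
    fun m ζ hm hζ => cc_root_of_unity m hm ζ hζ,
    fun σ M a h => cycO_sub_natCast_mem _ σ M a h,
    fun A _ hℓ hℓp hA =>
      ⟨fun σ hσ => cycO_frob _ A hℓ hℓp hA σ hσ, fun τ hτ => cycO_inertia _ A hℓ hℓp hA τ hτ⟩,
    fun σ M h => cycO_sub_one_mem _ σ M h⟩

end ToRing

end

end Fermat.Agent.S30.H87
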