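import Mathlib

/-!
# S30 add-on: the abstract limit node (helper17)

Mathlib only.  No prime, no Galois group and no Jacobian appear in the statements.

Setting: a group `G`, a commutative ring `O` with an ideal `I` such that `O` is `I`-adically
complete, a character `δ : G →* Oˣ`, and for every level `M : ℕ` a "witness module" `W M`
(an `O`-module with an `O`-linear action `r M` of `G`) such that

* a scalar killing `W M` lies in `I ^ M`                                        (`hann`),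
* a decreasing chain of subgroups `H M` acts trivially on `W M`, and `δ h - 1` kills `W M`
  for `h ∈ H M`                                                                 (`hH`, `hδH`),
* "Frobenius elements" `s` at `ℓ` satisfy `s² - a ℓ • s + ℓ = 0` on every `W M` and
  `δ s = ℓ`                                                                     (`hquad`, `hFrobδ`),
* every `g` agrees modulo `H M` with a power of a Frobenius element              (`hFD`).

Conclusion (`exists_pseudoChar`): a function `t : G → O` with `t 1 = 2`, `t (g h) = t (h g)`,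
`t g * t h = t (g h) + δ h * t (g h⁻¹)`, `t s = a ℓ` at Frobenius elements, `t (τ g) = t g` for
`τ` acting trivially on all `W M` with `δ τ = 1`, and `t (g h) - t g ∈ I ^ M` for `h ∈ H M`.

The proof: on `W M0` the operator `g + δ(g) g⁻¹` is the Dickson scalar `dk (a ℓ) ℓ j` for any
witness `g ≡ s ^ j mod H M`, `M0 ≤ M`; so the scalars form an `I`-adic Cauchy sequence whose
limit is `t g`; every identity holds modulo `I ^ M` for all `M`, hence exactly.
-/

set_option autoImplicit false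

namespace Fermat.Agent.S30.H17

/-! ### Dickson scalars -/

section Dickson

variable {O : Type*} [CommRing O]

/-- Dickson values: `dk a l 0 = 2`, `dk a l 1 = a`,
`dk a l (j + 2) = a * dk a l (j + 1) - l * dk a l j`. -/
def dk (a l : O) : ℕ → O
  | 0 => 2
  | 1 => a
  | (j + 2) => a * dk a l (j + 1) - l * dk a l j

@[simp] theorem dk_zero (a l : O) : dk a l 0 = 2 := rfl

@[simp] theorem dk_one (a l : O) : dk a l 1 = a := rfl

theorem dk_add_two (a l : O) (j : ℕ) :
    dk a l (j + 2) = a * dk a l (j + 1) - l * dk a l j := rfl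

variable {V : Type*} [AddCommGroup V] [Module O V]

theorem mul_pow_succ_apply (s s' : Module.End O V) (hs : s * s' = 1) (j : ℕ) (w : V) :
    s ((s' ^ (j + 1)) w) = (s' ^ j) w := by
  have h : s * s' ^ (j + 1) = s' ^ j := by
    rw [pow_succ', ← mul_assoc, hs, one_mul]
  exact congrArg (fun f : Module.End O V => f w) h

theorem self_pow_succ_apply (s : Module.End O V) (j : ℕ) (w : V) :
    s ((s ^ (j + 1)) w) = (s ^ (j + 2)) w := by
  have h : s * s ^ (j + 1) = s ^ (j + 2) := (pow_succ' s (j + 1)).symm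
  exact congrArg (fun f : Module.End O V => f w) h

/-- **Dickson, operator form (pointwise).**  If `s, s'` are mutually inverse endomorphisms with
`s + l • s' = a`, then `s ^ j + l ^ j • s' ^ j = dk a l j`. -/
theorem pow_add_pow_apply (s s' : Module.End O V) (hs : s * s' = 1) (hs' : s' * s = 1) (a l : O)
    (h : ∀ w, s w + l • s' w = a • w) (j : ℕ) :
    ∀ w, (s ^ j) w + l ^ j • (s' ^ j) w = dk a l j • w := by
  induction j using Nat.twoStepInduction with
  | zero =>
    intro w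
    simp [two_smul]
  | one =>
    intro w
    simpa using h w
  | more j ih0 ih1 =>
    intro w
    have e1 := h ((s ^ (j + 1)) w + l ^ (j + 1) • (s' ^ (j + 1)) w)
    rw [ih1 w] at e1
    have e1' := h (dk a l (j + 1) • w)
    have e2 := ih1 w
    have e3 := ih0 w
    -- expand `s` and `s'` applied to `u = s^(j+1) w + l^(j+1) • s'^(j+1) w`
    have e4 : s (dk a l (j + 1) • w) =
        (s ^ (j + 2)) w + l ^ (j + 1) • (s' ^ j) w := by
      rw [← e2, map_add, map_smul, self_pow_succ_apply, mul_pow_succ_apply s s' hs]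
    have e5 : s' (dk a l (j + 1) • w) =
        (s ^ j) w + l ^ (j + 1) • (s' ^ (j + 2)) w := by
      rw [← e2, map_add, map_smul, self_pow_succ_apply, mul_pow_succ_apply s' s hs']
    rw [e4, e5] at e1'
    rw [dk_add_two, sub_smul, mul_smul, mul_smul, ← e3]
    have e6 : a • dk a l (j + 1) • w =
        (s ^ (j + 2)) w + l ^ (j + 1) • (s' ^ j) w +
          l • ((s ^ j) w + l ^ (j + 1) • (s' ^ (j + 2)) w) := e1'.symm
    rw [e6]
    module

end Dickson

/-! ### Scalars for `g + δ(g) g⁻¹` on one module -/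

section OneModule

variable {G : Type*} [Group G] {O : Type*} [CommRing O]
variable {V : Type*} [AddCommGroup V] [Module O V]

/-- `c` is the scalar by which `g + δ(g) g⁻¹` acts on `V`. -/
def IsScalar (r : G →* Module.End O V) (δ : G →* Oˣ) (g : G) (c : O) : Prop :=
  ∀ w : V, r g w + ((δ g : Oˣ) : O) • r g⁻¹ w = c • w

variable {r : G →* Module.End O V} {δ : G →* Oˣ}

theorem r_inv_apply (g : G) (w : V) : r g⁻¹ (r g w) = w := by
  have h : r g⁻¹ * r g = 1 := by rw [← map_mul, inv_mul_cancel, map_one]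
  exact congrArg (fun f : Module.End O V => f w) h

theorem r_apply_inv (g : G) (w : V) : r g (r g⁻¹ w) = w := by
  have h : r g * r g⁻¹ = 1 := by rw [← map_mul, mul_inv_cancel, map_one]
  exact congrArg (fun f : Module.End O V => f w) h

theorem isScalar_one : IsScalar r δ 1 2 := by
  intro w
  simp [two_smul]

theorem IsScalar.unique {g : G} {c c' : O} (h : IsScalar r δ g c) (h' : IsScalar r δ g c') :
    ∀ w : V, (c - c') • w = 0 := by
  intro w
  rw [sub_smul, ← h w, ← h' w, sub_self]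

/-- conjugation invariance: `h g = g⁻¹ (g h) g`. -/
theorem IsScalar.comm {g h : G} {c : O} (hc : IsScalar r δ (g * h) c) :
    IsScalar r δ (h * g) c := by
  intro w
  have e1 : r (h * g) w = r g⁻¹ (r (g * h) (r g w)) := by
    have : h * g = g⁻¹ * ((g * h) * g) := by group
    rw [this, map_mul, map_mul]
    rfl
  have e2 : r (h * g)⁻¹ w = r g⁻¹ (r (g * h)⁻¹ (r g w)) := by
    have : (h * g)⁻¹ = g⁻¹ * ((g * h)⁻¹ * g) := by group
    rw [this, map_mul, map_mul]
    rfl
  have e3 : (δ (h * g) : Oˣ) = δ (g * h) := by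
    rw [map_mul, map_mul, mul_comm]
  rw [e1, e2, e3, ← map_smul, ← map_add, hc (r g w), map_smul, r_inv_apply]

/-- the pseudo-character identity, as a scalar killing `V`. -/
theorem IsScalar.mul_sub {g h : G} {cg ch cgh cgh' : O} (hg : IsScalar r δ g cg)
    (hh : IsScalar r δ h ch) (hgh : IsScalar r δ (g * h) cgh)
    (hgh' : IsScalar r δ (g * h⁻¹) cgh') :
    ∀ w : V, (cg * ch - (cgh + ((δ h : Oˣ) : O) * cgh')) • w = 0 := by
  intro w
  have e1 : (cg * ch) • w =
      r g (r h w) + ((δ h : Oˣ) : O) • r g (r h⁻¹ w) +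
        (((δ g : Oˣ) : O) • r h (r g⁻¹ w) +
          (((δ g : Oˣ) : O) * ((δ h : Oˣ) : O)) • r h⁻¹ (r g⁻¹ w)) := by
    rw [mul_comm, mul_smul, ← hg w, smul_add, smul_comm ch, ← map_smul (r g), ← hh w,
      ← hh (r g⁻¹ w), map_add, map_smul, smul_add, mul_smul]
  have d1 : ((δ (g * h) : Oˣ) : O) = ((δ g : Oˣ) : O) * ((δ h : Oˣ) : O) := by
    rw [map_mul, Units.val_mul]
  have r1 : r (g * h) w = r g (r h w) := by
    rw [map_mul]
    rfl
  have r2 : r (g * h)⁻¹ w = r h⁻¹ (r g⁻¹ w) := by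
    rw [mul_inv_rev, map_mul]
    rfl
  have d2 : ((δ (g * h⁻¹) : Oˣ) : O) = ((δ g : Oˣ) : O) * ((δ h⁻¹ : Oˣ) : O) := by
    rw [map_mul, Units.val_mul]
  have r3 : r (g * h⁻¹) w = r g (r h⁻¹ w) := by
    rw [map_mul]
    rfl
  have r4 : r (g * h⁻¹)⁻¹ w = r h (r g⁻¹ w) := by
    rw [mul_inv_rev, inv_inv, map_mul]
    rfl
  have e2 : cgh • w = r g (r h w) + (((δ g : Oˣ) : O) * ((δ h : Oˣ) : O)) • r h⁻¹ (r g⁻¹ w) := by
    rw [← hgh w, d1, r1, r2]
  have e3 : (((δ h : Oˣ) : O) * cgh') • w =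
      ((δ h : Oˣ) : O) • r g (r h⁻¹ w) + ((δ g : Oˣ) : O) • r h (r g⁻¹ w) := by
    have hu : ((δ h : Oˣ) : O) * (((δ g : Oˣ) : O) * ((δ h⁻¹ : Oˣ) : O)) = ((δ g : Oˣ) : O) := by
      rw [map_inv, mul_comm ((δ g : Oˣ) : O), ← mul_assoc, Units.mul_inv, one_mul]
    rw [mul_smul, ← hgh' w, smul_add, d2, r3, r4, smul_smul, hu]
  rw [sub_smul, add_smul, e1, e2, e3]
  abel

/-- a Frobenius element: from the quadratic relation. -/
theorem isScalar_of_quad {s : G} {a l : O} (hδ : ((δ s : Oˣ) : O) = l)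
    (hq : r s * r s - a • r s + l • (1 : Module.End O V) = 0) : IsScalar r δ s a := by
  intro w
  have h := congrArg (fun f : Module.End O V => f (r s⁻¹ w)) hq
  simp only [LinearMap.add_apply, LinearMap.sub_apply, Module.End.mul_apply, LinearMap.smul_apply,
    Module.End.one_apply, LinearMap.zero_apply, r_apply_inv] at h
  rw [hδ]
  have : r s w + l • r s⁻¹ w = a • w + (r s w - a • w + l • r s⁻¹ w) := by abel
  rw [this, h, add_zero]

/-- `g ≡ s ^ j` modulo elements acting trivially: the scalar of `g` is the Dickson value. -/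
theorem isScalar_of_pow {s g : G} {a : O} (j : ℕ) (hs : IsScalar r δ s a)
    (hx : r (g⁻¹ * s ^ j) = 1)
    (hδx : ∀ w : V, (((δ (g⁻¹ * s ^ j) : Oˣ) : O) - 1) • w = 0) :
    IsScalar r δ g (dk a ((δ s : Oˣ) : O) j) := by
  intro w
  have hS : r s * r s⁻¹ = 1 := by rw [← map_mul, mul_inv_cancel, map_one]
  have hS' : r s⁻¹ * r s = 1 := by rw [← map_mul, inv_mul_cancel, map_one]
  have hD := pow_add_pow_apply (r s) (r s⁻¹) hS hS' a ((δ s : Oˣ) : O) hs j w
  have e1 : r g = r s ^ j := by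
    have : s ^ j = g * (g⁻¹ * s ^ j) := by group
    rw [← map_pow, this, map_mul, hx, mul_one]
  have e2 : r g⁻¹ = r s⁻¹ ^ j := by
    have : g⁻¹ = (g⁻¹ * s ^ j) * (s⁻¹) ^ j := by group
    rw [← map_pow, this, map_mul, hx, one_mul]
  have e3 : ((δ s : Oˣ) : O) ^ j =
      ((δ g : Oˣ) : O) * ((δ (g⁻¹ * s ^ j) : Oˣ) : O) := by
    rw [← Units.val_pow_eq_pow_val, ← Units.val_mul, ← map_pow, ← map_mul]
    congr 2
    group
  have e4 := hδx ((r s⁻¹ ^ j) w)
  rw [e1, e2, ← hD, e3]
  have : (((δ g : Oˣ) : O) * ((δ (g⁻¹ * s ^ j) : Oˣ) : O)) • (r s⁻¹ ^ j) w =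
      ((δ g : Oˣ) : O) • (r s⁻¹ ^ j) w +
        ((δ g : Oˣ) : O) • ((((δ (g⁻¹ * s ^ j) : Oˣ) : O) - 1) • (r s⁻¹ ^ j) w) := by
    module
  rw [this, e4, smul_zero, add_zero]

/-- right translation by an element acting trivially does not change the scalar. -/
theorem IsScalar.mul_right {g h : G} {c : O} (hc : IsScalar r δ g c) (hh : r h = 1)
    (hδh : ∀ w : V, (((δ h : Oˣ) : O) - 1) • w = 0) : IsScalar r δ (g * h) c := by
  intro w
  have hh' : r h⁻¹ = 1 := by
    have : r h⁻¹ * r h = 1 := by rw [← map_mul, inv_mul_cancel, map_one]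
    rwa [hh, mul_one] at this
  have e1 : r (g * h) w = r g w := by
    rw [map_mul, hh, mul_one]
  have e2 : r (g * h)⁻¹ w = r g⁻¹ w := by
    rw [mul_inv_rev, map_mul, hh', one_mul]
  have e3 := hδh (r g⁻¹ w)
  rw [e1, e2, map_mul, Units.val_mul, ← hc w]
  have : (((δ g : Oˣ) : O) * ((δ h : Oˣ) : O)) • r g⁻¹ w =
      ((δ g : Oˣ) : O) • r g⁻¹ w + ((δ g : Oˣ) : O) • ((((δ h : Oˣ) : O) - 1) • r g⁻¹ w) := by
    module
  rw [this, e3, smul_zero, add_zero]

end OneModule

/-! ### The limit -/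

section Limit

variable {O : Type*} [CommRing O]

theorem eq_of_forall_sub_mem_pow (I : Ideal O) [IsHausdorff I O] {x y : O}
    (h : ∀ M : ℕ, x - y ∈ I ^ M) : x = y := by
  rw [← sub_eq_zero]
  refine IsHausdorff.haus (I := I) inferInstance (x - y) fun n => ?_
  rw [SModEq.zero]
  have : (I ^ n • ⊤ : Submodule O O) = I ^ n := by
    rw [smul_eq_mul, Ideal.mul_top]
  rw [this]
  exact h n

theorem exists_limit (I : Ideal O) [IsPrecomplete I O] (f : ℕ → O)
    (hf : ∀ m n : ℕ, m ≤ n → f m - f n ∈ I ^ m) : ∃ L : O, ∀ n : ℕ, f n - L ∈ I ^ n := by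
  have htop : ∀ n : ℕ, (I ^ n • ⊤ : Submodule O O) = I ^ n := fun n => by
    rw [smul_eq_mul, Ideal.mul_top]
  obtain ⟨L, hL⟩ := IsPrecomplete.prec (I := I) inferInstance (f := f) (by
    intro m n hmn
    rw [SModEq.sub_mem, htop]
    exact hf m n hmn)
  refine ⟨L, fun n => ?_⟩
  have := hL n
  rwa [SModEq.sub_mem, htop] at this

end Limit

/-! ### The main statement -/

section Main

universe uG uO uW

variable {G : Type uG} [Group G] {O : Type uO} [CommRing O]

/-- **(S30-LIM-ABS)** the pseudo-character attached to a compatible family of witness modules. -/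
theorem exists_pseudoChar (I : Ideal O) [IsAdicComplete I O] (δ : G →* Oˣ) (a : ℕ → O)
    (Frob : G → ℕ → Prop)
    (W : ℕ → Type uW) [∀ M, AddCommGroup (W M)] [∀ M, Module O (W M)]
    (r : ∀ M, G →* Module.End O (W M)) (H : ℕ → Subgroup G) (hHanti : Antitone H)
    (hann : ∀ M (c : O), (∀ w : W M, c • w = 0) → c ∈ I ^ M)
    (hH : ∀ M, ∀ h ∈ H M, r M h = 1)
    (hδH : ∀ M, ∀ h ∈ H M, ∀ w : W M, (((δ h : Oˣ) : O) - 1) • w = 0)
    (hFrobδ : ∀ s ℓ, Frob s ℓ → ((δ s : Oˣ) : O) = (ℓ : O))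
    (hquad : ∀ M s ℓ, Frob s ℓ →
      r M s * r M s - a ℓ • r M s + (ℓ : O) • (1 : Module.End O (W M)) = 0)
    (hFD : ∀ M g, ∃ s ℓ, ∃ j : ℕ, Frob s ℓ ∧ g⁻¹ * s ^ j ∈ H M) :
    ∃ t : G → O, t 1 = 2 ∧ (∀ g h, t (g * h) = t (h * g)) ∧
      (∀ g h, t g * t h = t (g * h) + ((δ h : Oˣ) : O) * t (g * h⁻¹)) ∧
      (∀ s ℓ, Frob s ℓ → t s = a ℓ) ∧
      (∀ τ, (∀ M, r M τ = 1) → δ τ = 1 → ∀ g, t (τ * g) = t g ∧ t (g * τ) = t g) ∧
      (∀ M, ∀ h ∈ H M, ∀ g, t (g * h) - t g ∈ I ^ M) := by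
  classical
  -- Frobenius elements have the scalar `a ℓ` on every level
  have hFs : ∀ M s ℓ, Frob s ℓ → IsScalar (r M) δ s (a ℓ) := fun M s ℓ hF =>
    isScalar_of_quad (hFrobδ s ℓ hF) (hquad M s ℓ hF)
  -- the scalars at level `M`, valid on all lower levels
  have hex : ∀ M g, ∃ c : O, ∀ M0, M0 ≤ M → IsScalar (r M0) δ g c := by
    intro M g
    obtain ⟨s, ℓ, j, hF, hmem⟩ := hFD M g
    refine ⟨dk (a ℓ) ((δ s : Oˣ) : O) j, fun M0 hM0 => ?_⟩
    have hmem0 : g⁻¹ * s ^ j ∈ H M0 := hHanti hM0 hmem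
    exact isScalar_of_pow j (hFs M0 s ℓ hF) (hH M0 _ hmem0) (hδH M0 _ hmem0)
  choose cc hcc using hex
  have hcc' : ∀ M g, IsScalar (r M) δ g (cc M g) := fun M g => hcc M g M le_rfl
  -- Cauchy
  have hcauchy : ∀ g (m n : ℕ), m ≤ n → cc m g - cc n g ∈ I ^ m := fun g m n hmn =>
    hann m _ ((hcc' m g).unique (hcc n g m hmn))
  have hlim : ∀ g, ∃ L : O, ∀ n : ℕ, cc n g - L ∈ I ^ n := fun g =>
    exists_limit I (fun n => cc n g) (hcauchy g)
  choose t ht using hlim
  -- congruences in the quotients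
  have hq : ∀ M g, Ideal.Quotient.mk (I ^ M) (t g) = Ideal.Quotient.mk (I ^ M) (cc M g) :=
    fun M g => (Ideal.Quotient.eq.mpr (ht g M)).symm
  have hkill : ∀ M (x y : O), (∀ w : W M, (x - y) • w = 0) →
      Ideal.Quotient.mk (I ^ M) x = Ideal.Quotient.mk (I ^ M) y := fun M x y h =>
    Ideal.Quotient.eq.mpr (hann M _ h)
  have hfin : ∀ x y : O, (∀ M, Ideal.Quotient.mk (I ^ M) x = Ideal.Quotient.mk (I ^ M) y) →
      x = y := fun x y h =>
    eq_of_forall_sub_mem_pow I fun M => Ideal.Quotient.eq.mp (h M)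
  refine ⟨t, ?_, ?_, ?_, ?_, ?_, ?_⟩
  · -- t 1 = 2
    refine hfin _ _ fun M => ?_
    rw [hq]
    exact hkill M _ _ ((hcc' M 1).unique isScalar_one)
  · -- t (g h) = t (h g)
    intro g h
    refine hfin _ _ fun M => ?_
    rw [hq, hq]
    exact hkill M _ _ ((hcc' M (g * h)).unique (hcc' M (h * g)).comm)
  · -- the pseudo-character identity
    intro g h
    refine hfin _ _ fun M => ?_
    rw [map_mul, map_add, map_mul, hq, hq, hq, hq, ← map_mul, ← map_mul, ← map_add]
    exact hkill M _ _ ((hcc' M g).mul_sub (hcc' M h) (hcc' M (g * h)) (hcc' M (g * h⁻¹)))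
  · -- Frobenius elements
    intro s ℓ hF
    refine hfin _ _ fun M => ?_
    rw [hq]
    exact hkill M _ _ ((hcc' M s).unique (hFs M s ℓ hF))
  · -- elements acting trivially
    intro τ hτ hδτ g
    have key : ∀ g, t (g * τ) = t g := by
      intro g
      refine hfin _ _ fun M => ?_
      rw [hq, hq]
      refine hkill M _ _ ((hcc' M (g * τ)).unique ((hcc' M g).mul_right (hτ M) fun w => ?_))
      rw [hδτ, Units.val_one, sub_self, zero_smul]
    refine ⟨?_, key g⟩
    refine hfin _ _ fun M => ?_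
    rw [hq, hq]
    refine hkill M _ _ ((hcc' M (τ * g)).unique (IsScalar.comm ?_))
    refine (hcc' M g).mul_right (hτ M) fun w => ?_
    rw [hδτ, Units.val_one, sub_self, zero_smul]
  · -- continuity
    intro M h hh g
    refine Ideal.Quotient.eq.mp ?_
    rw [hq, hq]
    exact hkill M _ _ ((hcc' M (g * h)).unique ((hcc' M g).mul_right (hH M h hh) (hδH M h hh)))

end Main

end Fermat.Agent.S30.H17
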