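import Mathlib
import Fermat.Prelude.Def_CuspForm_HeckeGaloisRepDatum
import Fermat.Agent.S29.Top_helper24
import Fermat.Agent.S30.PseudoLimit_helper17
import Fermat.Agent.S30.CycAdic_helper87

/-!
# S30: interface statements and the top reduction (helper76, S30 lead)

Route (pseudo-character route, `𝒪'' := 𝒪'`):

* `WitStmt`  **(WIT-M)** : for `χ : heckeAlgebra N 2 S →+* O` there are `O`-modules `W M` with
  a Galois action, of finite level, killed by `p ^ M`, such that every scalar of `O` killing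
  `W M` lies in `𝔪 ^ M`, every Frobenius element at `ℓ ∤ N`, `ℓ ∉ S` satisfies the
  Eichler-Shimura relation `s² - χ(T_ℓ) s + ℓ = 0` on `W M`, and the inertia groups at
  `q ∤ N p` act trivially.  (`W M` = the `O[G_ℚ]`-span of `(1 ⊗ Ψ_{p^M}) v` in
  `O ⊗ J₀(N)[p^M]`, for a primitive `χ`-eigenvector `v` of `O ⊗ Hom_par(Γ₀(N), ℤ)`.)
* `AlgStmt`  **(S30-ALG)** : a pseudo-character `t : G_ℚ → O` of dimension two with
  determinant `δ`, odd (`δ c = -1` for an involution `c`), adically continuous, is the trace of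
  a `GaloisRepAdic O` with characteristic polynomials `X² - t(g) X + δ(g)`, on which `τ` acts
  trivially as soon as `t (g τ) = t g` for all `g`.
* the landed `H17.exists_pseudoChar` **(S30-LIM-ABS)**, `H87.exists_complexConj_cycAdic`
  **(CYC-O)** and `S29.H24.FDStmt` **(FD)** (proved by `S29.H86.frobenius_power`).

`result_of : WitStmt → AlgStmt → S29.H24.FDStmt → S30Stmt`, where `S30Stmt` is the frozen
statement S30 verbatim.
-/

set_option autoImplicit false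

open Polynomial

namespace Fermat.Agent.S30.H76

local notation "Qb" => AlgebraicClosure ℚ
local notation "Γℚ" => (AlgebraicClosure ℚ ≃ₐ[ℚ] AlgebraicClosure ℚ)

/-- The frozen statement S30, as a `Prop`. -/
def S30Stmt : Prop :=
    ∀ (p : ℕ) [Fact p.Prime] (N : ℕ) [NeZero N] (S : Finset ℕ)
      (_hpS : p ∈ S) (_hNS : ∀ q : ℕ, q.Prime → q ∣ N → q ∈ S)
      (𝒪' : Type) [CommRing 𝒪'] [IsDomain 𝒪'] [IsDiscreteValuationRing 𝒪']
      [IsAdicComplete (IsLocalRing.maximalIdeal 𝒪') 𝒪'] [Finite (IsLocalRing.ResidueField 𝒪')]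
      [CharZero 𝒪'] (_hp𝒪' : (p : 𝒪') ∈ IsLocalRing.maximalIdeal 𝒪')
      (χ : CuspForm.heckeAlgebra N 2 (↑S : Set ℕ) →+* 𝒪'),
      ∃ (𝒪'' : Type) (_ : CommRing 𝒪'') (_ : IsDomain 𝒪'') (_ : IsDiscreteValuationRing 𝒪'')
        (_ : IsAdicComplete (IsLocalRing.maximalIdeal 𝒪'') 𝒪'')
        (_ : Finite (IsLocalRing.ResidueField 𝒪'')) (_ : CharZero 𝒪'')
        (_ : Algebra 𝒪' 𝒪'') (_ : Module.Finite 𝒪' 𝒪'') (_ : IsLocalHom (algebraMap 𝒪' 𝒪'')),
      Function.Injective (algebraMap 𝒪' 𝒪'') ∧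
      ∃ ρ : GaloisRepAdic 𝒪'',
        (∀ (ℓ : ℕ) (hℓ : ℓ.Prime) (hℓN : ¬ ℓ ∣ N) (hℓS : ℓ ∉ (↑S : Set ℕ)),
          ∀ A : ValuationSubring (AlgebraicClosure ℚ), A.LiesOverPrime ℓ →
            ∀ σ : AlgebraicClosure ℚ ≃ₐ[ℚ] AlgebraicClosure ℚ, A.IsFrobeniusAt σ ℓ →
              LinearMap.charpoly (ρ.ρ σ) =
                X ^ 2 - C (algebraMap 𝒪' 𝒪'' (χ (CuspForm.heckeAlgebra.T hℓ hℓN hℓS))) * X
                  + C ((ℓ : 𝒪''))) ∧
        (∀ q : ℕ, q.Prime → ¬ q ∣ N → q ≠ p → ρ.IsUnramifiedAt q)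

/-- **(WIT-M)** the witness modules.  Owner: helper80 (second seat helper50). -/
def WitStmt : Prop :=
  ∀ (p : ℕ) [Fact p.Prime] (N : ℕ) [NeZero N] (S : Finset ℕ),
    p ∈ S → (∀ q : ℕ, q.Prime → q ∣ N → q ∈ S) →
    ∀ (O : Type) [CommRing O] [IsDomain O] [IsDiscreteValuationRing O]
      [IsAdicComplete (IsLocalRing.maximalIdeal O) O] [Finite (IsLocalRing.ResidueField O)]
      [CharZero O], (p : O) ∈ IsLocalRing.maximalIdeal O →
    ∀ (χ : CuspForm.heckeAlgebra N 2 (↑S : Set ℕ) →+* O),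
    ∃ (W : ℕ → Type) (_ : ∀ M, AddCommGroup (W M)) (_ : ∀ M, Module O (W M))
      (r : ∀ M, Γℚ →* Module.End O (W M)),
      (∀ M, ∃ L : IntermediateField ℚ Qb, FiniteDimensional ℚ L ∧
        ∀ σ : Γℚ, (∀ x ∈ L, σ x = x) → r M σ = 1) ∧
      (∀ M (c : O), (∀ w : W M, c • w = 0) → c ∈ IsLocalRing.maximalIdeal O ^ M) ∧
      (∀ M (w : W M), (p : O) ^ M • w = 0) ∧
      (∀ M (ℓ : ℕ) (hℓ : ℓ.Prime) (hℓN : ¬ ℓ ∣ N) (hℓS : ℓ ∉ (↑S : Set ℕ))
        (A : ValuationSubring Qb), A.LiesOverPrime ℓ → ∀ σ : Γℚ, A.IsFrobeniusAt σ ℓ →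
          r M σ * r M σ - χ (CuspForm.heckeAlgebra.T hℓ hℓN hℓS) • r M σ
            + (ℓ : O) • (1 : Module.End O (W M)) = 0) ∧
      (∀ M (q : ℕ), q.Prime → ¬ q ∣ N → q ≠ p →
        ∀ A : ValuationSubring Qb, A.LiesOverPrime q →
          ∀ τ ∈ A.inertiaSubgroupIn ℚ, r M τ = 1)

/-- **(S30-ALG)** from an odd two-dimensional pseudo-character to a `GaloisRepAdic`.
Owner: helper97 (second seat helper76). -/
def AlgStmt : Prop :=
  ∀ (O : Type) [CommRing O] [IsDomain O] [IsDiscreteValuationRing O] [CharZero O]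
    (t : Γℚ → O) (δ : Γℚ →* Oˣ), t 1 = 2 → (∀ g h, t (g * h) = t (h * g)) →
    (∀ g h, t g * t h = t (g * h) + ((δ h : Oˣ) : O) * t (g * h⁻¹)) →
    ∀ c : Γℚ, c * c = 1 → δ c = -1 →
    (∀ n : ℕ, ∃ L : IntermediateField ℚ Qb, FiniteDimensional ℚ L ∧
      ∀ σ : Γℚ, (∀ x ∈ L, σ x = x) → ∀ g, t (g * σ) - t g ∈ IsLocalRing.maximalIdeal O ^ n) →
    ∃ ρ : GaloisRepAdic O,
      (∀ g, LinearMap.charpoly (ρ.ρ g) = X ^ 2 - C (t g) * X + C ((δ g : Oˣ) : O)) ∧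
      ∀ τ, (∀ g, t (g * τ) = t g) → ρ.ρ τ = 1

/-! ### Finite Galois levels -/

/-- `Qb / ℚ` is normal (for the algebra structure used in the frozen statements). -/
theorem normal_Qb : Normal ℚ Qb := by
  have h : (DivisionRing.toRatAlgebra : Algebra ℚ (AlgebraicClosure ℚ)) =
      AlgebraicClosure.instAlgebra ℚ := Subsingleton.elim _ _
  rw [h]
  infer_instance

/-- Every finite subextension of `Qb / ℚ` lies in a finite Galois one. -/
theorem exists_galois_ge (F : IntermediateField ℚ Qb) [FiniteDimensional ℚ F] :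
    ∃ K : IntermediateField ℚ Qb, F ≤ K ∧ FiniteDimensional ℚ K ∧ IsGalois ℚ K := by
  have hN : Normal ℚ Qb := normal_Qb
  have hN' : Normal ℚ (IntermediateField.normalClosure ℚ F Qb) := normalClosure.normal ℚ F Qb
  exact ⟨IntermediateField.normalClosure ℚ F Qb, IntermediateField.le_normalClosure F,
    inferInstance, IsGalois.mk⟩

/-- A monotone sequence of finite Galois levels above two given sequences of finite levels. -/
theorem exists_levels (L L' : ℕ → IntermediateField ℚ Qb) (hL : ∀ M, FiniteDimensional ℚ (L M))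
    (hL' : ∀ M, FiniteDimensional ℚ (L' M)) :
    ∃ K : ℕ → IntermediateField ℚ Qb, (∀ M, FiniteDimensional ℚ (K M)) ∧
      (∀ M, IsGalois ℚ (K M)) ∧ Monotone K ∧ (∀ M, L M ≤ K M) ∧ (∀ M, L' M ≤ K M) := by
  have step : ∀ (F : IntermediateField ℚ Qb) (M : ℕ), FiniteDimensional ℚ F →
      ∃ K : IntermediateField ℚ Qb, (F ≤ K ∧ L M ≤ K ∧ L' M ≤ K) ∧ FiniteDimensional ℚ K ∧
        IsGalois ℚ K := by
    intro F M hF
    have h1 := hL M
    have h2 := hL' M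
    have h3 : FiniteDimensional ℚ (F ⊔ L M ⊔ L' M : IntermediateField ℚ Qb) :=
      IntermediateField.finiteDimensional_sup _ _
    obtain ⟨K, hle, hfin, hgal⟩ := exists_galois_ge (F ⊔ L M ⊔ L' M)
    exact ⟨K, ⟨(le_sup_left.trans le_sup_left).trans hle,
      (le_sup_right.trans le_sup_left).trans hle, le_sup_right.trans hle⟩, hfin, hgal⟩
  choose Kn hKn1 hKn2 hKn3 using step
  let K : ℕ → {F : IntermediateField ℚ Qb // FiniteDimensional ℚ F} := fun M =>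
    Nat.rec (⟨Kn ⊥ 0 inferInstance, hKn2 ⊥ 0 inferInstance⟩)
      (fun n F => ⟨Kn F.1 (n + 1) F.2, hKn2 F.1 (n + 1) F.2⟩) M
  have hK0 : (K 0).1 = Kn ⊥ 0 inferInstance := rfl
  have hKs : ∀ n, (K (n + 1)).1 = Kn (K n).1 (n + 1) (K n).2 := fun n => rfl
  have hgal : ∀ M, IsGalois ℚ (K M).1 := by
    intro M
    cases M with
    | zero => rw [hK0]; exact hKn3 _ _ _
    | succ n => rw [hKs]; exact hKn3 _ _ _
  have hmono : ∀ n, (K n).1 ≤ (K (n + 1)).1 := by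
    intro n
    rw [hKs]
    exact (hKn1 _ _ _).1
  have hle1 : ∀ M, L M ≤ (K M).1 := by
    intro M
    cases M with
    | zero => rw [hK0]; exact (hKn1 _ _ _).2.1
    | succ n => rw [hKs]; exact (hKn1 _ _ _).2.1
  have hle2 : ∀ M, L' M ≤ (K M).1 := by
    intro M
    cases M with
    | zero => rw [hK0]; exact (hKn1 _ _ _).2.2
    | succ n => rw [hKs]; exact (hKn1 _ _ _).2.2
  exact ⟨fun M => (K M).1, fun M => (K M).2, hgal, monotone_nat_of_le_succ hmono, hle1, hle2⟩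

/-! ### The top reduction -/

/-- **The frozen statement S30** from (WIT-M), (S30-ALG) and (FD). -/
theorem result_of (hWit : WitStmt) (hAlg : AlgStmt) (hFD : Fermat.Agent.S29.H24.FDStmt) :
    S30Stmt := by
  intro p _ N _ S hpS hNS O _ _ _ _ _ _ hpO χ
  obtain ⟨W, iA, iM, r, hlev, hann, hpow, hquad, hinert⟩ := hWit p N S hpS hNS O hpO χ
  obtain ⟨c, δ, hcc, hδc, -, -, hδfrob, hδlev⟩ :=
    Fermat.Agent.S30.H87.exists_complexConj_cycAdic p (IsLocalRing.maximalIdeal O) hpO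
  choose L hLfin hL using hlev
  obtain ⟨K, hKfin, hKgal, hKmono, hKL, hKcyc⟩ :=
    exists_levels L (fun M => Fermat.Agent.S30.H87.cycField (p ^ M)) hLfin
      (fun M => inferInstance)
  let H : ℕ → Subgroup Γℚ := fun M => (K M).fixingSubgroup
  have hHmem : ∀ M (h : Γℚ), h ∈ H M ↔ ∀ x ∈ K M, h x = x := fun M h =>
    IntermediateField.mem_fixingSubgroup_iff (K M) h
  have hHanti : Antitone H := by
    intro M M' hMM' h hh
    rw [hHmem] at hh ⊢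
    exact fun x hx => hh x (hKmono hMM' hx)
  let a : ℕ → O := fun ℓ =>
    if h : ℓ.Prime ∧ ¬ ℓ ∣ N ∧ ℓ ∉ (↑S : Set ℕ) then
      χ (CuspForm.heckeAlgebra.T h.1 h.2.1 h.2.2) else 0
  have ha : ∀ (ℓ : ℕ) (hℓ : ℓ.Prime) (hℓN : ¬ ℓ ∣ N) (hℓS : ℓ ∉ (↑S : Set ℕ)),
      a ℓ = χ (CuspForm.heckeAlgebra.T hℓ hℓN hℓS) := by
    intro ℓ hℓ hℓN hℓS
    exact dif_pos ⟨hℓ, hℓN, hℓS⟩
  let Frob : Γℚ → ℕ → Prop := fun s ℓ => ℓ.Prime ∧ ¬ ℓ ∣ N ∧ ℓ ∉ (↑S : Set ℕ) ∧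
    ∃ A : ValuationSubring Qb, A.LiesOverPrime ℓ ∧ A.IsFrobeniusAt s ℓ
  have hne : ∀ ℓ : ℕ, ℓ ∉ (↑S : Set ℕ) → ℓ ≠ p := by
    rintro ℓ hℓS rfl
    exact hℓS (Finset.mem_coe.mpr hpS)
  have hFrobδ : ∀ s ℓ, Frob s ℓ → ((δ s : Oˣ) : O) = (ℓ : O) := by
    rintro s ℓ ⟨hℓ, -, hℓS, A, hA, hs⟩
    exact (hδfrob A ℓ hℓ (hne ℓ hℓS) hA).1 s hs
  obtain ⟨t, ht1, htc, hPC, htF, htI, htcont⟩ :=
    Fermat.Agent.S30.H17.exists_pseudoChar (IsLocalRing.maximalIdeal O) δ a Frob W r H hHanti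
      hann
      (fun M h hh => hL M h fun x hx => (hHmem M h).mp hh x (hKL M hx))
      (fun M h hh w => by
        have h1 := hδlev h M fun x hx => (hHmem M h).mp hh x (hKcyc M hx)
        obtain ⟨y, hy⟩ := Ideal.mem_span_singleton'.mp h1
        rw [← hy, mul_smul, hpow M w, smul_zero])
      hFrobδ
      (by
        rintro M s ℓ ⟨hℓ, hℓN, hℓS, A, hA, hs⟩
        rw [ha ℓ hℓ hℓN hℓS]
        exact hquad M ℓ hℓ hℓN hℓS A hA s hs)
      (by
        intro M g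
        have := hKfin M
        have := hKgal M
        obtain ⟨ℓ, hℓ, hℓS, A, hA, τ, hτ, j, hj⟩ := hFD (K M) g S
        have hℓS' : ℓ ∉ (↑S : Set ℕ) := fun h => hℓS (Finset.mem_coe.mp h)
        refine ⟨τ, ℓ, j, ⟨hℓ, fun hN => hℓS (hNS ℓ hℓ hN), hℓS', A, hA, hτ⟩, ?_⟩
        rw [hHmem]
        intro x hx
        rw [AlgEquiv.mul_apply, hj x hx]
        exact AlgEquiv.symm_apply_apply g x)
  obtain ⟨ρ, hρ, hρ1⟩ := hAlg O t δ ht1 htc hPC c hcc hδc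
    (fun n => ⟨K n, hKfin n, fun σ hσ g => htcont n σ ((hHmem n σ).mpr hσ) g⟩)
  refine ⟨O, inferInstance, inferInstance, inferInstance, inferInstance, inferInstance,
    inferInstance, Algebra.id O, Module.Finite.self O, ⟨fun _ ha => ha⟩, Function.injective_id,
    ρ, ?_, ?_⟩
  · intro ℓ hℓ hℓN hℓS A hA σ hσ
    rw [hρ σ, htF σ ℓ ⟨hℓ, hℓN, hℓS, A, hA, hσ⟩, ha ℓ hℓ hℓN hℓS,
      hFrobδ σ ℓ ⟨hℓ, hℓN, hℓS, A, hA, hσ⟩]
    rfl
  · intro q hq hqN hqp P hP σ hσ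
    exact hρ1 σ fun g => (htI σ (fun M => hinert M q hq hqN hqp P hP σ hσ)
      ((hδfrob P q hq hqp hP).2 σ hσ) g).2

end Fermat.Agent.S30.H76
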