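import Mathlib
import Fermat.Prelude.Def_GaloisRep_Residual

/-!
# S30, node (WIT-M), abstract half (helper50)

Pure algebra / Galois theory over an arbitrary commutative coefficient ring `O`
(the `O`-analogue of the landed `S29/WitAbs_helper53`, which works over a field):

* `bcEndO O f` : base change to `O` of an additive endomorphism of an abelian group `X`;
* `exists_wit_of_eigenO` : from a simultaneous eigen-element `w ∈ O ⊗[ℤ] X` of abstract "Hecke
  operators" (`X` an abelian group with an action of `G_ℚ` in which every element is fixed at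
  finite level, Frobenius elements satisfy `σ² - T_ℓ σ + ℓ = 0`, inertia acts trivially) the
  `O`-module `W` = the `O`-span of the Galois orbit of `w`, with: `Ann_O(W) = Ann_O(w)`,
  finite level, trivial inertia, and the Frobenius quadratic `s² - c ℓ • s + ℓ = 0` on `W`;
* `mem_span_of_smul_sum_tmul_eq_zero` : the annihilator of `w = ∑ θ i ⊗ Ψ (χ i)` for
  `Ψ : Λ → X` with kernel `m Λ` and image killed by `m`, `O` flat over `ℤ`, and an additive
  functional `ev : Λ → ℤ` with `∑ θ i * ev (χ i)` a unit: `c • w = 0 → c ∈ (m)`;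
* `bcEndO_sum_tmul_eq` : the eigen-equation from the matrix form of the eigen-data.

Imports Mathlib and Prelude definitions only.
-/

set_option autoImplicit false

open scoped TensorProduct

namespace Fermat.Agent.S30.H50

local notation "Qb" => AlgebraicClosure ℚ
local notation "Γ" => (AlgebraicClosure ℚ ≃ₐ[ℚ] AlgebraicClosure ℚ)

section BaseChange

variable (O : Type) [CommRing O] {X : Type} [AddCommGroup X]

/-- Base change to `O` of an additive endomorphism of `X`. -/
noncomputable def bcEndO (f : AddMonoid.End X) : Module.End O (O ⊗[ℤ] X) :=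
  (AddMonoidHom.toIntLinearMap f).baseChange O

@[simp]
theorem bcEndO_tmul (f : AddMonoid.End X) (c : O) (x : X) :
    bcEndO O f (c ⊗ₜ[ℤ] x) = c ⊗ₜ[ℤ] f x := rfl

theorem bcEndO_one : bcEndO O (1 : AddMonoid.End X) = 1 := by
  refine TensorProduct.AlgebraTensorModule.ext (fun c x => ?_)
  rfl

theorem bcEndO_mul (f g : AddMonoid.End X) : bcEndO O (f * g) = bcEndO O f * bcEndO O g := by
  refine TensorProduct.AlgebraTensorModule.ext (fun c x => ?_)
  rfl

/-- The base-changed action as a monoid homomorphism. -/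
noncomputable def bcHomO : AddMonoid.End X →* Module.End O (O ⊗[ℤ] X) where
  toFun := bcEndO O
  map_one' := bcEndO_one O
  map_mul' := bcEndO_mul O

end BaseChange

section Wit

variable {O : Type} [CommRing O] {X : Type} [AddCommGroup X]

/-- Every element of `O ⊗ X` is fixed at finite level if every element of `X` is. -/
theorem exists_fix_tensorO (act : Γ →* AddMonoid.End X)
    (hFL : ∀ x : X, ∃ K0 : IntermediateField ℚ Qb, FiniteDimensional ℚ K0 ∧
      ∀ σ : Γ, (∀ a ∈ K0, σ a = a) → act σ x = x) (v : O ⊗[ℤ] X) :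
    ∃ K0 : IntermediateField ℚ Qb, FiniteDimensional ℚ K0 ∧
      ∀ σ : Γ, (∀ a ∈ K0, σ a = a) → bcEndO O (act σ) v = v := by
  induction v using TensorProduct.induction_on with
  | zero => exact ⟨⊥, inferInstance, fun σ _ => map_zero _⟩
  | tmul c m =>
    obtain ⟨K0, hK0, h⟩ := hFL m
    exact ⟨K0, hK0, fun σ hσ => by rw [bcEndO_tmul, h σ hσ]⟩
  | add x y hx hy =>
    obtain ⟨K1, hK1, h1⟩ := hx
    obtain ⟨K2, hK2, h2⟩ := hy
    refine ⟨K1 ⊔ K2, IntermediateField.finiteDimensional_sup K1 K2, fun σ hσ => ?_⟩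
    rw [map_add, h1 σ (fun a ha => hσ a ((le_sup_left : K1 ≤ K1 ⊔ K2) ha)),
      h2 σ (fun a ha => hσ a ((le_sup_right : K2 ≤ K1 ⊔ K2) ha))]

theorem normal_algebraicClosure_rat' : Normal ℚ Qb := by
  have h : (DivisionRing.toRatAlgebra : Algebra ℚ Qb) =
      AlgebraicClosure.instAlgebra ℚ := Subsingleton.elim _ _
  rw [h]
  infer_instance

/-- A finite level can be enlarged to a finite level stable under all of `G_ℚ`: if `σ` fixes the
normal closure of `K0` pointwise, every conjugate `τ⁻¹ σ τ` fixes `K0` pointwise. -/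
theorem exists_normal_level (K0 : IntermediateField ℚ Qb) [FiniteDimensional ℚ K0] :
    ∃ K : IntermediateField ℚ Qb, FiniteDimensional ℚ K ∧ K0 ≤ K ∧
      ∀ σ : Γ, (∀ a ∈ K, σ a = a) → ∀ τ : Γ, ∀ a ∈ K0, (τ⁻¹ * σ * τ) a = a := by
  have hnQ : Normal ℚ Qb := normal_algebraicClosure_rat'
  refine ⟨IntermediateField.normalClosure ℚ ↥K0 Qb, normalClosure.is_finiteDimensional _ _ _,
    K0.le_normalClosure, fun σ hσ τ a ha => ?_⟩
  have hmem : τ a ∈ IntermediateField.normalClosure ℚ ↥K0 Qb := by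
    have h1 : ((τ : Qb →ₐ[ℚ] Qb).comp K0.val).fieldRange ≤
        IntermediateField.normalClosure ℚ ↥K0 Qb :=
      AlgHom.fieldRange_le_normalClosure _
    exact h1 ⟨⟨a, ha⟩, rfl⟩
  show τ⁻¹ (σ (τ a)) = a
  rw [hσ _ hmem]
  exact τ.symm_apply_apply a

/-- **(WIT-M), abstract form over a commutative ring `O`.**  `S` = the primes with a Frobenius
relation and an eigenvalue `c ℓ`; `S'` = the primes with trivial inertia. -/
theorem exists_wit_of_eigenO
    (act : Γ →* AddMonoid.End X)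
    (hFL : ∀ x : X, ∃ K0 : IntermediateField ℚ Qb, FiniteDimensional ℚ K0 ∧
      ∀ σ : Γ, (∀ a ∈ K0, σ a = a) → act σ x = x)
    (S S' : Set ℕ) (T : ℕ → AddMonoid.End X) (c : ℕ → O)
    (hGC : ∀ ℓ ∈ S, ∀ (σ : Γ) (x : X), T ℓ (act σ x) = act σ (T ℓ x))
    (hFrob : ∀ ℓ ∈ S, ∀ A : ValuationSubring Qb, A.LiesOverPrime ℓ →
      ∀ σ : Γ, A.IsFrobeniusAt σ ℓ → ∀ x : X, act σ (act σ x) - T ℓ (act σ x) + ℓ • x = 0)
    (hInert : ∀ ℓ ∈ S', ∀ A : ValuationSubring Qb, A.LiesOverPrime ℓ →
      ∀ τ ∈ A.inertiaSubgroupIn ℚ, ∀ x : X, act τ x = x)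
    (w : O ⊗[ℤ] X)
    (heig : ∀ ℓ ∈ S, bcEndO O (T ℓ) w = c ℓ • w) :
    ∃ (W : Type) (_ : AddCommGroup W) (_ : Module O W) (r : Γ →* Module.End O W),
      (∀ a : O, (∀ x : W, a • x = 0) ↔ a • w = 0) ∧
      (∃ K : IntermediateField ℚ Qb, FiniteDimensional ℚ K ∧
        ∀ σ : Γ, (∀ x ∈ K, σ x = x) → r σ = 1) ∧
      (∀ ℓ ∈ S', ∀ A : ValuationSubring Qb, A.LiesOverPrime ℓ →
        ∀ τ ∈ A.inertiaSubgroupIn ℚ, r τ = 1) ∧
      ∀ ℓ ∈ S, ∀ A : ValuationSubring Qb, A.LiesOverPrime ℓ →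
        ∀ σ : Γ, A.IsFrobeniusAt σ ℓ →
          r σ * r σ - c ℓ • r σ + (ℓ : O) • (1 : Module.End O W) = 0 := by
  classical
  -- the base-changed action
  let B : Γ →* Module.End O (O ⊗[ℤ] X) := (bcHomO O).comp act
  have hB : ∀ σ, B σ = bcEndO O (act σ) := fun σ => rfl
  -- the span of the orbit
  let Wsub : Submodule O (O ⊗[ℤ] X) := Submodule.span O (Set.range fun σ : Γ => B σ w)
  have hstab : ∀ σ : Γ, ∀ v ∈ Wsub, B σ v ∈ Wsub := by
    intro σ v hv
    induction hv using Submodule.span_induction with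
    | mem x hx =>
      obtain ⟨τ, rfl⟩ := hx
      refine Submodule.subset_span ⟨σ * τ, ?_⟩
      show B (σ * τ) w = B σ (B τ w)
      rw [map_mul]; rfl
    | zero => rw [map_zero]; exact Submodule.zero_mem _
    | add x y _ _ hx hy => rw [map_add]; exact Submodule.add_mem _ hx hy
    | smul a x _ hx => rw [map_smul]; exact Submodule.smul_mem _ _ hx
  have hwW : w ∈ Wsub := Submodule.subset_span ⟨1, by show B 1 w = w; rw [map_one]; rfl⟩
  -- the representation on the span
  let r : Γ →* Module.End O Wsub :=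
    { toFun := fun σ => (B σ).restrict (hstab σ)
      map_one' := by
        refine LinearMap.ext (fun v => Subtype.ext ?_)
        show B 1 (v : O ⊗[ℤ] X) = v
        rw [map_one]; rfl
      map_mul' := fun σ τ => by
        refine LinearMap.ext (fun v => Subtype.ext ?_)
        show B (σ * τ) (v : O ⊗[ℤ] X) = B σ (B τ v)
        rw [map_mul]; rfl }
  have hr : ∀ (σ : Γ) (v : Wsub), ((r σ v : Wsub) : O ⊗[ℤ] X) = B σ v := fun σ v => rfl
  refine ⟨Wsub, inferInstance, inferInstance, r, ?_, ?_, ?_, ?_⟩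
  · -- the annihilator
    intro a
    refine ⟨fun h => ?_, fun h v => ?_⟩
    · have h1 := h ⟨w, hwW⟩
      exact congrArg Subtype.val h1
    · refine Subtype.ext ?_
      show a • (v : O ⊗[ℤ] X) = 0
      have haux : ∀ y ∈ Wsub, a • y = 0 := by
        intro y hy
        induction hy using Submodule.span_induction with
        | mem x hx =>
          obtain ⟨τ, rfl⟩ := hx
          show a • B τ w = 0
          rw [← map_smul, h, map_zero]
        | zero => rw [smul_zero]
        | add x y _ _ hx hy => rw [smul_add, hx, hy, add_zero]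
        | smul b x _ hx => rw [smul_comm, hx, smul_zero]
      exact haux _ v.2
  · -- finite level
    obtain ⟨K0, hK0, hfix⟩ := exists_fix_tensorO (O := O) act hFL w
    obtain ⟨K, hK, -, hconj⟩ := exists_normal_level K0
    refine ⟨K, hK, fun σ hσ => ?_⟩
    refine LinearMap.ext (fun v => Subtype.ext ?_)
    rw [Module.End.one_apply, hr]
    have haux : ∀ y ∈ Wsub, B σ y = y := by
      intro y hy
      induction hy using Submodule.span_induction with
      | mem x hx =>
        obtain ⟨τ, rfl⟩ := hx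
        show B σ (B τ w) = B τ w
        have h1 : bcEndO O (act (τ⁻¹ * σ * τ)) w = w := hfix _ (hconj σ hσ τ)
        calc B σ (B τ w) = B (τ * (τ⁻¹ * σ * τ)) w := by
              rw [mul_assoc, mul_inv_cancel_left, map_mul]; rfl
          _ = B τ (B (τ⁻¹ * σ * τ) w) := by rw [map_mul]; rfl
          _ = B τ w := by rw [hB (τ⁻¹ * σ * τ), h1]
      | zero => rw [map_zero]
      | add x y _ _ hx hy => rw [map_add, hx, hy]
      | smul b x _ hx => rw [map_smul, hx]
    exact haux _ v.2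
  · -- inertia
    intro ℓ hℓ A hA σ hσ
    have h1 : act σ = 1 := by
      refine AddMonoidHom.ext (fun x => ?_)
      exact hInert ℓ hℓ A hA σ hσ x
    refine LinearMap.ext (fun v => Subtype.ext ?_)
    rw [hr, hB, h1, bcEndO_one]; rfl
  · -- Frobenius
    intro ℓ hℓ A hA σ hσ
    -- the relation on `O ⊗ X`
    have hrel : ∀ v : O ⊗[ℤ] X,
        B σ (B σ v) - bcEndO O (T ℓ) (B σ v) + (ℓ : O) • v = 0 := by
      intro v
      induction v using TensorProduct.induction_on with
      | zero => simp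
      | tmul a m =>
        rw [hB, bcEndO_tmul, bcEndO_tmul, bcEndO_tmul, TensorProduct.smul_tmul',
          ← TensorProduct.tmul_sub]
        have e : (ℓ : O) • a = (ℓ : ℕ) • a := by rw [nsmul_eq_mul, smul_eq_mul]
        rw [e, TensorProduct.smul_tmul, ← TensorProduct.tmul_add, hFrob ℓ hℓ A hA σ hσ m,
          TensorProduct.tmul_zero]
      | add x y hx hy =>
        have : B σ (B σ (x + y)) - bcEndO O (T ℓ) (B σ (x + y)) + (ℓ : O) • (x + y)
            = (B σ (B σ x) - bcEndO O (T ℓ) (B σ x) + (ℓ : O) • x)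
              + (B σ (B σ y) - bcEndO O (T ℓ) (B σ y) + (ℓ : O) • y) := by
          simp only [map_add, smul_add]; abel
        rw [this, hx, hy, add_zero]
    -- `T ℓ` is the scalar `c ℓ` on the span
    have hT : ∀ v ∈ Wsub, bcEndO O (T ℓ) v = c ℓ • v := by
      intro v hv
      induction hv using Submodule.span_induction with
      | mem x hx =>
        obtain ⟨τ, rfl⟩ := hx
        have hcomm : bcEndO O (T ℓ) (B τ w) = B τ (bcEndO O (T ℓ) w) := by
          have : bcEndO O (T ℓ) * bcEndO O (act τ) = bcEndO O (act τ) * bcEndO O (T ℓ) := by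
            rw [← bcEndO_mul, ← bcEndO_mul]
            congr 1
            exact AddMonoidHom.ext (fun x => hGC ℓ hℓ τ x)
          exact LinearMap.congr_fun this w
        show bcEndO O (T ℓ) (B τ w) = c ℓ • B τ w
        rw [hcomm, heig ℓ hℓ, map_smul]
      | zero => rw [map_zero, smul_zero]
      | add x y _ _ hx hy => rw [map_add, hx, hy, smul_add]
      | smul a x _ hx => rw [map_smul, hx, smul_comm]
    refine LinearMap.ext (fun v => Subtype.ext ?_)
    have h1 := hrel (v : O ⊗[ℤ] X)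
    rw [hT _ (hstab σ v v.2)] at h1
    show B σ (B σ (v : O ⊗[ℤ] X)) - c ℓ • B σ (v : O ⊗[ℤ] X) + (ℓ : O) • (v : O ⊗[ℤ] X) = 0
    exact h1

end Wit

section Eigen

/-- The eigen-equation from the matrix form of the eigen-data. -/
theorem bcEndO_sum_tmul_eq
    {O : Type} [CommRing O] {X : Type} [AddCommGroup X] (T : AddMonoid.End X)
    {d : ℕ} (x : Fin d → X) (θ : Fin d → O) (c : O) (A : Fin d → Fin d → ℤ)
    (h1 : ∀ i, T (x i) = ∑ j, A i j • x j)
    (h2 : ∀ j, ∑ i, ((A i j : ℤ) : O) * θ i = c * θ j) :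
    bcEndO O T (∑ i, θ i ⊗ₜ[ℤ] x i : O ⊗[ℤ] X) = c • (∑ i, θ i ⊗ₜ[ℤ] x i : O ⊗[ℤ] X) := by
  rw [map_sum, Finset.smul_sum]
  have e1 : ∀ i, bcEndO O T (θ i ⊗ₜ[ℤ] x i) = ∑ j, (((A i j : ℤ) : O) * θ i) ⊗ₜ[ℤ] x j := by
    intro i
    rw [bcEndO_tmul, h1 i, TensorProduct.tmul_sum]
    refine Finset.sum_congr rfl (fun j _ => ?_)
    rw [TensorProduct.tmul_smul, TensorProduct.smul_tmul', zsmul_eq_mul]
  simp_rw [e1]
  rw [Finset.sum_comm]
  refine Finset.sum_congr rfl (fun j _ => ?_)
  rw [← TensorProduct.sum_tmul, h2 j, TensorProduct.smul_tmul', smul_eq_mul]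

/-- **The annihilator of the witness vector.**  `Ψ : Λ → X` additive with kernel `m Λ` and image
killed by `m`; `O` flat over `ℤ`; `ev : Λ → ℤ` an additive functional such that
`∑ θ i * ev (χ i)` is a unit of `O`.  Then a scalar killing `∑ θ i ⊗ Ψ (χ i)` lies in `m O`. -/
theorem mem_span_of_smul_sum_tmul_eq_zero
    {O : Type} [CommRing O] [Module.Flat ℤ O] {X : Type} [AddCommGroup X]
    {Λ : Type*} [AddCommGroup Λ] (m : ℕ) (Ψ : Λ →+ X) (hm : ∀ l : Λ, m • Ψ l = 0)
    (hker : ∀ l : Λ, Ψ l = 0 → ∃ l' : Λ, l = m • l')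
    (ev : Λ →+ ℤ) {d : ℕ} (χ : Fin d → Λ) (θ : Fin d → O)
    (hunit : IsUnit (∑ i, θ i * ((ev (χ i) : ℤ) : O)))
    (c : O) (hc : c • (∑ i, θ i ⊗ₜ[ℤ] Ψ (χ i) : O ⊗[ℤ] X) = 0) :
    c ∈ Ideal.span {(m : O)} := by
  classical
  -- the exact sequence `Λ --m--> Λ --Ψ--> X`
  let f : Λ →ₗ[ℤ] Λ := (m : ℤ) • LinearMap.id
  let g : Λ →ₗ[ℤ] X := Ψ.toIntLinearMap
  have hf : ∀ l : Λ, f l = m • l := fun l => by
    show (m : ℤ) • l = m • l
    rw [natCast_zsmul]
  have hex : Function.Exact f g := by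
    intro y
    constructor
    · intro hy
      obtain ⟨l', rfl⟩ := hker y hy
      exact ⟨l', hf l'⟩
    · rintro ⟨l', rfl⟩
      show Ψ (f l') = 0
      rw [hf, map_nsmul, hm]
  have hex' : Function.Exact (f.lTensor O) (g.lTensor O) := Module.Flat.lTensor_exact O hex
  -- the vector `v = ∑ θ i ⊗ χ i`
  set v : O ⊗[ℤ] Λ := ∑ i, θ i ⊗ₜ[ℤ] χ i with hv
  have hgv : (g.lTensor O) (c • v) = 0 := by
    have e : (g.lTensor O) v = ∑ i, θ i ⊗ₜ[ℤ] Ψ (χ i) := by
      rw [hv, map_sum]
      rfl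
    have e2 : (g.lTensor O) (c • v) = c • (g.lTensor O) v := by
      have := (TensorProduct.AlgebraTensorModule.lTensor O O g).map_smul c v
      exact this
    rw [e2, e, hc]
  obtain ⟨u, hu⟩ := (hex' (c • v)).mp hgv
  -- the evaluation functional
  let E : O ⊗[ℤ] Λ →ₗ[ℤ] O :=
    TensorProduct.lift ((LinearMap.mul ℤ O).compl₂
      ((Int.castAddHom O).comp ev).toIntLinearMap)
  have hE : ∀ (a : O) (l : Λ), E (a ⊗ₜ[ℤ] l) = a * ((ev l : ℤ) : O) := fun a l => rfl
  have hEf : ∀ u : O ⊗[ℤ] Λ, E ((f.lTensor O) u) = (m : O) * E u := by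
    intro u
    induction u using TensorProduct.induction_on with
    | zero => simp
    | tmul a l =>
      rw [LinearMap.lTensor_tmul, hE, hE, hf, map_nsmul, nsmul_eq_mul, Int.cast_mul,
        Int.cast_natCast]
      ring
    | add x y hx hy => rw [map_add, map_add, map_add, hx, hy, mul_add]
  have hEc : ∀ u : O ⊗[ℤ] Λ, E (c • u) = c * E u := by
    intro u
    induction u using TensorProduct.induction_on with
    | zero => simp
    | tmul a l =>
      rw [TensorProduct.smul_tmul', hE, hE, smul_eq_mul, mul_assoc]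
    | add x y hx hy => rw [smul_add, map_add, map_add, hx, hy, mul_add]
  have hEv : E v = ∑ i, θ i * ((ev (χ i) : ℤ) : O) := by
    rw [hv, map_sum]
    rfl
  have key : c * E v = (m : O) * E u := by
    rw [← hEc, ← hEf, hu]
  obtain ⟨e, he⟩ := hunit
  rw [hEv, ← he] at key
  refine Ideal.mem_span_singleton'.mpr ⟨E u * ((e⁻¹ : Oˣ) : O), ?_⟩
  calc E u * ((e⁻¹ : Oˣ) : O) * (m : O) = ((m : O) * E u) * ((e⁻¹ : Oˣ) : O) := by ring
    _ = c * (e : O) * ((e⁻¹ : Oˣ) : O) := by rw [key]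
    _ = c := by rw [mul_assoc, Units.mul_inv, mul_one]

end Eigen

end Fermat.Agent.S30.H50
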