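import Mathlib
import Fermat.Agent.S29.Stmts_helper27
import Fermat.Agent.S29.GalClass_helper26
import Fermat.Agent.S29.GalHecke_helper13
import Fermat.Agent.S29.FinLevel_helper94
import Fermat.Agent.S30.WitAbsO_helper50

/-!
# S30, node (WIT-M): the witness modules `W_M` (helper50, second seat)

From the Kummer class maps **(PSI)** `Ψ_m : Hom_par(Γ₀(N), ℤ) → J₀(N)` (hypothesis, in the literal
shape `H27.PsiStmt` of the S29 statements file) and an eigenvector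
`v = ∑ θ i ⊗ χ i ∈ O ⊗ Hom_par(Γ₀(N), ℤ)` of the Hecke transfers (matrix form, as in the landed
`H13.exists_eigen`) one of whose evaluations is a unit of `O`, the `O`-modules

  `W_m := O[G_ℚ] · (1 ⊗ Ψ_m) v  ⊆  O ⊗[ℤ] J₀(N)[m]`

with their `O`-linear Galois action `r`:

* `exists_wit_level` (any modulus `m`): `Ann_O(W_m) ⊆ m O`, `m W_m = 0`, finite level,
  trivial inertia at every `ℓ ∤ N m`, and `s² - a ℓ • s + ℓ = 0` on `W_m` for every Frobenius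
  element `s` at `ℓ ∤ N m`, `ℓ ∉ S`;
* `exists_witM_span`, `exists_witM` : the family `W M := W_(p^M)` in the binder shape of
  `H17.exists_pseudoChar` (`PseudoLimit_helper17`).

Inputs: the landed (GS) `H26.frob_quad` / `H26.inertia_fix`, (GC) `H13.heckeOperatorBar_smul`,
finite level `H94.exists_finiteDimensional_fix_class`; `O` is only assumed flat over `ℤ`.
-/

set_option autoImplicit false

open ModularCurve ModularCurve.Period CongruenceSubgroup AlgebraicCurve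
open scoped MatrixGroups TensorProduct

namespace Fermat.Agent.S30.H50

open Fermat.Agent.S29

noncomputable section

local notation "Qb" => AlgebraicClosure ℚ
local notation "Γ" => (AlgebraicClosure ℚ ≃ₐ[ℚ] AlgebraicClosure ℚ)

section Torsion

variable (N : ℕ) [NeZero N] (m : ℕ)

/-- `J₀(N)[m]`. -/
abbrev Jtors : AddSubgroup (JZero N) := Pic0.torsion Qb (modularFunctionFieldBar N) m

omit [NeZero N] in
theorem mem_jtors_iff {x : JZero N} : x ∈ Jtors N m ↔ m • x = 0 := by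
  rw [Pic0.mem_torsion, natCast_zsmul]

omit [NeZero N] in
theorem galois_smul_mem_jtors (σ : Γ) {x : JZero N} (hx : x ∈ Jtors N m) :
    σ • x ∈ Jtors N m := by
  rw [mem_jtors_iff] at hx ⊢
  have h : m • (σ • x) = σ • (m • x) :=
    ((DistribSMul.toAddMonoidHom (JZero N) σ).map_nsmul m x).symm
  rw [h, hx]
  exact (DistribSMul.toAddMonoidHom (JZero N) σ).map_zero

/-- The Galois action on `J₀(N)[m]`, as additive endomorphisms. -/
def actT : Γ →* AddMonoid.End (Jtors N m) where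
  toFun σ :=
    { toFun := fun x => ⟨σ • (x : JZero N), galois_smul_mem_jtors N m σ x.2⟩
      map_zero' := Subtype.ext ((DistribSMul.toAddMonoidHom (JZero N) σ).map_zero)
      map_add' := fun x y =>
        Subtype.ext ((DistribSMul.toAddMonoidHom (JZero N) σ).map_add (x : JZero N) y) }
  map_one' := AddMonoidHom.ext fun x => Subtype.ext (one_smul Γ (x : JZero N))
  map_mul' σ τ := AddMonoidHom.ext fun x => Subtype.ext (mul_smul σ τ (x : JZero N))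

omit [NeZero N] in
@[simp]
theorem coe_actT_apply (σ : Γ) (x : Jtors N m) :
    ((actT N m σ x : Jtors N m) : JZero N) = σ • (x : JZero N) := rfl

theorem hecke_mem_jtors (ℓ : Nat.Primes) {x : JZero N} (hx : x ∈ Jtors N m) :
    heckeOperatorBar N ℓ x ∈ Jtors N m := by
  rw [mem_jtors_iff] at hx ⊢
  rw [← map_nsmul, hx, map_zero]

/-- The Hecke operators on `J₀(N)[m]` (zero at non-primes). -/
def heckeT (ℓ : ℕ) : AddMonoid.End (Jtors N m) :=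
  if h : ℓ.Prime then
    { toFun := fun x => ⟨heckeOperatorBar N ⟨ℓ, h⟩ (x : JZero N), hecke_mem_jtors N m _ x.2⟩
      map_zero' := Subtype.ext (map_zero (heckeOperatorBar N ⟨ℓ, h⟩))
      map_add' := fun x y => Subtype.ext (map_add (heckeOperatorBar N ⟨ℓ, h⟩) (x : JZero N) y) }
  else 0

@[simp]
theorem coe_heckeT_apply {ℓ : ℕ} (h : ℓ.Prime) (x : Jtors N m) :
    ((heckeT N m ℓ x : Jtors N m) : JZero N) = heckeOperatorBar N ⟨ℓ, h⟩ (x : JZero N) := by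
  rw [heckeT, dif_pos h]
  rfl

end Torsion

/-- **(WIT-M) at one level**, any modulus `m` (for `m = 0` the hypothesis `hPsi` is still
usable but the statement is then of no interest).  `P` = the primes carrying an eigenvalue. -/
theorem exists_wit_level (N : ℕ) [NeZero N] (m : ℕ) (hPsi : H27.PsiStmt N m)
    {O : Type} [CommRing O] [Module.Flat ℤ O] (P : Set ℕ) (a : ℕ → O)
    {d : ℕ} (χ : Fin d → Additive (Gamma0 N) →+ ℤ)
    (hpar : ∀ i, χ i ∈ parabolicHoms ℤ (Gamma0 N) ℤ) (θ : Fin d → O)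
    (hprim : ∃ γ : Gamma0 N, IsUnit (∑ i, θ i * ((χ i (Additive.ofMul γ) : ℤ) : O)))
    (heig : ∀ ℓ ∈ P, ℓ.Prime → ¬ ℓ ∣ N → ∃ A : Matrix (Fin d) (Fin d) ℤ,
      (∀ j, H06.IsHeckeTr N ℓ (χ j) (∑ i, A j i • χ i)) ∧
      ∀ i, ∑ j, ((A j i : ℤ) : O) * θ j = a ℓ * θ i) :
    ∃ (W : Type) (_ : AddCommGroup W) (_ : Module O W) (r : Γ →* Module.End O W),
      (∀ c : O, (∀ w : W, c • w = 0) → c ∈ Ideal.span {(m : O)}) ∧
      (∀ w : W, (m : O) • w = 0) ∧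
      GaloisFactorsThroughFiniteLevel r ∧
      (∀ ℓ ∈ P, ℓ.Prime → ¬ ℓ ∣ N → ¬ ℓ ∣ m →
        ∀ A : ValuationSubring Qb, A.LiesOverPrime ℓ → ∀ σ : Γ, A.IsFrobeniusAt σ ℓ →
          r σ * r σ - a ℓ • r σ + (ℓ : O) • (1 : Module.End O W) = 0) ∧
      (∀ q : ℕ, q.Prime → ¬ q ∣ N → ¬ q ∣ m →
        ∀ A : ValuationSubring Qb, A.LiesOverPrime q → ∀ τ ∈ A.inertiaSubgroupIn ℚ, r τ = 1) := by
  classical
  obtain ⟨Ψ, hΨm, hΨker, hΨT⟩ := hPsi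
  -- the characters as elements of `Lam N`
  let χL : Fin d → H27.Lam N := fun i => ⟨χ i, hpar i⟩
  -- `Ψ` with values in the torsion
  let Ψt : H27.Lam N →+ Jtors N m :=
    Ψ.codRestrict (Jtors N m) (fun l => (mem_jtors_iff N m).mpr (hΨm l))
  have hΨt : ∀ l, ((Ψt l : Jtors N m) : JZero N) = Ψ l := fun l => rfl
  have hΨtm : ∀ l, m • Ψt l = 0 := fun l => Subtype.ext (by
    rw [AddSubgroupClass.coe_nsmul, hΨt, hΨm]; rfl)
  have hΨtker : ∀ l, Ψt l = 0 → ∃ l', l = m • l' := fun l hl =>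
    hΨker l (by rw [← hΨt, hl]; rfl)
  -- the witness vector
  let w : O ⊗[ℤ] Jtors N m := ∑ i, θ i ⊗ₜ[ℤ] Ψt (χL i)
  -- the two sets of primes
  let SF : Set ℕ := {ℓ | ℓ.Prime ∧ ¬ ℓ ∣ N ∧ ¬ ℓ ∣ m ∧ ℓ ∈ P}
  let SI : Set ℕ := {ℓ | ℓ.Prime ∧ ¬ ℓ ∣ N ∧ ¬ ℓ ∣ m}
  have hFL : ∀ x : Jtors N m, ∃ K0 : IntermediateField ℚ Qb, FiniteDimensional ℚ K0 ∧
      ∀ σ : Γ, (∀ a ∈ K0, σ a = a) → actT N m σ x = x := by
    intro x
    obtain ⟨K0, hK0, h⟩ := H94.exists_finiteDimensional_fix_class N (x : JZero N)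
    exact ⟨K0, hK0, fun σ hσ => Subtype.ext (h σ hσ)⟩
  have hGC : ∀ ℓ ∈ SF, ∀ (σ : Γ) (x : Jtors N m),
      heckeT N m ℓ (actT N m σ x) = actT N m σ (heckeT N m ℓ x) := by
    rintro ℓ ⟨hℓ, -, -, -⟩ σ x
    refine Subtype.ext ?_
    rw [coe_heckeT_apply N m hℓ, coe_actT_apply, coe_actT_apply, coe_heckeT_apply N m hℓ]
    exact H13.heckeOperatorBar_smul N ⟨ℓ, hℓ⟩ σ (x : JZero N)
  have hFrob : ∀ ℓ ∈ SF, ∀ A : ValuationSubring Qb, A.LiesOverPrime ℓ →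
      ∀ σ : Γ, A.IsFrobeniusAt σ ℓ → ∀ x : Jtors N m,
        actT N m σ (actT N m σ x) - heckeT N m ℓ (actT N m σ x) + ℓ • x = 0 := by
    rintro ℓ ⟨hℓ, hℓN, hℓm, -⟩ A hA σ hσ x
    refine Subtype.ext ?_
    have h := H26.frob_quad N hℓ hℓN A hA σ hσ m hℓm (x : JZero N)
      ((mem_jtors_iff N m).mp x.2)
    rw [AddSubgroup.coe_add, AddSubgroup.coe_sub, coe_heckeT_apply N m hℓ, coe_actT_apply,
      coe_actT_apply, AddSubgroupClass.coe_nsmul]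
    exact h
  have hInert : ∀ ℓ ∈ SI, ∀ A : ValuationSubring Qb, A.LiesOverPrime ℓ →
      ∀ τ ∈ A.inertiaSubgroupIn ℚ, ∀ x : Jtors N m, actT N m τ x = x := by
    rintro ℓ ⟨hℓ, hℓN, hℓm⟩ A hA τ hτ x
    refine Subtype.ext ?_
    rw [coe_actT_apply]
    exact H26.inertia_fix N hℓ hℓN A hA τ hτ m hℓm (x : JZero N) ((mem_jtors_iff N m).mp x.2)
  have heigw : ∀ ℓ ∈ SF, bcEndO O (heckeT N m ℓ) w = a ℓ • w := by
    rintro ℓ ⟨hℓ, hℓN, -, hℓP⟩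
    obtain ⟨A, hA1, hA2⟩ := heig ℓ hℓP hℓ hℓN
    refine bcEndO_sum_tmul_eq (heckeT N m ℓ) (fun i => Ψt (χL i)) θ (a ℓ) (fun i j => A i j)
      (fun j => ?_) hA2
    -- `T_ℓ (Ψ χ_j) = Ψ (∑ i, A j i • χ_i) = ∑ i, A j i • Ψ χ_i`
    have hmem : (∑ i, A j i • χL i : H27.Lam N) =
        (⟨∑ i, A j i • χ i, Submodule.sum_mem _ fun i _ =>
          Submodule.smul_mem _ _ (hpar i)⟩ : H27.Lam N) := by
      refine Subtype.ext ?_
      rw [Submodule.coe_sum]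
      rfl
    have h1 : heckeOperatorBar N ⟨ℓ, hℓ⟩ (Ψ (χL j)) = Ψ (∑ i, A j i • χL i) := by
      refine hΨT ⟨ℓ, hℓ⟩ hℓN (χL j) _ ?_
      rw [hmem]
      exact hA1 j
    refine Subtype.ext ?_
    rw [coe_heckeT_apply N m hℓ, hΨt, h1, ← hΨt, map_sum]
    congr 1
    refine Finset.sum_congr rfl fun i _ => ?_
    rw [map_zsmul]
  obtain ⟨W, iW1, iW2, r, hann, hlev, hin, hfr⟩ :=
    exists_wit_of_eigenO (O := O) (actT N m) hFL SF SI (heckeT N m) a hGC hFrob hInert w heigw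
  refine ⟨W, iW1, iW2, r, ?_, ?_, hlev, ?_, ?_⟩
  · -- the annihilator
    intro c hc
    obtain ⟨γ, hγ⟩ := hprim
    let ev : H27.Lam N →+ ℤ :=
      { toFun := fun l => (l : Additive (Gamma0 N) →+ ℤ) (Additive.ofMul γ)
        map_zero' := rfl
        map_add' := fun _ _ => rfl }
    exact mem_span_of_smul_sum_tmul_eq_zero m Ψt hΨtm hΨtker ev χL θ hγ c ((hann c).mp hc)
  · -- `m` kills `W`
    have hmw : (m : O) • w = 0 := by
      show (m : O) • (∑ i, θ i ⊗ₜ[ℤ] Ψt (χL i) : O ⊗[ℤ] Jtors N m) = 0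
      rw [Finset.smul_sum]
      refine Finset.sum_eq_zero fun i _ => ?_
      have e : (m : O) • θ i = (m : ℕ) • θ i := by rw [nsmul_eq_mul, smul_eq_mul]
      rw [TensorProduct.smul_tmul', e, TensorProduct.smul_tmul, hΨtm, TensorProduct.tmul_zero]
    exact (hann (m : O)).mpr hmw
  · intro ℓ hℓP hℓ hℓN hℓm A hA
    exact hfr ℓ ⟨hℓ, hℓN, hℓm, hℓP⟩ A hA
  · intro q hq hqN hqm A hA
    exact hin q ⟨hq, hqN, hqm⟩ A hA

/-- **(WIT-M)**, principal-ideal form: the witness modules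
`W M = O[G_ℚ] · (1 ⊗ Ψ_(p^M)) v ⊆ O ⊗[ℤ] J₀(N)[p^M]` with `Ann_O (W M) ⊆ p^M O`. -/
theorem exists_witM_span (hPsi : ∀ (N : ℕ) [NeZero N] (m : ℕ), m ≠ 0 → H27.PsiStmt N m)
    (p : ℕ) (hp : p.Prime) (N : ℕ) [NeZero N]
    {O : Type} [CommRing O] [Module.Flat ℤ O] (P : Set ℕ) (a : ℕ → O)
    {d : ℕ} (χ : Fin d → Additive (Gamma0 N) →+ ℤ)
    (hpar : ∀ i, χ i ∈ parabolicHoms ℤ (Gamma0 N) ℤ) (θ : Fin d → O)
    (hprim : ∃ γ : Gamma0 N, IsUnit (∑ i, θ i * ((χ i (Additive.ofMul γ) : ℤ) : O)))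
    (heig : ∀ ℓ ∈ P, ℓ.Prime → ¬ ℓ ∣ N → ∃ A : Matrix (Fin d) (Fin d) ℤ,
      (∀ j, H06.IsHeckeTr N ℓ (χ j) (∑ i, A j i • χ i)) ∧
      ∀ i, ∑ j, ((A j i : ℤ) : O) * θ j = a ℓ * θ i) :
    ∃ (W : ℕ → Type) (_ : ∀ M, AddCommGroup (W M)) (_ : ∀ M, Module O (W M))
      (r : ∀ M, Γ →* Module.End O (W M)),
      (∀ M (c : O), (∀ w : W M, c • w = 0) → c ∈ Ideal.span {(p : O) ^ M}) ∧
      (∀ M (w : W M), ((p : O) ^ M) • w = 0) ∧
      (∀ M, GaloisFactorsThroughFiniteLevel (r M)) ∧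
      (∀ M, ∀ ℓ ∈ P, ℓ.Prime → ¬ ℓ ∣ N * p →
        ∀ A : ValuationSubring Qb, A.LiesOverPrime ℓ → ∀ σ : Γ, A.IsFrobeniusAt σ ℓ →
          r M σ * r M σ - a ℓ • r M σ + (ℓ : O) • (1 : Module.End O (W M)) = 0) ∧
      (∀ M, ∀ q : ℕ, q.Prime → ¬ q ∣ N * p →
        ∀ A : ValuationSubring Qb, A.LiesOverPrime q →
          ∀ τ ∈ A.inertiaSubgroupIn ℚ, r M τ = 1) := by
  have hlev := fun M : ℕ => exists_wit_level N (p ^ M)
    (hPsi N (p ^ M) (pow_ne_zero M hp.ne_zero)) P a χ hpar θ hprim heig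
  choose W iW1 iW2 r h1 h2 h3 h4 h5 using hlev
  have hNp : ∀ (M ℓ : ℕ), ℓ.Prime → ¬ ℓ ∣ N * p → ¬ ℓ ∣ N ∧ ¬ ℓ ∣ p ^ M :=
    fun M ℓ hℓ hℓNp => ⟨fun h => hℓNp (Dvd.dvd.mul_right h p),
      fun h => hℓNp (Dvd.dvd.mul_left (hℓ.dvd_of_dvd_pow h) N)⟩
  refine ⟨W, iW1, iW2, r, fun M c hc => ?_, fun M w => ?_, h3,
    fun M ℓ hℓP hℓ hℓNp A hA => h4 M ℓ hℓP hℓ (hNp M ℓ hℓ hℓNp).1 (hNp M ℓ hℓ hℓNp).2 A hA,
    fun M q hq hqNp A hA => h5 M q hq (hNp M q hq hqNp).1 (hNp M q hq hqNp).2 A hA⟩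
  · have := h1 M c hc
    rwa [Nat.cast_pow] at this
  · have := h2 M w
    rwa [Nat.cast_pow] at this

/-- **(WIT-M)** in the binder shape of `H17.exists_pseudoChar`: `I` any ideal containing `p`
(`I := maximalIdeal O` in the S30 setting), `hann` with `I ^ M`. -/
theorem exists_witM (hPsi : ∀ (N : ℕ) [NeZero N] (m : ℕ), m ≠ 0 → H27.PsiStmt N m)
    (p : ℕ) (hp : p.Prime) (N : ℕ) [NeZero N]
    {O : Type} [CommRing O] [Module.Flat ℤ O] (I : Ideal O) (hpI : (p : O) ∈ I)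
    (P : Set ℕ) (a : ℕ → O)
    {d : ℕ} (χ : Fin d → Additive (Gamma0 N) →+ ℤ)
    (hpar : ∀ i, χ i ∈ parabolicHoms ℤ (Gamma0 N) ℤ) (θ : Fin d → O)
    (hprim : ∃ γ : Gamma0 N, IsUnit (∑ i, θ i * ((χ i (Additive.ofMul γ) : ℤ) : O)))
    (heig : ∀ ℓ ∈ P, ℓ.Prime → ¬ ℓ ∣ N → ∃ A : Matrix (Fin d) (Fin d) ℤ,
      (∀ j, H06.IsHeckeTr N ℓ (χ j) (∑ i, A j i • χ i)) ∧
      ∀ i, ∑ j, ((A j i : ℤ) : O) * θ j = a ℓ * θ i) :
    ∃ (W : ℕ → Type) (_ : ∀ M, AddCommGroup (W M)) (_ : ∀ M, Module O (W M))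
      (r : ∀ M, Γ →* Module.End O (W M)),
      (∀ M (c : O), (∀ w : W M, c • w = 0) → c ∈ I ^ M) ∧
      (∀ M (w : W M), ((p : O) ^ M) • w = 0) ∧
      (∀ M, GaloisFactorsThroughFiniteLevel (r M)) ∧
      (∀ M, ∀ ℓ ∈ P, ℓ.Prime → ¬ ℓ ∣ N * p →
        ∀ A : ValuationSubring Qb, A.LiesOverPrime ℓ → ∀ σ : Γ, A.IsFrobeniusAt σ ℓ →
          r M σ * r M σ - a ℓ • r M σ + (ℓ : O) • (1 : Module.End O (W M)) = 0) ∧
      (∀ M, ∀ q : ℕ, q.Prime → ¬ q ∣ N * p →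
        ∀ A : ValuationSubring Qb, A.LiesOverPrime q →
          ∀ τ ∈ A.inertiaSubgroupIn ℚ, r M τ = 1) := by
  obtain ⟨W, iW1, iW2, r, h1, h2, h3, h4, h5⟩ :=
    exists_witM_span hPsi p hp N P a χ hpar θ hprim heig
  refine ⟨W, iW1, iW2, r, fun M c hc => ?_, h2, h3, h4, h5⟩
  exact (Ideal.span_singleton_le_iff_mem (I := I ^ M)).mpr (Ideal.pow_mem_pow hpI M) (h1 M c hc)

/-- The primitivity hypothesis `hprim` from "jointly surjective + one coordinate is a unit"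
(the shape of the (EIG-O) export). -/
theorem exists_isUnit_eval {N : ℕ} {O : Type} [CommRing O] {d : ℕ}
    (χ : Fin d → Additive (Gamma0 N) →+ ℤ)
    (hsurj : ∀ c : Fin d → ℤ, ∃ γ : Gamma0 N, ∀ i, χ i (Additive.ofMul γ) = c i)
    (θ : Fin d → O) (hθ : ∃ i, IsUnit (θ i)) :
    ∃ γ : Gamma0 N, IsUnit (∑ i, θ i * ((χ i (Additive.ofMul γ) : ℤ) : O)) := by
  classical
  obtain ⟨i0, hi0⟩ := hθ
  obtain ⟨γ, hγ⟩ := hsurj (Pi.single i0 1)
  refine ⟨γ, ?_⟩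
  have e : ∑ i, θ i * ((χ i (Additive.ofMul γ) : ℤ) : O) = θ i0 := by
    rw [Finset.sum_eq_single i0]
    · rw [hγ, Pi.single_eq_same, Int.cast_one, mul_one]
    · intro i _ hi
      rw [hγ, Pi.single_eq_of_ne hi, Int.cast_zero, mul_zero]
    · intro h
      exact absurd (Finset.mem_univ i0) h
  rw [e]
  exact hi0

end

end Fermat.Agent.S30.H50
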