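import Mathlib
import Fermat.Agent.S30.Stmts_helper76
import Fermat.Agent.S30.WitM_helper50

/-!
# S30, node (WIT-ASM): `H76.WitStmt` from (EIG-O) and (PSI) (helper17)

The witness statement `H76.WitStmt` of the S30 statements file is assembled from

* **(EIG-O)** (a hypothesis here, in the literal coordinate shape of `H89.exists_eigen_O`):
  for `χ : heckeAlgebra N 2 S →+* O`, `O` a valuation domain, jointly surjective parabolic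
  characters `ψ i`, integral matrices `M t` of the Hecke transfers on them, and an eigenvector
  `θ` with one coordinate equal to `1`;
* the landed **(WIT-M)** family `H50.exists_witM` (coordinate input);
* **(PSI)** `∀ N m, m ≠ 0 → S29.H27.PsiStmt N m` (a hypothesis).

Main export: `witStmt_of`.
-/

set_option autoImplicit false

open ModularCurve ModularCurve.Period CongruenceSubgroup
open scoped MatrixGroups

namespace Fermat.Agent.S30.H17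

open Fermat.Agent.S29

local notation "Qb" => AlgebraicClosure ℚ

/-- **(WIT-ASM)** the witness statement of S30 from the eigenvector statement (EIG-O), in
coordinates, and the Kummer class maps (PSI). -/
theorem witStmt_of
    (hEig : ∀ (N : ℕ) [NeZero N] (S : Set ℕ) (_hNS : ∀ q : ℕ, q.Prime → q ∣ N → q ∈ S)
      (O : Type) [CommRing O] [IsDomain O] [ValuationRing O]
      (χ : CuspForm.heckeAlgebra N 2 S →+* O),
      ∃ (d : ℕ) (ψ : Fin d → Additive (Gamma0 N) →+ ℤ)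
        (M : CuspForm.heckeAlgebra N 2 S →+* Matrix (Fin d) (Fin d) ℤ) (θ : Fin d → O),
        (∀ i, ψ i ∈ parabolicHoms ℤ (Gamma0 N) ℤ) ∧
        (∀ c : Fin d → ℤ, ∃ γ, ∀ i, ψ i γ = c i) ∧ Function.Injective M ∧
        (∀ (ℓ : ℕ) (hℓ : ℓ.Prime) (hℓN : ¬ ℓ ∣ N) (hℓS : ℓ ∉ S) (j : Fin d),
          H06.IsHeckeTr N ℓ (ψ j) (∑ i, M (CuspForm.heckeAlgebra.T hℓ hℓN hℓS) j i • ψ i)) ∧
        (∃ i, θ i = 1) ∧
        ∀ (t : CuspForm.heckeAlgebra N 2 S) (i : Fin d),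
          ∑ j, ((M t j i : ℤ) : O) * θ j = χ t * θ i)
    (hPsi : ∀ (N : ℕ) [NeZero N] (m : ℕ), m ≠ 0 → H27.PsiStmt N m) : H76.WitStmt := by
  intro p _ N _ S hpS hNS O _ _ _ _ _ _ hpO χ
  classical
  have hpp : p.Prime := Fact.out
  obtain ⟨d, ψ, M, θ, hpar, hsurj, -, htr, ⟨i0, hi0⟩, heig⟩ := hEig N (↑S) hNS O χ
  -- the good primes and the eigenvalues
  let a : ℕ → O := fun ℓ =>
    if h : ℓ.Prime ∧ ¬ ℓ ∣ N ∧ ℓ ∉ (↑S : Set ℕ) then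
      χ (CuspForm.heckeAlgebra.T h.1 h.2.1 h.2.2) else 0
  have ha : ∀ (ℓ : ℕ) (hℓ : ℓ.Prime) (hℓN : ¬ ℓ ∣ N) (hℓS : ℓ ∉ (↑S : Set ℕ)),
      a ℓ = χ (CuspForm.heckeAlgebra.T hℓ hℓN hℓS) := by
    intro ℓ hℓ hℓN hℓS
    exact dif_pos (⟨hℓ, hℓN, hℓS⟩ : ℓ.Prime ∧ ¬ ℓ ∣ N ∧ ℓ ∉ (↑S : Set ℕ))
  have hNp : ∀ ℓ : ℕ, ℓ.Prime → ¬ ℓ ∣ N → ℓ ≠ p → ¬ ℓ ∣ N * p := by
    intro ℓ hℓ hℓN hℓp hdvd
    rcases (Nat.Prime.dvd_mul hℓ).mp hdvd with h | h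
    · exact hℓN h
    · exact hℓp ((Nat.prime_dvd_prime_iff_eq hℓ hpp).mp h)
  have hne : ∀ ℓ : ℕ, ℓ ∉ (↑S : Set ℕ) → ℓ ≠ p := by
    rintro ℓ hℓ rfl
    exact hℓ (Finset.mem_coe.mpr hpS)
  have hprim : ∃ γ : Gamma0 N, IsUnit (∑ i, θ i * ((ψ i (Additive.ofMul γ) : ℤ) : O)) :=
    H50.exists_isUnit_eval ψ
      (fun c => by
        obtain ⟨γ, hγ⟩ := hsurj c
        exact ⟨Additive.toMul γ, fun i => hγ i⟩)
      θ ⟨i0, by rw [hi0]; exact isUnit_one⟩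
  obtain ⟨W, iA, iM, r, h1, h2, h3, h4, h5⟩ :=
    H50.exists_witM hPsi p hpp N (IsLocalRing.maximalIdeal O) hpO
      {ℓ : ℕ | ℓ.Prime ∧ ¬ ℓ ∣ N ∧ ℓ ∉ (↑S : Set ℕ)} a ψ hpar θ hprim
      (fun ℓ hℓP hℓ hℓN =>
        ⟨M (CuspForm.heckeAlgebra.T hℓ hℓN hℓP.2.2), fun j => htr ℓ hℓ hℓN hℓP.2.2 j,
          fun i => by rw [heig, ha ℓ hℓ hℓN hℓP.2.2]⟩)
  refine ⟨W, iA, iM, r, fun M => h3 M, h1, h2, ?_, ?_⟩
  · intro M ℓ hℓ hℓN hℓS A hA σ hσ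
    have h := h4 M ℓ ⟨hℓ, hℓN, hℓS⟩ hℓ (hNp ℓ hℓ hℓN (hne ℓ hℓS)) A hA σ hσ
    rw [ha ℓ hℓ hℓN hℓS] at h
    exact h
  · intro M q hq hqN hqp A hA τ hτ
    exact h5 M q hq (hNp q hq hqN hqp) A hA τ hτ

end Fermat.Agent.S30.H17
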