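import Mathlib
import Fermat.Agent.S30.Stmts_helper76
import Fermat.Agent.S30.WitM_helper50

/-!
# S30, (WIT-ASM) against the coordinate form of (WIT-M) (helper50)

`witStmt_of_eig : EigOStmt → (∀ N [NeZero N] m, m ≠ 0 → H27.PsiStmt N m) → H76.WitStmt`

where `EigOStmt` is the literal statement of the (EIG-O) export (`H89.exists_eigen_O`, board
#2128, at `O : Type`): for `χ : heckeAlgebra N 2 S →+* O` (`O` a valuation domain) parabolic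
characters `ψ i`, jointly surjective, integer matrices `M t` with
`IsHeckeTr (ψ j) (∑ i, M (T_ℓ) j i • ψ i)`, and `θ : Fin d → O` with one coordinate `1` and
`∑ j, (M t j i : O) * θ j = χ t * θ i`.

No endomorphism of all of `Hom_par(Γ₀(N), ℤ)` is needed: `H50.exists_witM` consumes the
coordinates directly.  `EigOWeak` is the part of `EigOStmt` that is actually used.
-/

set_option autoImplicit false

open ModularCurve ModularCurve.Period CongruenceSubgroup AlgebraicCurve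
open scoped MatrixGroups TensorProduct

namespace Fermat.Agent.S30.H50

open Fermat.Agent.S29

local notation "Qb" => AlgebraicClosure ℚ
local notation "Γ" => (AlgebraicClosure ℚ ≃ₐ[ℚ] AlgebraicClosure ℚ)

/-- **(EIG-O)**, the literal export of `H89.exists_eigen_O` (at `O : Type`). -/
def EigOStmt : Prop :=
  ∀ (N : ℕ) [NeZero N] (S : Set ℕ), (∀ q : ℕ, q.Prime → q ∣ N → q ∈ S) →
    ∀ (O : Type) [CommRing O] [IsDomain O] [ValuationRing O]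
      (χ : CuspForm.heckeAlgebra N 2 S →+* O),
    ∃ (d : ℕ) (ψ : Fin d → Additive (Gamma0 N) →+ ℤ)
      (M : CuspForm.heckeAlgebra N 2 S →+* Matrix (Fin d) (Fin d) ℤ) (θ : Fin d → O),
      (∀ i, ψ i ∈ parabolicHoms ℤ (Gamma0 N) ℤ) ∧
      (∀ c : Fin d → ℤ, ∃ γ, ∀ i, ψ i γ = c i) ∧ Function.Injective M ∧
      (∀ (ℓ : ℕ) (hℓ : ℓ.Prime) (hℓN : ¬ ℓ ∣ N) (hℓS : ℓ ∉ S) (j : Fin d),
        H06.IsHeckeTr N ℓ (ψ j) (∑ i, M (CuspForm.heckeAlgebra.T hℓ hℓN hℓS) j i • ψ i)) ∧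
      (∃ i, θ i = 1) ∧
      ∀ (t : CuspForm.heckeAlgebra N 2 S) (i : Fin d),
        ∑ j, ((M t j i : ℤ) : O) * θ j = χ t * θ i

/-- The part of (EIG-O) used by the witness modules: parabolic characters `ψ i`, coefficients
`θ i` with a unit evaluation, and for each good prime an integer matrix realising the Hecke
transfer with `θ` as an eigenvector of eigenvalue `χ (T_ℓ)`. -/
def EigOWeak : Prop :=
  ∀ (N : ℕ) [NeZero N] (S : Set ℕ), (∀ q : ℕ, q.Prime → q ∣ N → q ∈ S) →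
    ∀ (O : Type) [CommRing O] [IsDomain O] [ValuationRing O]
      (χ : CuspForm.heckeAlgebra N 2 S →+* O),
    ∃ (d : ℕ) (ψ : Fin d → Additive (Gamma0 N) →+ ℤ) (θ : Fin d → O),
      (∀ i, ψ i ∈ parabolicHoms ℤ (Gamma0 N) ℤ) ∧
      (∃ γ : Gamma0 N, IsUnit (∑ i, θ i * ((ψ i (Additive.ofMul γ) : ℤ) : O))) ∧
      ∀ (ℓ : ℕ) (hℓ : ℓ.Prime) (hℓN : ¬ ℓ ∣ N) (hℓS : ℓ ∉ S),
        ∃ A : Matrix (Fin d) (Fin d) ℤ, (∀ j, H06.IsHeckeTr N ℓ (ψ j) (∑ i, A j i • ψ i)) ∧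
          ∀ i, ∑ j, ((A j i : ℤ) : O) * θ j = χ (CuspForm.heckeAlgebra.T hℓ hℓN hℓS) * θ i

theorem eigOWeak_of_eigOStmt (h : EigOStmt) : EigOWeak := by
  intro N _ S hNS O _ _ _ χ
  obtain ⟨d, ψ, M, θ, hpar, hsurj, -, hTr, ⟨i0, hi0⟩, heq⟩ := h N S hNS O χ
  refine ⟨d, ψ, θ, hpar, ?_, fun ℓ hℓ hℓN hℓS =>
    ⟨M (CuspForm.heckeAlgebra.T hℓ hℓN hℓS), hTr ℓ hℓ hℓN hℓS, heq _⟩⟩
  refine exists_isUnit_eval ψ (fun c => ?_) θ ⟨i0, by rw [hi0]; exact isUnit_one⟩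
  obtain ⟨γ, hγ⟩ := hsurj c
  exact ⟨Additive.toMul γ, hγ⟩

/-- **(WIT-ASM)** from the weak form of (EIG-O) and (PSI). -/
theorem witStmt_of_eigOWeak (hEig : EigOWeak)
    (hPsi : ∀ (N : ℕ) [NeZero N] (m : ℕ), m ≠ 0 → H27.PsiStmt N m) : H76.WitStmt := by
  classical
  intro p _ N _ S hpS hNS O _ _ _ _ _ _ hpO χ
  have hp : p.Prime := Fact.out
  obtain ⟨d, ψ, θ, hpar, hprim, hA⟩ := hEig N (↑S : Set ℕ) hNS O χ
  -- the good primes and the eigenvalues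
  let P : Set ℕ := {ℓ | ℓ.Prime ∧ ¬ ℓ ∣ N ∧ ℓ ∉ (↑S : Set ℕ)}
  let a : ℕ → O := fun ℓ =>
    if h : ℓ.Prime ∧ ¬ ℓ ∣ N ∧ ℓ ∉ (↑S : Set ℕ) then
      χ (CuspForm.heckeAlgebra.T h.1 h.2.1 h.2.2) else 0
  have ha : ∀ (ℓ : ℕ) (hℓ : ℓ.Prime) (hℓN : ¬ ℓ ∣ N) (hℓS : ℓ ∉ (↑S : Set ℕ)),
      a ℓ = χ (CuspForm.heckeAlgebra.T hℓ hℓN hℓS) := fun ℓ hℓ hℓN hℓS =>
    dif_pos (⟨hℓ, hℓN, hℓS⟩ : ℓ.Prime ∧ ¬ ℓ ∣ N ∧ ℓ ∉ (↑S : Set ℕ))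
  have heig : ∀ ℓ ∈ P, ℓ.Prime → ¬ ℓ ∣ N → ∃ A : Matrix (Fin d) (Fin d) ℤ,
      (∀ j, H06.IsHeckeTr N ℓ (ψ j) (∑ i, A j i • ψ i)) ∧
      ∀ i, ∑ j, ((A j i : ℤ) : O) * θ j = a ℓ * θ i := by
    rintro ℓ ⟨hℓ, hℓN, hℓS⟩ - -
    obtain ⟨A, hA1, hA2⟩ := hA ℓ hℓ hℓN hℓS
    exact ⟨A, hA1, fun i => by rw [ha ℓ hℓ hℓN hℓS]; exact hA2 i⟩
  obtain ⟨W, iW1, iW2, r, h1, h2, h3, h4, h5⟩ :=
    exists_witM hPsi p hp N (IsLocalRing.maximalIdeal O) hpO P a ψ hpar θ hprim heig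
  have hNp : ∀ q : ℕ, q.Prime → ¬ q ∣ N → q ≠ p → ¬ q ∣ N * p := fun q hq hqN hqp h =>
    (hq.dvd_mul.mp h).elim hqN fun h' => hqp ((Nat.prime_dvd_prime_iff_eq hq hp).mp h')
  refine ⟨W, iW1, iW2, r, h3, h1, h2, ?_, ?_⟩
  · intro M ℓ hℓ hℓN hℓS A hA σ hσ
    have hℓp : ℓ ≠ p := fun h => hℓS (h ▸ Finset.mem_coe.mpr hpS)
    have := h4 M ℓ ⟨hℓ, hℓN, hℓS⟩ hℓ (hNp ℓ hℓ hℓN hℓp) A hA σ hσ
    rwa [ha ℓ hℓ hℓN hℓS] at this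
  · intro M q hq hqN hqp A hA τ hτ
    exact h5 M q hq (hNp q hq hqN hqp) A hA τ hτ

/-- **(WIT-ASM)**: `H76.WitStmt` from the literal (EIG-O) statement and (PSI). -/
theorem witStmt_of_eig (hEig : EigOStmt)
    (hPsi : ∀ (N : ℕ) [NeZero N] (m : ℕ), m ≠ 0 → H27.PsiStmt N m) : H76.WitStmt :=
  witStmt_of_eigOWeak (eigOWeak_of_eigOStmt hEig) hPsi

end Fermat.Agent.S30.H50
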