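import Mathlib
import Fermat.Prelude.Def_GaloisRep_Residual

/-!
# S30, node (WIT-M), abstract part (helper80)

Pure algebra / Galois theory, over an arbitrary commutative coefficient ring `O` (the analogue of
helper53's `S29/WitAbs_helper53`, which is over a field `k0`).

`M` is an abelian group with an additive action `act` of `G_ℚ` in which every element is fixed
by an open subgroup; `m` is a natural number; on the classes of `M` killed by `m`, Frobenius
elements at the primes of a set `P` satisfy `σ² - T_ℓ σ + ℓ = 0` and the inertia groups at the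
primes of a set `P'` act trivially.  From an element `w` of `O ⊗[ℤ] M` lying in the `O`-span of
the tensors `1 ⊗ x`, `m • x = 0`, and which is an eigen-element of the `T ℓ` (`ℓ ∈ P`) with
eigenvalues `a ℓ : O`, we produce the `O`-module `W` = the `O`-span of the Galois orbit of `w`
with its Galois action `r` (`exists_witMod_abs`):

* a scalar of `O` killing `W` kills `w`;
* `m` kills `W`;
* `r` factors through a finite level;
* `r σ * r σ - a ℓ • r σ + ℓ • 1 = 0` for every Frobenius element `σ` at `ℓ ∈ P`;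
* `r τ = 1` for `τ` in an inertia group at `q ∈ P'`.

Imports Mathlib and Prelude definitions only.
-/

set_option autoImplicit false

open scoped TensorProduct

namespace Fermat.Agent.S30.H80

local notation "Qb" => AlgebraicClosure ℚ
local notation "Γ" => (AlgebraicClosure ℚ ≃ₐ[ℚ] AlgebraicClosure ℚ)

section BaseChange

variable (O : Type) [CommRing O] {M : Type} [AddCommGroup M]

/-- Base change to `O` of an additive endomorphism of `M`. -/
noncomputable def bcEnd (f : AddMonoid.End M) : Module.End O (O ⊗[ℤ] M) :=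
  (AddMonoidHom.toIntLinearMap f).baseChange O

@[simp]
theorem bcEnd_tmul (f : AddMonoid.End M) (c : O) (x : M) :
    bcEnd O f (c ⊗ₜ[ℤ] x) = c ⊗ₜ[ℤ] f x := rfl

theorem bcEnd_one : bcEnd O (1 : AddMonoid.End M) = 1 := by
  refine TensorProduct.AlgebraTensorModule.ext (fun c x => ?_)
  rfl

theorem bcEnd_mul (f g : AddMonoid.End M) : bcEnd O (f * g) = bcEnd O f * bcEnd O g := by
  refine TensorProduct.AlgebraTensorModule.ext (fun c x => ?_)
  rfl

/-- The base-changed action as a monoid homomorphism. -/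
noncomputable def bcHom : AddMonoid.End M →* Module.End O (O ⊗[ℤ] M) where
  toFun := bcEnd O
  map_one' := bcEnd_one O
  map_mul' := bcEnd_mul O

variable (M) in
/-- The `O`-span in `O ⊗[ℤ] M` of the pure tensors `1 ⊗ x` with `m • x = 0`. -/
def torsSpan (m : ℕ) : Submodule O (O ⊗[ℤ] M) :=
  Submodule.span O {y | ∃ x : M, m • x = 0 ∧ y = (1 : O) ⊗ₜ[ℤ] x}

variable {O}

theorem tmul_mem_torsSpan {m : ℕ} (c : O) {x : M} (hx : m • x = 0) :
    c ⊗ₜ[ℤ] x ∈ torsSpan O M m := by
  have e : c ⊗ₜ[ℤ] x = c • ((1 : O) ⊗ₜ[ℤ] x) := by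
    rw [TensorProduct.smul_tmul', smul_eq_mul, mul_one]
  rw [e]
  exact Submodule.smul_mem _ _ (Submodule.subset_span ⟨x, hx, rfl⟩)

/-- Induction principle for `torsSpan`. -/
theorem torsSpan_induction {m : ℕ} {p : O ⊗[ℤ] M → Prop} (h0 : p 0)
    (hadd : ∀ y z, p y → p z → p (y + z))
    (htmul : ∀ (c : O) (x : M), m • x = 0 → p (c ⊗ₜ[ℤ] x))
    {y : O ⊗[ℤ] M} (hy : y ∈ torsSpan O M m) : p y := by
  have key : ∀ c : O, p (c • y) := by
    induction hy using Submodule.span_induction with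
    | mem z hz =>
      obtain ⟨x, hx, rfl⟩ := hz
      intro c
      rw [TensorProduct.smul_tmul', smul_eq_mul, mul_one]
      exact htmul c x hx
    | zero => intro c; rw [smul_zero]; exact h0
    | add y z _ _ hy hz => intro c; rw [smul_add]; exact hadd _ _ (hy c) (hz c)
    | smul b y _ hy => intro c; rw [smul_smul]; exact hy (c * b)
  have h1 := key 1
  rwa [one_smul] at h1

/-- `m` kills `torsSpan O M m`. -/
theorem natCast_smul_eq_zero_of_mem_torsSpan {m : ℕ} {y : O ⊗[ℤ] M}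
    (hy : y ∈ torsSpan O M m) : (m : O) • y = 0 := by
  refine torsSpan_induction (p := fun y => (m : O) • y = 0) (smul_zero _) ?_ ?_ hy
  · intro y z hy hz
    rw [smul_add, hy, hz, add_zero]
  · intro c x hx
    have e : (m : O) • c = m • c := by rw [nsmul_eq_mul, smul_eq_mul]
    rw [TensorProduct.smul_tmul', e, TensorProduct.smul_tmul, hx, TensorProduct.tmul_zero]

/-- base-changed additive endomorphisms preserve `torsSpan`. -/
theorem bcEnd_mem_torsSpan {m : ℕ} (f : AddMonoid.End M) {y : O ⊗[ℤ] M}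
    (hy : y ∈ torsSpan O M m) : bcEnd O f y ∈ torsSpan O M m := by
  refine torsSpan_induction (p := fun y => bcEnd O f y ∈ torsSpan O M m) ?_ ?_ ?_ hy
  · rw [map_zero]; exact Submodule.zero_mem _
  · intro y z hy hz
    rw [map_add]; exact Submodule.add_mem _ hy hz
  · intro c x hx
    rw [bcEnd_tmul]
    refine tmul_mem_torsSpan c ?_
    have h : m • f x = f (m • x) := (map_nsmul f m x).symm
    rw [h, hx, map_zero]

/-- an additive endomorphism fixing the classes killed by `m` fixes `torsSpan`. -/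
theorem bcEnd_eq_self_of_fix {m : ℕ} (f : AddMonoid.End M) (hf : ∀ x : M, m • x = 0 → f x = x)
    {y : O ⊗[ℤ] M} (hy : y ∈ torsSpan O M m) : bcEnd O f y = y := by
  refine torsSpan_induction (p := fun y => bcEnd O f y = y) (map_zero _) ?_ ?_ hy
  · intro y z hy hz
    rw [map_add, hy, hz]
  · intro c x hx
    rw [bcEnd_tmul, hf x hx]

/-- a quadratic relation on the classes killed by `m` holds on `torsSpan`. -/
theorem bcEnd_quad_of_quad {m : ℕ} (f t : AddMonoid.End M) (ℓ : ℕ)
    (h : ∀ x : M, m • x = 0 → f (f x) - t (f x) + ℓ • x = 0)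
    {y : O ⊗[ℤ] M} (hy : y ∈ torsSpan O M m) :
    bcEnd O f (bcEnd O f y) - bcEnd O t (bcEnd O f y) + (ℓ : O) • y = 0 := by
  refine torsSpan_induction
    (p := fun y => bcEnd O f (bcEnd O f y) - bcEnd O t (bcEnd O f y) + (ℓ : O) • y = 0)
    ?_ ?_ ?_ hy
  · simp
  · intro y z hy hz
    have e : bcEnd O f (bcEnd O f (y + z)) - bcEnd O t (bcEnd O f (y + z)) + (ℓ : O) • (y + z)
        = (bcEnd O f (bcEnd O f y) - bcEnd O t (bcEnd O f y) + (ℓ : O) • y)
          + (bcEnd O f (bcEnd O f z) - bcEnd O t (bcEnd O f z) + (ℓ : O) • z) := by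
      simp only [map_add, smul_add]; abel
    rw [e, hy, hz, add_zero]
  · intro c x hx
    have e : (ℓ : O) • c = ℓ • c := by rw [nsmul_eq_mul, smul_eq_mul]
    rw [bcEnd_tmul, bcEnd_tmul, bcEnd_tmul, TensorProduct.smul_tmul', ← TensorProduct.tmul_sub,
      e, TensorProduct.smul_tmul, ← TensorProduct.tmul_add, h x hx, TensorProduct.tmul_zero]

end BaseChange

section Wit

variable {O : Type} [CommRing O] {M : Type} [AddCommGroup M]

/-- Every element of `O ⊗ M` is fixed at finite level if every element of `M` is. -/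
theorem exists_fix_tensor (act : Γ →* AddMonoid.End M)
    (hFL : ∀ x : M, ∃ K0 : IntermediateField ℚ Qb, FiniteDimensional ℚ K0 ∧
      ∀ σ : Γ, (∀ a ∈ K0, σ a = a) → act σ x = x) (v : O ⊗[ℤ] M) :
    ∃ K0 : IntermediateField ℚ Qb, FiniteDimensional ℚ K0 ∧
      ∀ σ : Γ, (∀ a ∈ K0, σ a = a) → bcEnd O (act σ) v = v := by
  induction v using TensorProduct.induction_on with
  | zero => exact ⟨⊥, inferInstance, fun σ _ => map_zero _⟩
  | tmul c x =>
    obtain ⟨K0, hK0, h⟩ := hFL x
    exact ⟨K0, hK0, fun σ hσ => by rw [bcEnd_tmul, h σ hσ]⟩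
  | add x y hx hy =>
    obtain ⟨K1, hK1, h1⟩ := hx
    obtain ⟨K2, hK2, h2⟩ := hy
    refine ⟨K1 ⊔ K2, IntermediateField.finiteDimensional_sup K1 K2, fun σ hσ => ?_⟩
    rw [map_add, h1 σ (fun a ha => hσ a ((le_sup_left : K1 ≤ K1 ⊔ K2) ha)),
      h2 σ (fun a ha => hσ a ((le_sup_right : K2 ≤ K1 ⊔ K2) ha))]

/-- The Galois orbit of an element of `O ⊗ M` is finite. -/
theorem finite_orbit_tensor (act : Γ →* AddMonoid.End M)
    (hFL : ∀ x : M, ∃ K0 : IntermediateField ℚ Qb, FiniteDimensional ℚ K0 ∧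
      ∀ σ : Γ, (∀ a ∈ K0, σ a = a) → act σ x = x) (v : O ⊗[ℤ] M) :
    (Set.range fun σ : Γ => bcEnd O (act σ) v).Finite := by
  classical
  obtain ⟨L, hL, hfix⟩ := exists_fix_tensor (O := O) act hFL v
  let r : Γ → (L →ₐ[ℚ] Qb) := fun σ => (σ : Qb →ₐ[ℚ] Qb).comp L.val
  let f : (L →ₐ[ℚ] Qb) → O ⊗[ℤ] M := fun e =>
    if h : ∃ σ : Γ, r σ = e then bcEnd O (act h.choose) v else 0
  refine (Set.finite_range f).subset ?_
  rintro _ ⟨σ, rfl⟩
  refine ⟨r σ, ?_⟩
  have h : ∃ τ : Γ, r τ = r σ := ⟨σ, rfl⟩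
  show f (r σ) = bcEnd O (act σ) v
  simp only [f, dif_pos h]
  have hτ : r h.choose = r σ := h.choose_spec
  have hfix' : bcEnd O (act (σ⁻¹ * h.choose)) v = v := by
    refine hfix _ (fun c hc => ?_)
    have h1 : h.choose c = σ c := DFunLike.congr_fun hτ ⟨c, hc⟩
    show σ⁻¹ (h.choose c) = c
    rw [h1]
    exact σ.symm_apply_apply c
  calc bcEnd O (act h.choose) v
      = bcEnd O (act (σ * (σ⁻¹ * h.choose))) v := by rw [mul_inv_cancel_left]
    _ = bcEnd O (act σ) (bcEnd O (act (σ⁻¹ * h.choose)) v) := by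
        rw [map_mul, bcEnd_mul]; rfl
    _ = bcEnd O (act σ) v := by rw [hfix']

/-- **(WIT-M), abstract form, one modulus.** -/
theorem exists_witMod_abs
    (act : Γ →* AddMonoid.End M)
    (hFL : ∀ x : M, ∃ K0 : IntermediateField ℚ Qb, FiniteDimensional ℚ K0 ∧
      ∀ σ : Γ, (∀ a ∈ K0, σ a = a) → act σ x = x)
    (m : ℕ) (P P' : Set ℕ) (T : ℕ → AddMonoid.End M) (a : ℕ → O)
    (hGC : ∀ ℓ ∈ P, ∀ (σ : Γ) (x : M), T ℓ (act σ x) = act σ (T ℓ x))
    (hFrob : ∀ ℓ ∈ P, ∀ A : ValuationSubring Qb, A.LiesOverPrime ℓ →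
      ∀ σ : Γ, A.IsFrobeniusAt σ ℓ → ∀ x : M, m • x = 0 →
        act σ (act σ x) - T ℓ (act σ x) + ℓ • x = 0)
    (hInert : ∀ q ∈ P', ∀ A : ValuationSubring Qb, A.LiesOverPrime q →
      ∀ τ ∈ A.inertiaSubgroupIn ℚ, ∀ x : M, m • x = 0 → act τ x = x)
    (w : O ⊗[ℤ] M) (hw : w ∈ torsSpan O M m)
    (heig : ∀ ℓ ∈ P, bcEnd O (T ℓ) w = a ℓ • w) :
    ∃ (W : Type) (_ : AddCommGroup W) (_ : Module O W) (r : Γ →* Module.End O W),
      (∀ c : O, (∀ x : W, c • x = 0) → c • w = 0) ∧
      (∀ x : W, (m : O) • x = 0) ∧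
      GaloisFactorsThroughFiniteLevel r ∧
      (∀ ℓ ∈ P, ∀ A : ValuationSubring Qb, A.LiesOverPrime ℓ →
        ∀ σ : Γ, A.IsFrobeniusAt σ ℓ →
          r σ * r σ - a ℓ • r σ + (ℓ : O) • (1 : Module.End O W) = 0) ∧
      (∀ q ∈ P', ∀ A : ValuationSubring Qb, A.LiesOverPrime q →
        ∀ τ ∈ A.inertiaSubgroupIn ℚ, r τ = 1) := by
  classical
  -- the base-changed action
  let B : Γ →* Module.End O (O ⊗[ℤ] M) := (bcHom O).comp act
  have hB : ∀ σ, B σ = bcEnd O (act σ) := fun σ => rfl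
  -- the span of the orbit
  let Wsub : Submodule O (O ⊗[ℤ] M) := Submodule.span O (Set.range fun σ : Γ => B σ w)
  have hstab : ∀ σ : Γ, ∀ v ∈ Wsub, B σ v ∈ Wsub := by
    intro σ v hv
    induction hv using Submodule.span_induction with
    | mem x hx =>
      obtain ⟨τ, rfl⟩ := hx
      refine Submodule.subset_span ⟨σ * τ, ?_⟩
      show B (σ * τ) w = B σ (B τ w)
      rw [map_mul]; rfl
    | zero => rw [map_zero]; exact Submodule.zero_mem _
    | add x y _ _ hx hy => rw [map_add]; exact Submodule.add_mem _ hx hy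
    | smul c x _ hx => rw [map_smul]; exact Submodule.smul_mem _ _ hx
  have hwW : w ∈ Wsub := Submodule.subset_span ⟨1, by show B 1 w = w; rw [map_one]; rfl⟩
  have hWT : Wsub ≤ torsSpan O M m := by
    refine Submodule.span_le.mpr ?_
    rintro _ ⟨σ, rfl⟩
    exact bcEnd_mem_torsSpan (act σ) hw
  -- the representation on the span
  let r : Γ →* Module.End O Wsub :=
    { toFun := fun σ => (B σ).restrict (hstab σ)
      map_one' := by
        refine LinearMap.ext (fun v => Subtype.ext ?_)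
        show B 1 (v : O ⊗[ℤ] M) = v
        rw [map_one]; rfl
      map_mul' := fun σ τ => by
        refine LinearMap.ext (fun v => Subtype.ext ?_)
        show B (σ * τ) (v : O ⊗[ℤ] M) = B σ (B τ v)
        rw [map_mul]; rfl }
  have hr : ∀ (σ : Γ) (v : Wsub), ((r σ v : Wsub) : O ⊗[ℤ] M) = B σ v := fun σ v => rfl
  refine ⟨Wsub, inferInstance, inferInstance, r, ?_, ?_, ?_, ?_, ?_⟩
  · -- annihilator
    intro c hc
    exact congrArg Subtype.val (hc ⟨w, hwW⟩)
  · -- `m` kills `W`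
    intro x
    exact Subtype.ext (natCast_smul_eq_zero_of_mem_torsSpan (hWT x.2))
  · -- finite level
    have hfin := finite_orbit_tensor (O := O) act hFL w
    have hex : ∀ y : (Set.range fun σ : Γ => bcEnd O (act σ) w),
        ∃ K0 : IntermediateField ℚ Qb, FiniteDimensional ℚ K0 ∧
          ∀ σ : Γ, (∀ a ∈ K0, σ a = a) → bcEnd O (act σ) (y : O ⊗[ℤ] M) = y :=
      fun y => exists_fix_tensor act hFL _
    choose L hL h using hex
    have := hfin.to_subtype
    have := hL
    refine ⟨⨆ y, L y, IntermediateField.finiteDimensional_iSup_of_finite, fun σ hσ => ?_⟩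
    have hfix : ∀ v ∈ Wsub, B σ v = v := by
      intro v hv
      induction hv using Submodule.span_induction with
      | mem x hx => exact h ⟨x, hx⟩ σ (fun a ha => hσ a ((le_iSup L ⟨x, hx⟩) ha))
      | zero => exact map_zero _
      | add x y _ _ hx hy => rw [map_add, hx, hy]
      | smul c x _ hx => rw [map_smul, hx]
    refine LinearMap.ext (fun v => Subtype.ext ?_)
    rw [Module.End.one_apply, hr]
    exact hfix v v.2
  · -- Frobenius
    intro ℓ hℓ A hA σ hσ
    -- `T ℓ` is the scalar `a ℓ` on the span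
    have hT : ∀ v ∈ Wsub, bcEnd O (T ℓ) v = a ℓ • v := by
      intro v hv
      induction hv using Submodule.span_induction with
      | mem x hx =>
        obtain ⟨τ, rfl⟩ := hx
        have hcomm : bcEnd O (T ℓ) (B τ w) = B τ (bcEnd O (T ℓ) w) := by
          have : bcEnd O (T ℓ) * bcEnd O (act τ) = bcEnd O (act τ) * bcEnd O (T ℓ) := by
            rw [← bcEnd_mul, ← bcEnd_mul]
            congr 1
            exact AddMonoidHom.ext (fun x => hGC ℓ hℓ τ x)
          exact LinearMap.congr_fun this w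
        show bcEnd O (T ℓ) (B τ w) = a ℓ • B τ w
        rw [hcomm, heig ℓ hℓ, map_smul]
      | zero => rw [map_zero, smul_zero]
      | add x y _ _ hx hy => rw [map_add, hx, hy, smul_add]
      | smul c x _ hx => rw [map_smul, hx, smul_comm]
    refine LinearMap.ext (fun v => Subtype.ext ?_)
    have h1 := bcEnd_quad_of_quad (O := O) (act σ) (T ℓ) ℓ (hFrob ℓ hℓ A hA σ hσ) (hWT v.2)
    rw [← hB, hT _ (hstab σ v v.2)] at h1
    show B σ (B σ (v : O ⊗[ℤ] M)) - a ℓ • B σ (v : O ⊗[ℤ] M) + (ℓ : O) • (v : O ⊗[ℤ] M) = 0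
    exact h1
  · -- inertia
    intro q hq A hA τ hτ
    refine LinearMap.ext (fun v => Subtype.ext ?_)
    rw [Module.End.one_apply, hr, hB]
    exact bcEnd_eq_self_of_fix (act τ) (hInert q hq A hA τ hτ) (hWT v.2)

end Wit

section Kummer

variable {O : Type} [CommRing O] {Λ J : Type} [AddCommGroup Λ] [AddCommGroup J]

/-- the image of `O ⊗ Λ` under an additive map `Ψ : Λ → J` killed by `m` lies in `torsSpan`. -/
theorem baseChange_mem_torsSpan (Ψ : Λ →+ J) (m : ℕ) (hΨm : ∀ x : Λ, m • Ψ x = 0)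
    (u : O ⊗[ℤ] Λ) : Ψ.toIntLinearMap.baseChange O u ∈ torsSpan O J m := by
  induction u using TensorProduct.induction_on with
  | zero => rw [map_zero]; exact Submodule.zero_mem _
  | tmul c x =>
    rw [LinearMap.baseChange_tmul]
    exact tmul_mem_torsSpan c (hΨm x)
  | add x y hx hy => rw [map_add]; exact Submodule.add_mem _ hx hy

/-- transport of an eigen-equation along `Ψ`: if `T ∘ Ψ = Ψ ∘ E` and `(1 ⊗ E) v = a • v` then
`(1 ⊗ T) ((1 ⊗ Ψ) v) = a • (1 ⊗ Ψ) v`. -/
theorem bcEnd_baseChange_eq (Ψ : Λ →+ J) (T : AddMonoid.End J) (E : Module.End ℤ Λ)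
    (hTE : ∀ x : Λ, T (Ψ x) = Ψ (E x)) (v : O ⊗[ℤ] Λ) (a : O)
    (hv : E.baseChange O v = a • v) :
    bcEnd O T (Ψ.toIntLinearMap.baseChange O v) = a • Ψ.toIntLinearMap.baseChange O v := by
  have hcomp : (AddMonoidHom.toIntLinearMap T) ∘ₗ Ψ.toIntLinearMap = Ψ.toIntLinearMap ∘ₗ E :=
    LinearMap.ext fun x => hTE x
  show (AddMonoidHom.toIntLinearMap T).baseChange O (Ψ.toIntLinearMap.baseChange O v)
    = a • Ψ.toIntLinearMap.baseChange O v
  rw [← LinearMap.comp_apply, ← LinearMap.baseChange_comp, hcomp, LinearMap.baseChange_comp,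
    LinearMap.comp_apply, hv, map_smul]

/-- **Exact annihilator.**  `O` flat over `ℤ`, `Ψ : Λ → J` additive, killed by `m`, with kernel
`m Λ`, and `v ∈ O ⊗ Λ` primitive (`φ v = 1` for an `O`-linear functional `φ`): a scalar of `O`
killing `(1 ⊗ Ψ) v` lies in `m O`. -/
theorem mem_span_of_smul_baseChange_eq_zero [Module.Flat ℤ O] (Ψ : Λ →+ J) (m : ℕ)
    (hΨm : ∀ x : Λ, m • Ψ x = 0) (hΨker : ∀ x : Λ, Ψ x = 0 → ∃ x' : Λ, x = m • x')
    (v : O ⊗[ℤ] Λ) (φ : O ⊗[ℤ] Λ →ₗ[O] O) (hφ : φ v = 1) (c : O)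
    (hc : c • Ψ.toIntLinearMap.baseChange O v = 0) : c ∈ Ideal.span {(m : O)} := by
  let mulm : Λ →ₗ[ℤ] Λ := LinearMap.lsmul ℤ Λ (m : ℤ)
  have hmulm : ∀ y, mulm y = (m : ℤ) • y := fun _ => rfl
  have hex : Function.Exact mulm Ψ.toIntLinearMap := by
    intro y
    constructor
    · intro hy
      obtain ⟨y', rfl⟩ := hΨker y hy
      exact ⟨y', by rw [hmulm, natCast_zsmul]⟩
    · rintro ⟨y', rfl⟩
      rw [hmulm, AddMonoidHom.coe_toIntLinearMap, natCast_zsmul, map_nsmul, hΨm]
  have hmul : ∀ u : O ⊗[ℤ] Λ, (mulm.lTensor O) u = (m : O) • u := by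
    intro u
    induction u using TensorProduct.induction_on with
    | zero => rw [map_zero, smul_zero]
    | tmul b x =>
      rw [LinearMap.lTensor_tmul, hmulm, TensorProduct.smul_tmul', ← TensorProduct.smul_tmul,
        zsmul_eq_mul, Int.cast_natCast, smul_eq_mul]
    | add x y hx hy => rw [map_add, hx, hy, smul_add]
  have hex' := Module.Flat.lTensor_exact O hex
  have hcv : (Ψ.toIntLinearMap.lTensor O) (c • v) = 0 := by
    rw [← LinearMap.baseChange_eq_ltensor, map_smul]
    exact hc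
  obtain ⟨u, hu⟩ := (hex' (c • v)).mp hcv
  rw [hmul] at hu
  have hc' : c = (m : O) * φ u := by
    calc c = c • φ v := by rw [hφ, smul_eq_mul, mul_one]
      _ = φ (c • v) := (map_smul φ c v).symm
      _ = φ ((m : O) • u) := by rw [hu]
      _ = (m : O) • φ u := map_smul φ _ u
      _ = (m : O) * φ u := smul_eq_mul _ _
  rw [hc']
  exact Ideal.mul_mem_right _ _ (Ideal.subset_span rfl)

end Kummer

end Fermat.Agent.S30.H80
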