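import Mathlib
import Fermat.Agent.S29.Stmts_helper27
import Fermat.Agent.S29.GalClass_helper26
import Fermat.Agent.S29.GalHecke_helper13
import Fermat.Agent.S29.FinLevel_helper94
import Fermat.Agent.S30.WitMAbs_helper80

/-!
# S30, node (WIT-M): the witness modules `W_M` (helper80)

`O` is a commutative ring, flat over `ℤ` (found by `inferInstance` for a domain of
characteristic zero), `Λ = H27.Lam N = Hom_par(Γ₀(N), ℤ)`.  Input: the Kummer class maps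
`Ψ_m : Λ → J₀(N)` of helper27's `H27.PsiStmt N m` (as a hypothesis), and a *primitive*
eigenvector `v ∈ O ⊗[ℤ] Λ` of the transposed Hecke operators: an `O`-linear functional `φ` with
`φ v = 1`, and for every `ℓ ∈ P` a `ℤ`-endomorphism `E` of `Λ` realising helper6's transfer
relation `H06.IsHeckeTr N ℓ x (E x)` with `(1 ⊗ E) v = a ℓ • v`.

* `exists_witMod` (one modulus `m`): `W` := the `O`-span of the Galois orbit of
  `w = (1 ⊗ Ψ_m) v` in `O ⊗[ℤ] J₀(N)`, with its Galois action `r`: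
  - a scalar of `O` killing `W` lies in `m O` (exact annihilator), and `m` kills `W`;
  - `r` factors through a finite level;
  - `r σ * r σ - a ℓ • r σ + ℓ • 1 = 0` for every Frobenius element `σ` at `ℓ ∈ P`, `ℓ ∤ N m`;
  - `r τ = 1` for `τ` in an inertia group at a prime `q ∤ N m`.
* `exists_witM` : the family `W M` (`m = p ^ M`) in the binder shape of helper17's
  `H17.exists_pseudoChar` (`hann`, `hquad` verbatim).
-/

set_option autoImplicit false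

open ModularCurve ModularCurve.Period CongruenceSubgroup AlgebraicCurve
open scoped MatrixGroups TensorProduct

namespace Fermat.Agent.S30.H80

open Fermat.Agent.S29

local notation "Qb" => AlgebraicClosure ℚ
local notation "Γ" => (AlgebraicClosure ℚ ≃ₐ[ℚ] AlgebraicClosure ℚ)

noncomputable section

section Defs

variable (N : ℕ) [NeZero N]

omit [NeZero N] in
/-- The Galois action on `J₀(N)` as a monoid homomorphism. -/
def galAct : Γ →* AddMonoid.End (JZero N) :=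
  DistribMulAction.toAddMonoidEnd Γ (JZero N)

omit [NeZero N] in
theorem galAct_apply (σ : Γ) (x : JZero N) : galAct N σ x = σ • x := rfl

/-- The Hecke operators of `J₀(N)` as additive endomorphisms, indexed by all natural numbers
(zero at the non-primes). -/
def heckeAdd (ℓ : ℕ) : AddMonoid.End (JZero N) :=
  if h : ℓ.Prime then (heckeOperatorBar N (⟨ℓ, h⟩ : Nat.Primes)).toAddMonoidHom else 0

theorem heckeAdd_eq {ℓ : ℕ} (h : ℓ.Prime) :
    heckeAdd N ℓ = (heckeOperatorBar N (⟨ℓ, h⟩ : Nat.Primes)).toAddMonoidHom :=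
  dif_pos h

theorem heckeAdd_apply {ℓ : ℕ} (h : ℓ.Prime) (x : JZero N) :
    heckeAdd N ℓ x = heckeOperatorBar N (⟨ℓ, h⟩ : Nat.Primes) x := by
  rw [heckeAdd_eq N h]
  rfl

end Defs

/-- **(WIT-M), one modulus.** -/
theorem exists_witMod {N : ℕ} [NeZero N] {m : ℕ} (hPsi : H27.PsiStmt N m)
    {O : Type} [CommRing O] [Module.Flat ℤ O] (P : Set ℕ) (a : ℕ → O)
    (v : O ⊗[ℤ] H27.Lam N) (φ : O ⊗[ℤ] H27.Lam N →ₗ[O] O) (hφ : φ v = 1)
    (heig : ∀ ℓ ∈ P, ∃ E : Module.End ℤ (H27.Lam N),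
      (∀ x : H27.Lam N, H06.IsHeckeTr N ℓ (x : Additive (Gamma0 N) →+ ℤ)
        ((E x : H27.Lam N) : Additive (Gamma0 N) →+ ℤ)) ∧
      E.baseChange O v = a ℓ • v) :
    ∃ (W : Type) (_ : AddCommGroup W) (_ : Module O W) (r : Γ →* Module.End O W),
      (∀ c : O, (∀ w : W, c • w = 0) → c ∈ Ideal.span {(m : O)}) ∧
      (∀ w : W, (m : O) • w = 0) ∧
      GaloisFactorsThroughFiniteLevel r ∧
      (∀ ℓ ∈ P, ℓ.Prime → ¬ ℓ ∣ N → ¬ ℓ ∣ m → ∀ A : ValuationSubring Qb, A.LiesOverPrime ℓ →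
        ∀ σ : Γ, A.IsFrobeniusAt σ ℓ →
          r σ * r σ - a ℓ • r σ + (ℓ : O) • (1 : Module.End O W) = 0) ∧
      (∀ q : ℕ, q.Prime → ¬ q ∣ N → ¬ q ∣ m → ∀ A : ValuationSubring Qb, A.LiesOverPrime q →
        ∀ τ ∈ A.inertiaSubgroupIn ℚ, r τ = 1) := by
  classical
  obtain ⟨Ψ, hΨm, hΨker, hΨT⟩ := hPsi
  -- the sets of good primes
  let Pa : Set ℕ := {ℓ | ℓ ∈ P ∧ ℓ.Prime ∧ ¬ ℓ ∣ N ∧ ¬ ℓ ∣ m}
  let Pi : Set ℕ := {q | q.Prime ∧ ¬ q ∣ N ∧ ¬ q ∣ m}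
  have hGC : ∀ ℓ ∈ Pa, ∀ (σ : Γ) (x : JZero N),
      heckeAdd N ℓ (galAct N σ x) = galAct N σ (heckeAdd N ℓ x) := by
    rintro ℓ ⟨-, hℓ, -, -⟩ σ x
    rw [heckeAdd_apply N hℓ, heckeAdd_apply N hℓ, galAct_apply, galAct_apply]
    exact H13.heckeOperatorBar_smul N ⟨ℓ, hℓ⟩ σ x
  have hFrob : ∀ ℓ ∈ Pa, ∀ A : ValuationSubring Qb, A.LiesOverPrime ℓ →
      ∀ σ : Γ, A.IsFrobeniusAt σ ℓ → ∀ x : JZero N, m • x = 0 →
        galAct N σ (galAct N σ x) - heckeAdd N ℓ (galAct N σ x) + ℓ • x = 0 := by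
    rintro ℓ ⟨-, hℓ, hℓN, hℓm⟩ A hA σ hσ x hx
    rw [heckeAdd_apply N hℓ, galAct_apply, galAct_apply]
    exact H26.frob_quad N hℓ hℓN A hA σ hσ m hℓm x hx
  have hInert : ∀ q ∈ Pi, ∀ A : ValuationSubring Qb, A.LiesOverPrime q →
      ∀ τ ∈ A.inertiaSubgroupIn ℚ, ∀ x : JZero N, m • x = 0 → galAct N τ x = x := by
    rintro q ⟨hq, hqN, hqm⟩ A hA τ hτ x hx
    rw [galAct_apply]
    exact H26.inertia_fix N hq hqN A hA τ hτ m hqm x hx
  have hFL : ∀ x : JZero N, ∃ K0 : IntermediateField ℚ Qb, FiniteDimensional ℚ K0 ∧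
      ∀ σ : Γ, (∀ a ∈ K0, σ a = a) → galAct N σ x = x :=
    fun x => H94.exists_finiteDimensional_fix_class N x
  have heigw : ∀ ℓ ∈ Pa, bcEnd O (heckeAdd N ℓ) (Ψ.toIntLinearMap.baseChange O v)
      = a ℓ • Ψ.toIntLinearMap.baseChange O v := by
    rintro ℓ ⟨hℓP, hℓ, hℓN, -⟩
    obtain ⟨E, hE, hEv⟩ := heig ℓ hℓP
    refine bcEnd_baseChange_eq Ψ (heckeAdd N ℓ) E (fun x => ?_) v (a ℓ) hEv
    rw [heckeAdd_apply N hℓ]
    exact hΨT ⟨ℓ, hℓ⟩ hℓN x (E x) (hE x)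
  obtain ⟨W, iA, iM, r, h1, h2, h3, h4, h5⟩ :=
    exists_witMod_abs (galAct N) hFL m Pa Pi (heckeAdd N) a hGC hFrob hInert
      (Ψ.toIntLinearMap.baseChange O v) (baseChange_mem_torsSpan Ψ m hΨm v) heigw
  refine ⟨W, iA, iM, r, ?_, h2, h3, ?_, ?_⟩
  · -- exact annihilator
    intro c hc
    exact mem_span_of_smul_baseChange_eq_zero Ψ m hΨm hΨker v φ hφ c (h1 c hc)
  · intro ℓ hℓP hℓ hℓN hℓm A hA σ hσ
    exact h4 ℓ ⟨hℓP, hℓ, hℓN, hℓm⟩ A hA σ hσ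
  · intro q hq hqN hqm A hA τ hτ
    exact h5 q ⟨hq, hqN, hqm⟩ A hA τ hτ

/-- **(WIT-M)**: the family of witness modules `W M` (modulus `p ^ M`), in the binder shape of
helper17's `H17.exists_pseudoChar`. -/
theorem exists_witM
    (hPsi : ∀ (N : ℕ) [NeZero N] (m : ℕ), m ≠ 0 → H27.PsiStmt N m)
    (p : ℕ) (hp : p.Prime) (N : ℕ) [NeZero N]
    {O : Type} [CommRing O] [Module.Flat ℤ O] (I : Ideal O) (hpI : (p : O) ∈ I)
    (P : Set ℕ) (a : ℕ → O)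
    (v : O ⊗[ℤ] H27.Lam N) (φ : O ⊗[ℤ] H27.Lam N →ₗ[O] O) (hφ : φ v = 1)
    (heig : ∀ ℓ ∈ P, ∃ E : Module.End ℤ (H27.Lam N),
      (∀ x : H27.Lam N, H06.IsHeckeTr N ℓ (x : Additive (Gamma0 N) →+ ℤ)
        ((E x : H27.Lam N) : Additive (Gamma0 N) →+ ℤ)) ∧
      E.baseChange O v = a ℓ • v) :
    ∃ (W : ℕ → Type) (_ : ∀ M, AddCommGroup (W M)) (_ : ∀ M, Module O (W M))
      (r : ∀ M, Γ →* Module.End O (W M)),
      (∀ M (c : O), (∀ w : W M, c • w = 0) → c ∈ I ^ M) ∧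
      (∀ M (w : W M), ((p : O) ^ M) • w = 0) ∧
      (∀ M, GaloisFactorsThroughFiniteLevel (r M)) ∧
      (∀ M, ∀ ℓ ∈ P, ℓ.Prime → ¬ ℓ ∣ N * p → ∀ A : ValuationSubring Qb, A.LiesOverPrime ℓ →
        ∀ σ : Γ, A.IsFrobeniusAt σ ℓ →
          r M σ * r M σ - a ℓ • r M σ + (ℓ : O) • (1 : Module.End O (W M)) = 0) ∧
      (∀ M, ∀ q : ℕ, q.Prime → ¬ q ∣ N * p → ∀ A : ValuationSubring Qb, A.LiesOverPrime q →
        ∀ τ ∈ A.inertiaSubgroupIn ℚ, r M τ = 1) := by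
  have key := fun M : ℕ => exists_witMod
    (hPsi N (p ^ M) (pow_ne_zero M hp.ne_zero)) P a v φ hφ heig
  choose W iA iM r h1 h2 h3 h4 h5 using key
  refine ⟨W, iA, iM, r, ?_, ?_, h3, ?_, ?_⟩
  · intro M c hc
    have h := h1 M c hc
    rw [Nat.cast_pow, ← Ideal.span_singleton_pow] at h
    exact Ideal.pow_right_mono ((Ideal.span_singleton_le_iff_mem I).mpr hpI) M h
  · intro M w
    have h := h2 M w
    rwa [Nat.cast_pow] at h
  · intro M ℓ hℓP hℓ hℓNp A hA σ hσ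
    exact h4 M ℓ hℓP hℓ (fun h => hℓNp (h.mul_right p))
      (fun h => hℓNp ((hℓ.dvd_of_dvd_pow h).mul_left N)) A hA σ hσ
  · intro M q hq hqNp A hA τ hτ
    exact h5 M q hq (fun h => hqNp (h.mul_right p))
      (fun h => hqNp ((hq.dvd_of_dvd_pow h).mul_left N)) A hA τ hτ

end

end Fermat.Agent.S30.H80
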